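import Fermat.Prelude.Def_ModularCurve_LaurentCoeff
import Mathlib.RingTheory.Valuation.ValuationSubring
import Mathlib.Algebra.Polynomial.AlgebraMap
import Mathlib.RingTheory.LaurentSeries

/-!
# Exact polynomials from approximate ones, and exact roots from approximate ones

A Laurent series which is, modulo every power of `π`, a polynomial in a series `J` with a pole of
leading coefficient one, is such a polynomial.  Hence approximate `n`-th roots along all embeddings
of a field into the Laurent series come from an exact root (`exists_root_of_targets`).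
-/

set_option autoImplicit false

noncomputable section

namespace Fermat.Agent.Conn

open Polynomial

variable {K : Type*} [Field K] (A : ValuationSubring K) {J : LaurentSeries K} {e : ℕ}

/-- `x` is divisible by `c` among the series with coefficients in `A`. -/
def SmallSeries (c : K) (x : LaurentSeries K) : Prop := ∀ m, ∃ a ∈ A, x.coeff m = c * a

variable {A}

/-- Zero is divisible by everything. -/
theorem SmallSeries.zero (c : K) : SmallSeries A c 0 := fun _ => ⟨0, zero_mem A, by simp⟩

/-- Divisibility by `c` is stable under sums. -/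
theorem SmallSeries.add {c : K} {x y : LaurentSeries K} (hx : SmallSeries A c x)
    (hy : SmallSeries A c y) : SmallSeries A c (x + y) := by
  intro m
  obtain ⟨a, ha, ea⟩ := hx m
  obtain ⟨b, hb, eb⟩ := hy m
  exact ⟨a + b, add_mem ha hb, by rw [HahnSeries.coeff_add, ea, eb, mul_add]⟩

/-- Divisibility by `c` is stable under negation. -/
theorem SmallSeries.neg {c : K} {x : LaurentSeries K} (hx : SmallSeries A c x) :
    SmallSeries A c (-x) := by
  intro m
  obtain ⟨a, ha, ea⟩ := hx m
  exact ⟨-a, neg_mem ha, by rw [HahnSeries.coeff_neg, ea, mul_neg]⟩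

/-- Divisibility by `c` is stable under finite sums. -/
theorem SmallSeries.sum {c : K} {α : Type*} (s : Finset α) {x : α → LaurentSeries K}
    (hx : ∀ a ∈ s, SmallSeries A c (x a)) : SmallSeries A c (∑ a ∈ s, x a) := by
  classical
  induction s using Finset.induction_on with
  | empty => simpa using SmallSeries.zero c
  | insert a s ha ih =>
    rw [Finset.sum_insert ha]
    exact (hx a (Finset.mem_insert_self a s)).add
      (ih fun b hb => hx b (Finset.mem_insert_of_mem hb))

theorem SmallSeries.mul_int {c : K} {x y : LaurentSeries K} (hx : SmallSeries A c x)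
    (hy : ∀ m, y.coeff m ∈ A) : SmallSeries A c (x * y) := by
  intro m
  rw [HahnSeries.coeff_mul]
  choose a ha ea using hx
  refine ⟨∑ p ∈ Finset.antidiagonal x.isPWO_support y.isPWO_support m, a p.1 * y.coeff p.2,
    sum_mem fun p _ => mul_mem (ha _) (hy _), ?_⟩
  rw [Finset.mul_sum]
  exact Finset.sum_congr rfl fun p _ => by rw [ea, mul_assoc]

theorem coeff_mem_pow {y : LaurentSeries K} (hy : ∀ m, y.coeff m ∈ A) (N : ℕ) :
    ∀ m, (y ^ N).coeff m ∈ A := by
  induction N with
  | zero =>
    intro m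
    rw [pow_zero, HahnSeries.coeff_one]
    split_ifs
    exacts [one_mem A, zero_mem A]
  | succ N ih =>
    intro m
    rw [pow_succ, HahnSeries.coeff_mul]
    exact sum_mem fun p _ => mul_mem (ih _) (hy _)

/-- Multiplication by a constant acts coefficientwise. -/
theorem coeff_algebraMap_mul (c : K) (x : LaurentSeries K) (m : ℤ) :
    (algebraMap K (LaurentSeries K) c * x).coeff m = c * x.coeff m := by
  rw [show algebraMap K (LaurentSeries K) c = HahnSeries.C c from ?_,
    HahnSeries.C_apply, HahnSeries.coeff_single_zero_mul]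
  ext k
  simp [HahnSeries.algebraMap_apply', HahnSeries.C_apply]

/-- The `N`-th power of `J` has a pole of order `e N` with leading coefficient one. -/
theorem coeff_pow_lead (hlead : J.coeff (-(e : ℤ)) = 1) (hlow : ∀ m < -(e : ℤ), J.coeff m = 0)
    (N : ℕ) : (J ^ N).coeff (-((e * N : ℕ) : ℤ)) = 1 ∧
      ∀ m < -((e * N : ℕ) : ℤ), (J ^ N).coeff m = 0 := by
  induction N with
  | zero =>
    refine ⟨by simp, fun m hm => ?_⟩
    rw [pow_zero, HahnSeries.coeff_one, if_neg]
    simp at hm
    omega
  | succ N ih =>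
    have hzero : ∀ a b : ℤ, a + b ≤ -((e * (N + 1) : ℕ) : ℤ) →
        (a ≠ -((e * N : ℕ) : ℤ) ∨ b ≠ -(e : ℤ) ∨ a + b < -((e * (N + 1) : ℕ) : ℤ)) →
        (J ^ N).coeff a * J.coeff b = 0 := by
      intro a b hab hne
      rcases lt_or_ge a (-((e * N : ℕ) : ℤ)) with h | h
      · rw [ih.2 a h, zero_mul]
      · rw [hlow b ?_, mul_zero]
        have hexp : ((e * (N + 1) : ℕ) : ℤ) = ((e * N : ℕ) : ℤ) + e := by push_cast; ring
        omega
    refine ⟨?_, fun m hm => ?_⟩
    · rw [pow_succ, HahnSeries.coeff_mul]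
      rw [Finset.sum_eq_single_of_mem (-((e * N : ℕ) : ℤ), -(e : ℤ))]
      · rw [ih.1, hlead, one_mul]
      · simp only [Finset.mem_antidiagonal, HahnSeries.mem_support, ih.1, hlead,
          ne_eq, one_ne_zero, not_false_eq_true, true_and]
        push_cast
        ring
      · rintro ⟨a, b⟩ hab hne
        simp only [Finset.mem_antidiagonal] at hab
        refine hzero a b hab.2.2.le ?_
        by_contra hc
        push Not at hc
        exact hne (Prod.ext hc.1 hc.2.1)
    · rw [pow_succ, HahnSeries.coeff_mul]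
      refine Finset.sum_eq_zero ?_
      rintro ⟨a, b⟩ hab
      simp only [Finset.mem_antidiagonal] at hab
      exact hzero a b (hab.2.2 ▸ hm.le) (Or.inr (Or.inr (hab.2.2 ▸ hm)))

variable (he : 0 < e) (hlead : J.coeff (-(e : ℤ)) = 1) (hlow : ∀ m < -(e : ℤ), J.coeff m = 0)

include hlead hlow he in
theorem coeff_aeval_eq_zero (Q : K[X]) {m : ℕ} (hQ : Q.natDegree < m) :
    (aeval J Q).coeff (-((e * m : ℕ) : ℤ)) = 0 := by
  rw [aeval_def, eval₂_eq_sum_range, HahnSeries.coeff_sum]
  refine Finset.sum_eq_zero fun k hk => ?_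
  rw [coeff_algebraMap_mul, (coeff_pow_lead hlead hlow k).2 _ ?_, mul_zero]
  have : e * k < e * m := Nat.mul_lt_mul_of_pos_left
    ((Nat.le_of_lt_succ (Finset.mem_range.1 hk)).trans_lt hQ) he
  omega

include hlead hlow he in
theorem coeff_aeval_natDegree (Q : K[X]) :
    (aeval J Q).coeff (-((e * Q.natDegree : ℕ) : ℤ)) = Q.leadingCoeff := by
  rw [aeval_def, eval₂_eq_sum_range, HahnSeries.coeff_sum, Finset.sum_eq_single_of_mem Q.natDegree
    (Finset.self_mem_range_succ _)]
  · rw [coeff_algebraMap_mul, (coeff_pow_lead hlead hlow _).1, mul_one]; rfl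
  · intro k hk hne
    rw [coeff_algebraMap_mul, (coeff_pow_lead hlead hlow k).2 _ ?_, mul_zero]
    have : e * k < e * Q.natDegree := Nat.mul_lt_mul_of_pos_left
      (lt_of_le_of_ne (Nat.le_of_lt_succ (Finset.mem_range.1 hk)) hne) he
    omega

include hlead hlow he in
/-- A polynomial in `J` is small if its coefficients at the powers of the leading pole are. -/
theorem smallSeries_aeval (hint : ∀ m, J.coeff m ∈ A) {c : K} (Q : K[X])
    (h : ∀ m : ℕ, ∃ a ∈ A, (aeval J Q).coeff (-((e * m : ℕ) : ℤ)) = c * a) :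
    SmallSeries A c (aeval J Q) := by
  induction hd : Q.natDegree using Nat.strong_induction_on generalizing Q with
  | _ d ih =>
    subst hd
    obtain ⟨a, ha, hea⟩ := h Q.natDegree
    rw [coeff_aeval_natDegree he hlead hlow] at hea
    have hterm : SmallSeries A c (algebraMap K (LaurentSeries K) Q.leadingCoeff * J ^ Q.natDegree) := fun m =>
      ⟨a * (J ^ Q.natDegree).coeff m, mul_mem ha (coeff_mem_pow hint _ m),
        by rw [coeff_algebraMap_mul, hea, mul_assoc]⟩
    have hsplit : aeval J Q = aeval J Q.eraseLead + algebraMap K (LaurentSeries K) Q.leadingCoeff * J ^ Q.natDegree := by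
      conv_lhs => rw [← eraseLead_add_C_mul_X_pow Q]
      rw [map_add, map_mul, aeval_C, map_pow, aeval_X]
    rw [hsplit]
    refine SmallSeries.add ?_ hterm
    rcases Nat.eq_zero_or_pos Q.natDegree with h0 | h0
    · have : Q.eraseLead = 0 := by
        rw [eq_C_of_natDegree_eq_zero h0, eraseLead_C]
      rw [this, map_zero]
      exact SmallSeries.zero c
    · refine ih _ ((eraseLead_natDegree_le Q).trans_lt (by omega)) Q.eraseLead (fun m => ?_) rfl
      obtain ⟨b, hb, heb⟩ := h m
      obtain ⟨b', hb', heb'⟩ := hterm (-((e * m : ℕ) : ℤ))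
      refine ⟨b - b', sub_mem hb hb', ?_⟩
      rw [hsplit, HahnSeries.coeff_add, heb'] at heb
      linear_combination heb

include hlead hlow he in
/-- Polynomials in `J` realise every prescribed principal part in degrees `-e m`, `m ≤ D`. -/
theorem exists_poly_prescribed (U : LaurentSeries K) (D : ℕ) :
    ∃ P : K[X], P.natDegree ≤ D ∧
      ∀ m ≤ D, (U - aeval J P).coeff (-((e * m : ℕ) : ℤ)) = 0 := by
  induction D generalizing U with
  | zero =>
    refine ⟨C (U.coeff 0), (natDegree_C _).le, fun m hm => ?_⟩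
    rw [Nat.le_zero.1 hm, mul_zero, Nat.cast_zero, neg_zero, HahnSeries.coeff_sub, aeval_C,
      ← mul_one (algebraMap K (LaurentSeries K) (U.coeff 0)),
      coeff_algebraMap_mul, HahnSeries.coeff_one, if_pos rfl, mul_one, sub_self]
  | succ D ih =>
    let u := U.coeff (-((e * (D + 1) : ℕ) : ℤ))
    obtain ⟨P, hPd, hP⟩ := ih (U - algebraMap K (LaurentSeries K) u * J ^ (D + 1))
    refine ⟨P + C u * X ^ (D + 1), ?_, fun m hm => ?_⟩
    · exact (natDegree_add_le _ _).trans
        (max_le (hPd.trans D.le_succ) (natDegree_C_mul_X_pow_le _ _))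
    · rw [map_add, map_mul, aeval_C, map_pow, aeval_X,
        sub_add_eq_sub_sub_swap]
      rcases Nat.lt_succ_iff_lt_or_eq.1 (Nat.lt_succ_of_le hm) with h | rfl
      · exact hP m (Nat.le_of_lt_succ h)
      · rw [HahnSeries.coeff_sub, coeff_aeval_eq_zero he hlead hlow P (Nat.lt_succ_of_le hPd),
          sub_zero, HahnSeries.coeff_sub, coeff_algebraMap_mul,
          (coeff_pow_lead hlead hlow (D + 1)).1, mul_one, sub_self]

/-- `π`-adic separatedness of `A`. -/
def Separated (A : ValuationSubring K) (π : K) : Prop :=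
  ∀ x : K, (∀ r : ℕ, ∃ a ∈ A, x = π ^ r * a) → x = 0

include hlead hlow he in
/-- A series approximated by polynomials in `J` is a polynomial in `J`. -/
theorem exists_poly_of_approx (hint : ∀ m, J.coeff m ∈ A) {π : K} (hsep : Separated A π)
    (U : LaurentSeries K) (h : ∀ r : ℕ, ∃ Q : K[X], SmallSeries A (π ^ r) (U - aeval J Q)) :
    ∃ P : K[X], U = aeval J P := by
  obtain ⟨D, hD⟩ : ∃ D : ℕ, ∀ m : ℤ, m < -((e * D : ℕ) : ℤ) → U.coeff m = 0 := by
    refine ⟨(-U.order).toNat, fun m hm => HahnSeries.coeff_eq_zero_of_lt_order ?_⟩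
    have : (-U.order).toNat ≤ e * (-U.order).toNat := Nat.le_mul_of_pos_left _ he
    omega
  obtain ⟨P, hPd, hP⟩ := exists_poly_prescribed he hlead hlow U D
  refine ⟨P, sub_eq_zero.1 (HahnSeries.ext (funext fun m => ?_))⟩
  refine hsep _ fun r => ?_
  obtain ⟨Q, hQ⟩ := h r
  have hlowP : ∀ k : ℕ, D < k → (U - aeval J P).coeff (-((e * k : ℕ) : ℤ)) = 0 := by
    intro k hk
    rw [HahnSeries.coeff_sub, coeff_aeval_eq_zero he hlead hlow P (hPd.trans_lt hk), sub_zero]
    refine hD _ ?_
    have : e * D < e * k := Nat.mul_lt_mul_of_pos_left hk he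
    omega
  have hsplit : (U - aeval J Q) + aeval J (Q - P) = U - aeval J P := by
    rw [map_sub]; ring
  have hsmall : SmallSeries A (π ^ r) (aeval J (Q - P)) := by
    refine smallSeries_aeval he hlead hlow hint _ fun k => ?_
    obtain ⟨a, ha, hea⟩ := hQ (-((e * k : ℕ) : ℤ))
    refine ⟨-a, neg_mem ha, ?_⟩
    have h0 : (U - aeval J P).coeff (-((e * k : ℕ) : ℤ)) = 0 :=
      (le_or_gt k D).elim (hP k) (hlowP k)
    rw [← hsplit, HahnSeries.coeff_add, hea] at h0
    rw [mul_neg]
    linear_combination h0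
  exact hsplit ▸ hQ.add hsmall m

variable {F : Type*} [Field F] [Algebra K F] {I : Type*} [Fintype I] [DecidableEq I]

include hlead hlow he in
/-- Approximate roots along all embeddings come from an exact root. -/
theorem exists_root_of_targets (hint : ∀ m, J.coeff m ∈ A) {π : K} (hsep : Separated A π)
    (emb : I → F →ₐ[K] LaurentSeries K) (jF : F) (hj : ∀ i, emb i jF = J)
    {d : ℕ} (y y' : Fin d → F)
    (hdual : ∀ i k, ∑ l, emb i (y' l) * emb k (y l) = if i = k then 1 else 0)
    (hy : ∀ i l m, (emb i (y l)).coeff m ∈ A)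
    {n : ℕ} (f : F) (T : I → LaurentSeries K)
    (hT : ∀ i, T i = 0 ∨ T i ^ n = emb i f) (hT0 : ∃ i, T i ≠ 0)
    (happ : ∀ r : ℕ, ∃ b : F, (∀ l, ∃ P : K[X], ∑ i, emb i (y l * b) = aeval J P) ∧
      ∀ i, SmallSeries A (π ^ r) (emb i b - T i)) :
    ∃ g : F, g ^ n = f := by
  have hU : ∀ l, ∃ P : K[X], ∑ i, emb i (y l) * T i = aeval J P := by
    intro l
    refine exists_poly_of_approx he hlead hlow hint hsep _ fun r => ?_
    obtain ⟨b, hb, hbT⟩ := happ r
    obtain ⟨P, hP⟩ := hb l
    refine ⟨P, ?_⟩
    rw [← hP, ← Finset.sum_sub_distrib]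
    refine SmallSeries.sum _ fun i _ => ?_
    rw [map_mul, ← mul_sub, ← neg_sub (emb i b), mul_neg, mul_comm]
    exact ((hbT i).mul_int (hy i l)).neg
  choose P hP using hU
  obtain ⟨i₀, hi₀⟩ := hT0
  refine ⟨∑ l, aeval jF (P l) * y' l, ?_⟩
  have hg : ∀ i, emb i (∑ l, aeval jF (P l) * y' l) = T i := by
    intro i
    simp only [map_sum, map_mul, ← aeval_algHom_apply, hj, ← hP, Finset.sum_mul]
    rw [Finset.sum_comm, Finset.sum_eq_single i]
    · rw [Finset.sum_congr rfl fun l _ => show _ = T i * (emb i (y' l) * emb i (y l)) by ring,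
        ← Finset.mul_sum, hdual, if_pos rfl, mul_one]
    · intro k _ hk
      rw [Finset.sum_congr rfl fun l _ => show _ = T k * (emb i (y' l) * emb k (y l)) by ring,
        ← Finset.mul_sum, hdual, if_neg (Ne.symm hk), mul_zero]
    · exact fun h => absurd (Finset.mem_univ i) h
  refine (emb i₀).toRingHom.injective ?_
  show emb i₀ (_ ^ n) = emb i₀ f
  rw [map_pow, hg]
  exact (hT i₀).resolve_left hi₀

end Fermat.Agent.Conn
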