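import Fermat.Agent.Conn.KummerEngine
import Mathlib.FieldTheory.SplittingField.Construction
import Mathlib.FieldTheory.KummerExtension
import Mathlib.RingTheory.Trace.Basic

/-!
# From consistent approximate roots to approximate `n`-th roots along embeddings

Given embeddings of `F` into a field with an integral subring `S` whose residue kernels on `B` are
the components, consistent data produce, for every `r`, an element of `B` congruent modulo `π ^ r`
along every embedding to a chosen root of the image of `f` or to zero (`exists_targets`).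

The steps are: the splitting field of `X ^ n - f` is generated by any root `h` and receives every
embedding; for a label `k` there is an idempotent modulo `π ^ r` separating the primes over the
components with that label from the others (`exists_labelled_idempotent`); at each prime at most one
conjugate of `h` has the label (`apply_eq_of_hasLabel_smul`); and the trace of `h` times the
idempotent is congruent to the selected conjugates (`trace_mul_congr_sum_filter`).
-/

set_option autoImplicit false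

namespace Fermat.Agent.Conn

open scoped Pointwise
open Polynomial

section SplittingField

variable {W F Ω : Type*} [CommRing W] [Field F] [Field Ω] [Algebra W F] [Algebra W Ω]
variable {f : F} {n : ℕ} {ζ : W}
variable {L : Type*} [Field L] [Algebra F L]

/-- In a field where `ζ` is a primitive `n`-th root of unity, two `n`-th roots of the same element
differ by a power of `ζ`. -/
theorem exists_eq_mul_pow_of_pow_eq {K : Type*} [Field K] [Algebra W K]
    (hζK : IsPrimitiveRoot (algebraMap W K ζ) n) (hn : 0 < n) {y y' : K} (hy : y ≠ 0)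
    (e : y' ^ n = y ^ n) : ∃ d < n, y' = y * algebraMap W K (ζ ^ d) := by
  have : NeZero n := ⟨hn.ne'⟩
  obtain ⟨d, hd, hde⟩ := hζK.eq_pow_of_pow_eq_one (ξ := y' / y)
    (by rw [div_pow, e, div_self (pow_ne_zero n hy)])
  exact ⟨d, hd, by rw [map_pow, hde, mul_div_cancel₀ _ hy]⟩

/-- The splitting field of `X ^ n - f` contains a root. -/
theorem exists_root_of_isSplittingField [IsSplittingField F L (X ^ n - C f)] (hn : 0 < n) :
    ∃ h : L, h ^ n = algebraMap F L f := by
  have hdeg : ((X ^ n - C f).map (algebraMap F L)).degree ≠ 0 := by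
    rw [degree_map, degree_X_pow_sub_C hn f]; exact_mod_cast hn.ne'
  obtain ⟨h, hr⟩ :=
    (IsSplittingField.splits L (X ^ n - C f)).exists_eval_eq_zero hdeg
  refine ⟨h, ?_⟩
  rwa [Polynomial.map_sub, Polynomial.map_pow, map_X, map_C, eval_sub, eval_pow, eval_X, eval_C,
    sub_eq_zero] at hr

/-- With the roots of unity in `F`, the splitting field of `X ^ n - f` is generated by any root. -/
theorem adjoin_root_eq_top [IsSplittingField F L (X ^ n - C f)] (hn : 0 < n)
    (hζ : IsPrimitiveRoot (algebraMap W F ζ) n) (hf : f ≠ 0) {h : L}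
    (hh : h ^ n = algebraMap F L f) : Algebra.adjoin F {h} = ⊤ := by
  let : Algebra W L := ((algebraMap F L).comp (algebraMap W F)).toAlgebra
  rw [eq_top_iff, ← IsSplittingField.adjoin_rootSet L (X ^ n - C f), Algebra.adjoin_le_iff]
  intro y hy
  have hy' : y ^ n = algebraMap F L f := by
    simpa [sub_eq_zero] using (mem_rootSet.1 hy).2
  have hh0 : h ≠ 0 := fun h0 => hf ((map_eq_zero (algebraMap F L)).1 (by
    rw [← hh, h0, zero_pow hn.ne']))
  obtain ⟨d, -, rfl⟩ := exists_eq_mul_pow_of_pow_eq (W := W) (ζ := ζ)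
    (hζ.map_of_injective (algebraMap F L).injective) hn hh0 (hy'.trans hh.symm)
  exact mul_mem (Algebra.subset_adjoin rfl)
    (Subalgebra.algebraMap_mem (Algebra.adjoin F {h}) (algebraMap W F (ζ ^ d)))

/-- An embedding of `F` extends to the splitting field of `X ^ n - f`, with values in the field
generated by its image and any given `n`-th root of the image of `f`. -/
theorem exists_lift_of_isSplittingField [IsSplittingField F L (X ^ n - C f)] (hn : 0 < n)
    (hζ : IsPrimitiveRoot (algebraMap W F ζ) n) (hf : f ≠ 0) (g : F →ₐ[W] Ω) {y : Ω}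
    (hy : y ^ n = g f) {h : L} (hh : h ^ n = algebraMap F L f) :
    ∃ ψ : L →+* Ω, (∀ x : F, ψ (algebraMap F L x) = g x) ∧
      ∀ x : L, ψ x ∈ Subfield.closure (Set.range g ∪ {y}) := by
  let : Algebra F Ω := g.toRingHom.toAlgebra
  have hζΩ : IsPrimitiveRoot (g (algebraMap W F ζ)) n :=
    hζ.map_of_injective g.toRingHom.injective
  have hmap : (X ^ n - C f).map (algebraMap F Ω) = X ^ n - C (y ^ n) := by
    rw [Polynomial.map_sub, Polynomial.map_pow, map_X, map_C, hy]; rfl
  let ψ : L →ₐ[F] Ω := IsSplittingField.lift L (X ^ n - C f)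
    (hmap ▸ X_pow_sub_C_splits_of_isPrimitiveRoot hζΩ rfl)
  have hψ : ∀ x : F, ψ (algebraMap F L x) = g x := ψ.commutes
  set K := Subfield.closure (Set.range g ∪ {y})
  have hFK : ∀ x : F, g x ∈ K := fun x => Subfield.subset_closure (Or.inl ⟨x, rfl⟩)
  refine ⟨ψ.toRingHom, hψ, fun x => ?_⟩
  have hx : x ∈ Algebra.adjoin F {h} := by rw [adjoin_root_eq_top hn hζ hf hh]; trivial
  show ψ x ∈ K
  induction hx using Algebra.adjoin_induction with
  | mem x hx =>
    rw [Set.mem_singleton_iff] at hx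
    subst hx
    have hy0 : y ≠ 0 := fun h0 => hf ((map_eq_zero g).1 (by rw [← hy, h0, zero_pow hn.ne']))
    rw [AlgHom.commutes] at hζΩ
    obtain ⟨d, -, hd⟩ := exists_eq_mul_pow_of_pow_eq hζΩ hn hy0
      (show ψ x ^ n = y ^ n by rw [← map_pow, hh, hψ, hy])
    rw [hd, ← g.commutes]
    exact K.mul_mem (Subfield.subset_closure (Or.inr rfl)) (hFK _)
  | algebraMap x => rw [hψ]; exact hFK x
  | add a b _ _ ha hb => rw [map_add]; exact K.add_mem ha hb
  | mul a b _ _ ha hb => rw [map_mul]; exact K.mul_mem ha hb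

end SplittingField

section Labels

variable {W F L : Type*} [CommRing W] [Field F] [Field L] [Algebra W F] [Algebra F L]
  [Algebra W L] [IsScalarTower W F L] [FiniteDimensional F L] [IsGalois F L]
variable {B : Subalgebra W F} {ι : Type*} {π : W} {Pi : ι → Ideal B}
variable {f : F} {n : ℕ} {G : ι → F} {ζ : W} {h : L}

omit [Algebra W L] [IsScalarTower W F L] in
/-- The primes of the integral closure lying over the components form a finite set, namely the
union of finitely many Galois orbits. -/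
theorem Components.exists_finset_primes_over [Finite ι] (hB : Components B π Pi) :
    ∃ M : Finset (Ideal (integralClosure B L)), ∀ P, P ∈ M ↔
      P.IsPrime ∧ ∃ j, P.comap (algebraMap B (integralClosure B L)) = Pi j := by
  classical
  have := hB.isInvariant (L := L)
  have hover : ∀ j, ∃ Q : Ideal (integralClosure B L), Q.IsPrime ∧
      Q.comap (algebraMap B (integralClosure B L)) = Pi j := by
    intro j
    have := hB.prime j
    obtain ⟨Q, -, hQ, hQj⟩ := Ideal.exists_ideal_over_prime_of_isIntegral (Pi j)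
      (⊥ : Ideal (integralClosure B L)) (fun b hb => by
        have h' : algebraMap F L (b : F) = 0 := congrArg Subtype.val (RingHom.mem_ker.1 hb)
        rw [map_eq_zero, ← ZeroMemClass.coe_zero B, Subtype.coe_inj] at h'
        exact h' ▸ zero_mem _)
    exact ⟨Q, hQ, hQj⟩
  choose R hRp hR using hover
  have := Fintype.ofFinite ι
  refine ⟨Finset.univ.image fun p : ι × (L ≃ₐ[F] L) => p.2 • R p.1, fun P => ?_⟩
  simp only [Finset.mem_image, Finset.mem_univ, true_and]
  constructor
  · rintro ⟨⟨j, σ⟩, rfl⟩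
    exact ⟨(hRp j).smul σ, j, (Ideal.under_smul B (R j) σ).trans (hR j)⟩
  · rintro ⟨hP, j, hj⟩
    have := hRp j
    obtain ⟨σ, hσ⟩ := Algebra.IsInvariant.exists_smul_of_under_eq B (integralClosure B L)
      (L ≃ₐ[F] L) (R j) P ((hR j).trans hj.symm)
    exact ⟨(j, σ), hσ.symm⟩

variable (hn : 0 < n) (hζ : IsPrimitiveRoot (algebraMap W F ζ) n) (hζ1 : ζ ^ n = 1)
  (hζu : ∀ k : ℕ, 0 < k → k < n → IsUnit (ζ ^ k - 1))
  (hh : h ^ n = algebraMap F L f) (hB : Components B π Pi)

include hn hζ hζ1 hζu hh hB in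
/-- For every `r` some element is idempotent modulo `π ^ r`, congruent to one at the primes over
the components labelled `k` and to zero at the other primes over the components. -/
theorem exists_labelled_idempotent [Finite ι] (hC : Consistent B π Pi f n G) {k : ℕ} (hk : k < n)
    (r : ℕ) : ∃ b : integralClosure B L,
      algebraMap W (integralClosure B L) π ^ r ∣ b * b - b ∧
      ∀ (P : Ideal (integralClosure B L)) (j : ι), P.IsPrime →
        P.comap (algebraMap B (integralClosure B L)) = Pi j →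
        (HasLabel B Pi G h ζ k P → b - 1 ∈ P) ∧ (¬ HasLabel B Pi G h ζ k P → b ∈ P) := by
  classical
  obtain ⟨M, hM⟩ := hB.exists_finset_primes_over (L := L)
  let Sk := M.filter (HasLabel B Pi G h ζ k)
  obtain ⟨e, he, he1, he0⟩ := exists_idempotent_of_partition
    (algebraMap W (integralClosure B L) π) M Sk
    (fun Q hQ hπQ => by
      obtain ⟨P, hP, hle⟩ := Ideal.exists_minimalPrimes_le
        ((Ideal.span_singleton_le_iff_mem Q).2 hπQ)
      exact ⟨P, (hM P).2 ⟨hP.1.1, hB.exists_comap_eq hP⟩, hle⟩)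
    (fun P hP hPS P' hP' hP'S => by
      by_contra hne
      obtain ⟨Q, hQ, hle⟩ := Ideal.exists_le_maximal _ hne
      obtain ⟨hP'p, j, hj⟩ := (hM P').1 hP'
      exact hP'S (Finset.mem_filter.2 ⟨hP', label_eq_of_le_maximal (L := L) (Q := Q) hn hζ hζ1
        hζu hh hB hC ((hM P).1 hP).1 (hB.mem_minimalPrimes hj) (le_sup_left.trans hle)
        (le_sup_right.trans hle) hk (Finset.mem_filter.1 hPS).2⟩))
  obtain ⟨b, hb, hbe⟩ := exists_lift_idempotent (algebraMap W (integralClosure B L) π) r he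
  refine ⟨b, (pow_dvd_pow _ r.le_succ).trans (Ideal.mem_span_singleton.1 hb),
    fun P j hP hj => ?_⟩
  have hPM : P ∈ M := (hM P).2 ⟨hP, j, hj⟩
  have hπP : algebraMap W (integralClosure B L) π ∈ P := by
    rw [IsScalarTower.algebraMap_apply W B (integralClosure B L)]
    exact Ideal.mem_comap.1 (hj.symm ▸ hB.pi_mem j)
  have hbeP : b - e ∈ P :=
    hP.radical_le_iff.2 ((Ideal.span_singleton_le_iff_mem _).2 hπP) hbe
  constructor
  · intro hl
    simpa using add_mem hbeP (he1 P hPM (Finset.mem_filter.2 ⟨hPM, hl⟩))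
  · intro hl
    simpa using add_mem hbeP (he0 P hPM fun hS => hl (Finset.mem_filter.1 hS).2)

include hB in
omit [FiniteDimensional F L] [IsGalois F L] in
/-- A label at a conjugate prime, transported to the prime itself. -/
theorem near_apply_of_hasLabel_smul {Q : Ideal (integralClosure B L)} {j : ι}
    (hQ : Q.comap (algebraMap B (integralClosure B L)) = Pi j) {k : ℕ} {σ : L ≃ₐ[F] L}
    (hσ : HasLabel B Pi G h ζ k (σ⁻¹ • Q)) :
    Near Q (σ h / algebraMap F L (G j) - algebraMap W L (ζ ^ k)) := by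
  obtain ⟨i, hi, hnear⟩ := hσ
  obtain rfl : i = j := hB.antichain i j (hi.symm.trans ((Ideal.under_smul B Q σ⁻¹).trans hQ)).le
  have h' := near_smul σ hnear
  rwa [smul_inv_smul, map_sub, map_div₀, AlgEquiv.commutes,
    IsScalarTower.algebraMap_apply W F L (ζ ^ k), AlgEquiv.commutes,
    ← IsScalarTower.algebraMap_apply W F L] at h'

include hn hζ hζ1 hζu hh hB in
omit [FiniteDimensional F L] [IsGalois F L] in
/-- At most one conjugate of `h` has the label `k` at a given prime over a component. -/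
theorem apply_eq_of_hasLabel_smul (hf : f ≠ 0) {Q : Ideal (integralClosure B L)} [Q.IsPrime]
    {j : ι} (hQ : Q.comap (algebraMap B (integralClosure B L)) = Pi j) {k : ℕ}
    {σ τ : L ≃ₐ[F] L} (hσ : HasLabel B Pi G h ζ k (σ⁻¹ • Q))
    (hτ : HasLabel B Pi G h ζ k (τ⁻¹ • Q)) : σ h = τ h := by
  have hζL : IsPrimitiveRoot (algebraMap W L ζ) n := by
    rw [IsScalarTower.algebraMap_apply W F L]
    exact hζ.map_of_injective (algebraMap F L).injective
  have hh0 : σ h ≠ 0 := (map_ne_zero σ).2 fun h0 => hf ((map_eq_zero (algebraMap F L)).1 (by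
    rw [← hh, h0, zero_pow hn.ne']))
  obtain ⟨d, hdn, hd⟩ := exists_eq_mul_pow_of_pow_eq hζL hn hh0
    (show τ h ^ n = σ h ^ n by
      rw [← map_pow, ← map_pow, hh, AlgEquiv.commutes, AlgEquiv.commutes])
  rcases Nat.eq_zero_or_pos d with rfl | hd0
  · simp [hd]
  refine absurd ?_ (not_near_of_isUnit Subtype.val_injective (Q := Q)
    (((hζu d hd0 hdn).mul ((IsUnit.of_pow_eq_one hζ1 hn.ne').pow k)).map
      (algebraMap W (integralClosure B L))))
  rw [← IsScalarTower.algebraMap_apply]
  have hζd : InLoc Q (algebraMap W L (ζ ^ d)) :=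
    inLoc_algebraMap (L := L) (Q := Q) (algebraMap W (integralClosure B L) (ζ ^ d))
  convert (near_apply_of_hasLabel_smul hB hQ hτ).sub
    ((near_apply_of_hasLabel_smul hB hQ hσ).mul_inLoc hζd) using 1
  rw [hd]
  simp only [map_sub, map_mul, map_one]
  ring

end Labels

/-- If the conjugates of `b` are congruent modulo `c` to the indicator of `p`, the trace of `h * b`
is congruent to the sum of the conjugates of `h` selected by `p`. -/
theorem trace_mul_congr_sum_filter {F L Ω : Type*} [Field F] [Field L] [Field Ω] [Algebra F L]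
    [FiniteDimensional F L] [IsGalois F L] {T : Type*} [SetLike T Ω] [SubringClass T Ω] (S : T)
    (ψ : L →+* Ω) {h b : L} {c : Ω} (p : (L ≃ₐ[F] L) → Prop) [DecidablePred p]
    (hS : ∀ σ : L ≃ₐ[F] L, ψ (σ h) ∈ S)
    (hb : ∀ σ : L ≃ₐ[F] L, ∃ s ∈ S, ψ (σ b) - (if p σ then 1 else 0) = c * s) :
    ∃ s ∈ S, ψ (algebraMap F L (Algebra.trace F L (h * b))) - ∑ σ with p σ, ψ (σ h) = c * s := by
  choose s hs hsb using hb
  refine ⟨∑ σ : L ≃ₐ[F] L, ψ (σ h) * s σ, sum_mem fun σ _ => mul_mem (hS σ) (hs σ), ?_⟩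
  rw [trace_eq_sum_automorphisms, map_sum, Finset.mul_sum, Finset.sum_filter,
    ← Finset.sum_sub_distrib]
  refine Finset.sum_congr rfl fun σ _ => ?_
  rw [map_mul, map_mul, mul_left_comm, ← hsb]
  split_ifs <;> simp [mul_sub]

variable {W F Ω : Type*} [CommRing W] [Field F] [Field Ω] [Algebra W F] [Algebra W Ω]
variable {B : Subalgebra W F} {ι : Type*} [Finite ι] {π : W} {Pi : ι → Ideal B}
variable {f : F} {n : ℕ} {G : ι → F} {ζ : W}
variable {I : Type*} (emb : I → F →ₐ[W] Ω) (S : Subalgebra W Ω) (𝔭 : Ideal S)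

omit [Finite ι] in
theorem idempotent_near_zero_or_one
    (hrad : ∀ s ∈ 𝔭, ∃ k : ℕ, algebraMap W S π ∣ s ^ k) (r : ℕ) {e : S}
    (he : algebraMap W S π ^ r ∣ e * e - e) :
    (e ∈ 𝔭 → algebraMap W S π ^ r ∣ e) ∧ (e - 1 ∈ 𝔭 → algebraMap W S π ^ r ∣ e - 1) := by
  have key : ∀ x : S, algebraMap W S π ^ r ∣ x * x - x → x ∈ 𝔭 → algebraMap W S π ^ r ∣ x := by
    intro x hx hx𝔭
    obtain ⟨k, hk⟩ := hrad x hx𝔭
    have hpow : ∀ m, algebraMap W S π ^ r ∣ x ^ (m + 1) - x := by
      intro m
      induction m with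
      | zero => simp
      | succ m ih =>
        have h : x ^ (m + 1 + 1) - x = x * (x ^ (m + 1) - x) + (x * x - x) := by ring
        rw [h]
        exact dvd_add (dvd_mul_of_dvd_right ih _) hx
    rcases Nat.eq_zero_or_pos (k * r) with h0 | h0
    · rcases Nat.mul_eq_zero.1 h0 with rfl | rfl
      · rw [pow_zero] at hk
        exact (isUnit_of_dvd_one hk).pow r |>.dvd
      · simp
    · have h := hpow (k * r - 1)
      rw [Nat.sub_add_cancel h0] at h
      exact (dvd_sub_right (by rw [pow_mul]; exact pow_dvd_pow_of_dvd hk r)).1 h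
  refine ⟨key e he, fun h => ?_⟩
  have h' := key (1 - e) (by rwa [show (1 - e) * (1 - e) - (1 - e) = e * e - e by ring])
    (by rw [← neg_sub]; exact 𝔭.neg_mem h)
  rwa [← neg_sub, dvd_neg]

variable (hn : 0 < n) (hnF : (n : F) ≠ 0) (hζ : IsPrimitiveRoot (algebraMap W F ζ) n)
  (hζ1 : ζ ^ n = 1) (hζu : ∀ k : ℕ, 0 < k → k < n → IsUnit (ζ ^ k - 1))
  (hB : Components B π Pi) (hf : f ≠ 0) (hfB : f ∈ B) (hC : Consistent B π Pi f n G)
  (hBS : ∀ i, ∀ b ∈ B, emb i b ∈ S)
  (hrad : ∀ s ∈ 𝔭, ∃ k : ℕ, algebraMap W S π ∣ s ^ k)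
  (hker : ∀ i, ∃ j, ∀ b : B, (⟨emb i b, hBS i b b.2⟩ : S) ∈ 𝔭 ↔ b ∈ Pi j)
  (z : I → Ω) (hz : ∀ i, z i ^ n = emb i f)
  (hS : ∀ i, ∀ x ∈ Subfield.closure (Set.range (emb i) ∪ {z i}), IsIntegral S x → x ∈ S)

include hn hnF hζ hζ1 hζu hB hf hfB hC hrad hker hz hS in
/-- Approximate roots along all embeddings. -/
theorem exists_targets [Nonempty I] [𝔭.IsPrime] :
    ∃ T : I → Ω, (∀ i, T i = 0 ∨ T i ^ n = emb i f) ∧ (∃ i, T i ≠ 0) ∧
      ∀ r : ℕ, ∃ b ∈ B, ∀ i, ∃ s ∈ S, emb i b - T i = algebraMap W Ω π ^ r * s := by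
  classical
  obtain ⟨i₁⟩ := ‹Nonempty I›
  -- a root `h` in the splitting field, and the extensions of the embeddings
  let L := (X ^ n - Polynomial.C f : F[X]).SplittingField
  have : IsGalois F L :=
    IsGalois.of_separable_splitting_field (separable_X_pow_sub_C f hnF hf)
  obtain ⟨h, hh⟩ := exists_root_of_isSplittingField (L := L) (f := f) hn
  have hh0 : h ≠ 0 := fun h0 => hf ((map_eq_zero (algebraMap F L)).1 (by
    rw [← hh, h0, zero_pow hn.ne']))
  choose ψ hψF hψK using fun i => exists_lift_of_isSplittingField hn hζ hf (emb i) (hz i) hh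
  let φ : I → B →+* S := fun i =>
    RingHom.codRestrict ((emb i).toRingHom.comp B.val.toRingHom) S (fun b => hBS i b b.2)
  have hψS : ∀ (i : I) (x : integralClosure B L), ψ i x ∈ S := by
    intro i x
    obtain ⟨q, hq, hqx⟩ := x.2
    refine hS i _ (hψK i x) ⟨q.map (φ i), hq.map _, ?_⟩
    rw [eval₂_map]
    have hcomp : (algebraMap S Ω).comp (φ i) = (ψ i).comp (algebraMap B L) :=
      RingHom.ext fun b => (hψF i b).symm
    rw [hcomp, ← hom_eval₂, hqx, map_zero]
  let Ψ : I → integralClosure B L →+* S := fun i =>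
    RingHom.codRestrict ((ψ i).comp (integralClosure B L).val.toRingHom) S (hψS i)
  let Q : I → Ideal (integralClosure B L) := fun i => 𝔭.comap (Ψ i)
  have hQp : ∀ i, (Q i).IsPrime := fun i => Ideal.IsPrime.comap _
  have hQB : ∀ i, ∃ j, (Q i).comap (algebraMap B (integralClosure B L)) = Pi j := by
    intro i
    obtain ⟨j, hj⟩ := hker i
    refine ⟨j, Ideal.ext fun b => ?_⟩
    have e : Ψ i (algebraMap B _ b) = ⟨emb i b, hBS i b b.2⟩ := Subtype.ext (hψF i b)
    rw [Ideal.mem_comap, Ideal.mem_comap, e]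
    exact hj b
  -- at each embedding, select the conjugate of `h` with the label found at `i₁`
  obtain ⟨j₁, hj₁⟩ := hQB i₁
  obtain ⟨k, hk, hk₁⟩ := exists_label (L := L) hn hζ hh hC hj₁
  let lab : I → (L ≃ₐ[F] L) → Prop := fun i σ => HasLabel B Pi G h ζ k (σ⁻¹ • Q i)
  have hlab_unique : ∀ i σ τ, lab i σ → lab i τ → σ = τ := by
    intro i σ τ hσ hτ
    obtain ⟨j, hj⟩ := hQB i
    have hst : (σ : L →ₐ[F] L) = τ := AlgHom.ext_of_adjoin_eq_top
      (adjoin_root_eq_top hn hζ hf hh) (by
        rintro _ rfl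
        exact apply_eq_of_hasLabel_smul hn hζ hζ1 hζu hh hB hf hj hσ hτ)
    exact AlgEquiv.ext fun x => DFunLike.congr_fun hst x
  have hT : ∀ i σ, lab i σ → ∑ τ with lab i τ, ψ i (τ h) = ψ i (σ h) := fun i σ hσ =>
    Finset.sum_eq_single_of_mem σ (Finset.mem_filter.2 ⟨Finset.mem_univ σ, hσ⟩)
      fun τ hτ hne => absurd (hlab_unique i τ σ (Finset.mem_filter.1 hτ).2 hσ) hne
  refine ⟨fun i => ∑ σ with lab i σ, ψ i (σ h), fun i => ?_, ⟨i₁, ?_⟩, fun r => ?_⟩
  · beta_reduce
    by_cases hex : ∃ σ, lab i σ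
    · obtain ⟨σ, hσ⟩ := hex
      right
      rw [hT i σ hσ, ← map_pow, ← map_pow, hh, AlgEquiv.commutes, hψF]
    · left
      exact Finset.sum_eq_zero fun σ hσ => absurd ⟨σ, (Finset.mem_filter.1 hσ).2⟩ hex
  · beta_reduce
    rw [hT i₁ 1 ⟨j₁, by rwa [inv_one, one_smul], by rwa [inv_one, one_smul]⟩]
    simpa using hh0
  · -- the trace of `h` times an idempotent separating the labels
    obtain ⟨b, hb, hbP⟩ := exists_labelled_idempotent hn hζ hζ1 hζu hh hB hC hk r
    have hhC : IsIntegral B h := by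
      refine IsIntegral.of_pow hn ?_
      rw [hh]
      exact isIntegral_algebraMap (R := B) (A := L) (x := (⟨f, hfB⟩ : B))
    refine ⟨Algebra.trace F L (h * b), hB.closed _ (Algebra.isIntegral_trace (hhC.mul b.2)),
      fun i => ?_⟩
    rw [← hψF]
    refine trace_mul_congr_sum_filter S (ψ i) (lab i)
      (fun σ => hψS i (σ • (⟨h, hhC⟩ : integralClosure B L))) fun σ => ?_
    have hπ : Ψ i (σ • algebraMap W (integralClosure B L) π) = algebraMap W S π := by
      refine Subtype.ext ?_
      show ψ i (σ (algebraMap W L π)) = algebraMap W Ω π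
      rw [IsScalarTower.algebraMap_apply W F L, AlgEquiv.commutes, hψF, AlgHom.commutes]
    have hidem : algebraMap W S π ^ r ∣ Ψ i (σ • b) * Ψ i (σ • b) - Ψ i (σ • b) := by
      simpa [hπ, smul_sub, smul_mul', smul_pow'] using
        map_dvd ((Ψ i).comp (MulSemiringAction.toRingHom _ _ σ)) hb
    have hmem : ∀ x, x ∈ σ⁻¹ • Q i → Ψ i (σ • x) ∈ 𝔭 := fun x hx => by
      have h' := Ideal.smul_mem_pointwise_smul σ x _ hx
      rwa [smul_inv_smul] at h'
    obtain ⟨j, hj⟩ := hQB i
    obtain ⟨hb1, hb0⟩ := hbP (σ⁻¹ • Q i) j ((hQp i).smul _)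
      ((Ideal.under_smul B (Q i) σ⁻¹).trans hj)
    obtain ⟨h0, h1⟩ := idempotent_near_zero_or_one S 𝔭 hrad r hidem
    obtain ⟨c, hc⟩ : algebraMap W S π ^ r ∣ Ψ i (σ • b) - (if lab i σ then 1 else 0) := by
      split_ifs with hl
      · exact h1 (by simpa [smul_sub] using hmem _ (hb1 hl))
      · simpa using h0 (hmem _ (hb0 hl))
    refine ⟨c, c.2, ?_⟩
    have h' := congrArg Subtype.val hc
    split_ifs at h' ⊢ <;> exact h'

end Fermat.Agent.Conn
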