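import Fermat.Agent.Conn.TwoGenerated
import Mathlib.RingTheory.Localization.AtPrime.Basic
import Mathlib.RingTheory.IntegralClosure.IntegrallyClosed
import Mathlib.RingTheory.Polynomial.RationalRoot
import Mathlib.RingTheory.UniqueFactorizationDomain.Multiplicity
import Mathlib.RingTheory.UniqueFactorizationDomain.NormalizedFactors

/-!
# Consequences of a two-generated maximal ideal at a point of a surface

At a point with two-generated maximal ideal the local ring is factorial, so integral fractions are
regular there and an element which is an `n`-th power up to units at every prime of height one is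
one near the point (`localFactor`).
-/

set_option autoImplicit false

namespace Fermat.Agent.Conn

open IsLocalRing

/-- In a factorial ring, an element which is locally an `n`-th power up to units at every prime
element is an `n`-th power up to a unit. -/
theorem exists_root_of_prime_local {A K : Type*} [CommRing A] [IsDomain A]
    [UniqueFactorizationMonoid A] [Field K] [Algebra A K] [IsFractionRing A K] {n : ℕ} (hn : 0 < n)
    (f : A) (hf : f ≠ 0)
    (h : ∀ p : A, Prime p → ∃ (g : K) (a b : A), ¬ p ∣ a ∧ ¬ p ∣ b ∧
      algebraMap A K a * algebraMap A K f = algebraMap A K b * g ^ n) :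
    ∃ (g : K) (v : A), IsUnit v ∧ algebraMap A K f = algebraMap A K v * g ^ n := by
  classical
  let := UniqueFactorizationMonoid.strongNormalizationMonoid (α := A)
  induction hd : (UniqueFactorizationMonoid.normalizedFactors f).card using Nat.strong_induction_on
    generalizing f with
  | _ d ih =>
    by_cases hu : IsUnit f
    · exact ⟨1, f, hu, by rw [one_pow, mul_one]⟩
    obtain ⟨p, hp, hpf⟩ := WfDvdMonoid.exists_irreducible_factor hu hf
    rw [UniqueFactorizationMonoid.irreducible_iff_prime] at hp
    obtain ⟨g, a, b, ha, hb, e⟩ := h p hp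
    obtain ⟨⟨c, e'⟩, hce⟩ := IsLocalization.surj (nonZeroDivisors A) g
    obtain ⟨k, f₁, hf₁, rfl⟩ := WfDvdMonoid.max_power_factor hf hp.irreducible
    have hk : 0 < k := Nat.pos_of_ne_zero fun h0 => hf₁ (by simpa [h0] using hpf)
    have e'' : a * (p ^ k * f₁) * (e' : A) ^ n = b * c ^ n := by
      apply IsFractionRing.injective A K
      simp only [map_mul, map_pow] at e hce ⊢
      rw [e, ← hce]; ring
    have he0 : (e' : A) ≠ 0 := nonZeroDivisors.coe_ne_zero e'
    have hc0 : c ≠ 0 := by
      rintro rfl
      rw [zero_pow hn.ne', mul_zero] at e''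
      exact mul_ne_zero (mul_ne_zero (fun h0 => ha (by rw [h0]; exact dvd_zero p)) hf) (pow_ne_zero n he0) e''
    obtain ⟨i, c₁, hc₁, rfl⟩ := WfDvdMonoid.max_power_factor hc0 hp.irreducible
    obtain ⟨j, e₁, he₁, hje⟩ := WfDvdMonoid.max_power_factor he0 hp.irreducible
    rw [hje] at e''
    have hexp : k + n * j = n * i := by
      have key : ∀ s t : ℕ, ∀ u v : A, ¬ p ∣ u → ¬ p ∣ v → p ^ s * u = p ^ t * v → s = t := by
        intro s t u v hu hv huv
        wlog hst : s ≤ t generalizing s t u v
        · exact (this t s v u hv hu huv.symm (le_of_not_ge hst)).symm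
        by_contra hne
        obtain ⟨r, rfl⟩ := Nat.exists_eq_add_of_le hst
        rw [pow_add, mul_assoc] at huv
        exact hu (mul_left_cancel₀ (pow_ne_zero s hp.ne_zero) huv ▸
          (dvd_pow_self p (by omega)).mul_right v)
      refine key _ _ (a * f₁ * e₁ ^ n) (b * c₁ ^ n) ?_ ?_ ?_
      · exact hp.not_dvd_mul (hp.not_dvd_mul ha hf₁) fun h' => he₁ (hp.dvd_of_dvd_pow h')
      · exact hp.not_dvd_mul hb fun h' => hc₁ (hp.dvd_of_dvd_pow h')
      · rw [pow_add, pow_mul', pow_mul']
        linear_combination e''
    have hnk : n ≤ k := by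
      rcases le_or_gt i j with hij | hij
      · have := Nat.mul_le_mul_left n hij
        omega
      · have : n * (j + 1) ≤ n * i := Nat.mul_le_mul_left n hij
        rw [Nat.mul_add, mul_one] at this
        omega
    obtain ⟨r, rfl⟩ := Nat.exists_eq_add_of_le hnk
    have hf' : p ^ r * f₁ ≠ 0 := mul_ne_zero (pow_ne_zero _ hp.ne_zero) (right_ne_zero_of_mul hf)
    have hsplit : p ^ (n + r) * f₁ = p ^ n * (p ^ r * f₁) := by rw [pow_add, mul_assoc]
    have hlt : (UniqueFactorizationMonoid.normalizedFactors (p ^ r * f₁)).card < d := by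
      rw [← hd, hsplit,
        UniqueFactorizationMonoid.normalizedFactors_mul (pow_ne_zero n hp.ne_zero) hf',
        UniqueFactorizationMonoid.normalizedFactors_pow,
        UniqueFactorizationMonoid.normalizedFactors_irreducible hp.irreducible,
        Multiset.card_add, Multiset.card_nsmul, Multiset.card_singleton]
      omega
    have hp0 : algebraMap A K p ≠ 0 := by simpa using hp.ne_zero
    obtain ⟨g₁, v, hv, ev⟩ := ih _ hlt (p ^ r * f₁) hf' (fun p' hp' => by
      obtain ⟨g', a', b', ha', hb', e₂⟩ := h p' hp'
      refine ⟨g' / algebraMap A K p, a', b', ha', hb', ?_⟩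
      rw [hsplit, map_mul, map_pow] at e₂
      rw [div_pow, ← mul_div_assoc, eq_div_iff (pow_ne_zero n hp0), ← e₂]
      ring) rfl
    refine ⟨algebraMap A K p * g₁, v, hv, ?_⟩
    rw [hsplit, map_mul, ev, map_pow, mul_pow]
    ring

variable {C F : Type*} [CommRing C] [IsDomain C] [IsNoetherianRing C] [Field F] [Algebra C F]
  [IsFractionRing C F]

/-- The maximal ideal of the local ring at `p` is generated by two elements. -/
def TwoGenAt (p : Ideal C) : Prop :=
  ∃ x ∈ p, ∃ y ∈ p, ∀ z ∈ p, ∃ s a b : C, s ∉ p ∧ s * z = a * x + b * y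

variable {p : Ideal C} [hp : p.IsPrime] (h2 : TwoGenAt p)
  (hchain : ∃ P : Ideal C, P.IsPrime ∧ P ≠ ⊥ ∧ P < p)

include h2 hchain in
/-- The local ring at such a point is factorial. -/
theorem uniqueFactorizationMonoid_localization :
    UniqueFactorizationMonoid (Localization.AtPrime p) := by
  obtain ⟨x, hx, y, hy, hgen⟩ := h2
  obtain ⟨P, hP, hP0, hlt⟩ := hchain
  have : IsNoetherianRing (Localization.AtPrime p) :=
    IsLocalization.isNoetherianRing p.primeCompl _ inferInstance
  let φ := algebraMap C (Localization.AtPrime p)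
  refine uniqueFactorizationMonoid_of_two_generated (x := φ x) (y := φ y) ?_ ?_
  · refine le_antisymm ?_ (Ideal.span_le.2 ?_)
    · rw [← Localization.AtPrime.map_eq_maximalIdeal, Ideal.map_le_iff_le_comap]
      intro z hz
      obtain ⟨s, a, b, hs, e⟩ := hgen z hz
      have hu : IsUnit (φ s) := IsLocalization.map_units _ (⟨s, hs⟩ : p.primeCompl)
      rw [Ideal.mem_comap, ← Ideal.unit_mul_mem_iff_mem _ hu, ← map_mul, e, map_add, map_mul,
        map_mul, Ideal.mem_span_pair]
      exact ⟨_, _, rfl⟩
    · have hmem : ∀ z ∈ p, φ z ∈ maximalIdeal (Localization.AtPrime p) := fun z hz =>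
        Localization.AtPrime.map_eq_maximalIdeal (I := p) ▸ Ideal.mem_map_of_mem φ hz
      rintro z (rfl | rfl)
      exacts [hmem x hx, hmem y hy]
  · have hdisj : Disjoint (p.primeCompl : Set C) (P : Set C) :=
      Set.disjoint_left.2 fun z hz hzP => hz (hlt.le hzP)
    have hPloc := IsLocalization.isPrime_of_isPrime_disjoint p.primeCompl
      (Localization.AtPrime p) P hP hdisj
    have hcomap : (P.map φ).comap φ = P :=
      IsLocalization.under_map_of_isPrime_disjoint p.primeCompl _ hP hdisj
    refine ⟨P.map φ, hPloc, fun h => hP0 ?_, fun h => hlt.ne ?_⟩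
    · rw [h, ← RingHom.ker_eq_comap_bot,
        (RingHom.injective_iff_ker_eq_bot φ).1
          (IsLocalization.injective _ p.primeCompl_le_nonZeroDivisors)] at hcomap
      exact hcomap.symm
    · rw [h] at hcomap
      exact hcomap.symm.trans (IsLocalization.AtPrime.under_maximalIdeal (Localization.AtPrime p) p)

include h2 hchain in
/-- Near such a point, integral fractions are regular and locally `n`-th powers are `n`-th
powers. -/
theorem localFactor :
    (∀ x : F, IsIntegral C x → ∃ d c : C, d ∉ p ∧ algebraMap C F d * x = algebraMap C F c) ∧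
    ∀ {n : ℕ}, 0 < n → ∀ f : C, f ≠ 0 →
      (∀ P : Ideal C, P.IsPrime → P ≠ ⊥ → P < p → ∃ (g : F) (s t : C), s ∉ P ∧ t ∉ P ∧
        algebraMap C F s * algebraMap C F f = algebraMap C F t * g ^ n) →
      ∃ (g : F) (s t : C), s ∉ p ∧ t ∉ p ∧
        algebraMap C F s * algebraMap C F f = algebraMap C F t * g ^ n := by
  have := uniqueFactorizationMonoid_localization h2 hchain
  let : Algebra (Localization.AtPrime p) F := (IsLocalization.lift (M := p.primeCompl)
    (S := Localization.AtPrime p) (g := algebraMap C F) fun y => (IsUnit.mk0 _ (by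
      rw [ne_eq, map_eq_zero_iff _ (IsFractionRing.injective C F)]
      exact fun h0 => y.2 (h0 ▸ zero_mem p)))).toAlgebra
  have : IsScalarTower C (Localization.AtPrime p) F :=
    IsScalarTower.of_algebraMap_eq fun c => (IsLocalization.lift_eq _ c).symm
  have : IsFractionRing (Localization.AtPrime p) F :=
    IsFractionRing.isFractionRing_of_isDomain_of_isLocalization p.primeCompl _ F
  refine ⟨fun x hx => ?_, fun {n} hn f hf hloc => ?_⟩
  · obtain ⟨y, rfl⟩ :=
      IsIntegrallyClosed.isIntegral_iff.1 (hx.tower_top (A := Localization.AtPrime p))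
    obtain ⟨c, s, rfl⟩ := IsLocalization.exists_mk'_eq p.primeCompl y
    refine ⟨s, c, s.2, ?_⟩
    rw [IsScalarTower.algebraMap_apply C (Localization.AtPrime p) F, ← map_mul,
      IsLocalization.mk'_spec', ← IsScalarTower.algebraMap_apply]
  · let φ := algebraMap C (Localization.AtPrime p)
    have hφ : Function.Injective φ :=
      IsLocalization.injective _ p.primeCompl_le_nonZeroDivisors
    have hφF : ∀ c, algebraMap (Localization.AtPrime p) F (φ c) = algebraMap C F c :=
      fun c => (IsScalarTower.algebraMap_apply C (Localization.AtPrime p) F c).symm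
    obtain ⟨g, v, hv, e⟩ := exists_root_of_prime_local (K := F) hn (φ f)
      ((map_ne_zero_iff _ hφ).2 hf) (fun π hπ => by
        have hpr : ((Ideal.span {π}).comap φ).IsPrime :=
          ((Ideal.span_singleton_prime hπ.ne_zero).2 hπ).comap φ
        have hne : (Ideal.span {π}).comap φ ≠ ⊥ := by
          obtain ⟨c, s, rfl⟩ := IsLocalization.exists_mk'_eq p.primeCompl π
          intro hbot
          have hc : c ∈ (Ideal.span {IsLocalization.mk' _ c s}).comap φ := by
            rw [Ideal.mem_comap, Ideal.mem_span_singleton]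
            exact ⟨φ s, (IsLocalization.mk'_spec _ c s).symm⟩
          rw [hbot, Ideal.mem_bot] at hc
          exact hπ.ne_zero (by rw [hc, IsLocalization.mk'_zero])
        have hle₀ : (Ideal.span {π}).comap φ ≤ p := fun c hc => by
          by_contra hcp
          exact hπ.not_isUnit (isUnit_of_dvd_unit (Ideal.mem_span_singleton.1 hc)
            (IsLocalization.map_units (Localization.AtPrime p) (⟨c, hcp⟩ : p.primeCompl)))
        have hle : (Ideal.span {π}).comap φ < p := by
          refine lt_of_le_of_ne hle₀ fun heq => ?_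
          obtain ⟨Q, hQ, hQ0, hQp⟩ := hchain
          have hdisj : Disjoint (p.primeCompl : Set C) (Q : Set C) :=
            Set.disjoint_left.2 fun z hz hzQ => hz (hQp.le hzQ)
          have hQ' := IsLocalization.isPrime_of_isPrime_disjoint p.primeCompl
            (Localization.AtPrime p) Q hQ hdisj
          have hQc : (Q.map φ).comap φ = Q :=
            IsLocalization.under_map_of_isPrime_disjoint p.primeCompl _ hQ hdisj
          have hQ'0 : Q.map φ ≠ ⊥ := fun h => hQ0 (by
            rw [h, ← RingHom.ker_eq_comap_bot, (RingHom.injective_iff_ker_eq_bot φ).1 hφ] at hQc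
            exact hQc.symm)
          obtain ⟨ϖ, hϖQ, hϖ⟩ :=
            UniqueFactorizationMonoid.iff_exists_prime_mem_of_isPrime.1 ‹_› (Q.map φ) hQ'0 hQ'
          have hmax : Ideal.span {π} = IsLocalRing.maximalIdeal (Localization.AtPrime p) := by
            refine le_antisymm (IsLocalRing.le_maximalIdeal ?_) ?_
            · rw [ne_eq, Ideal.span_singleton_eq_top]; exact hπ.not_isUnit
            · rw [← Localization.AtPrime.map_eq_maximalIdeal, Ideal.map_le_iff_le_comap]
              exact heq.ge
          have hdvd : π ∣ ϖ := Ideal.mem_span_singleton.1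
            (hmax ▸ IsLocalRing.le_maximalIdeal hQ'.ne_top hϖQ)
          have hπQ : π ∈ Q.map φ := by
            obtain ⟨u, hu⟩ := (hπ.associated_of_dvd hϖ hdvd).symm
            exact hu ▸ Ideal.mul_mem_right _ _ hϖQ
          refine hQp.ne ?_
          rw [← hQc, le_antisymm (IsLocalRing.le_maximalIdeal hQ'.ne_top)
            (hmax ▸ (Ideal.span_singleton_le_iff_mem _).2 hπQ)]
          exact IsLocalization.AtPrime.under_maximalIdeal (Localization.AtPrime p) p
        obtain ⟨g, s, t, hs, ht, e⟩ := hloc _ hpr hne hle
        refine ⟨g, φ s, φ t, fun h' => hs (Ideal.mem_span_singleton.2 h'),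
          fun h' => ht (Ideal.mem_span_singleton.2 h'), ?_⟩
        rw [hφF, hφF, hφF, e])
    obtain ⟨c, s, rfl⟩ := IsLocalization.exists_mk'_eq p.primeCompl v
    refine ⟨g, s, c, s.2, fun hc => ?_, ?_⟩
    · exact (IsLocalization.AtPrime.isUnit_mk'_iff _ p c s).1 hv hc
    · rw [← hφF f, e, ← mul_assoc, ← hφF (s : C), ← map_mul, IsLocalization.mk'_spec', hφF]

end Fermat.Agent.Conn
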