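import Fermat.Agent.Conn.Connected
import Mathlib.RingTheory.Ideal.Quotient.Basic
import Mathlib.RingTheory.Ideal.Prime

/-!
# The idempotent of a separated partition of the primes above `π`

If the primes above `π` are covered by two pairwise comaximal families, the Chinese remainder
theorem gives an idempotent modulo `√(π)` which is `1` on one family and `0` on the other.
-/

set_option autoImplicit false

namespace Fermat.Agent.Conn

open Ideal

/-- An idempotent modulo `√(π)` attached to a separated partition of the primes above `π`. -/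
theorem exists_idempotent_of_partition {R : Type*} [CommRing R] (π : R) (P S : Finset (Ideal R))
    (hcover : ∀ Q : Ideal R, Q.IsPrime → π ∈ Q → ∃ p ∈ P, p ≤ Q)
    (hsep : ∀ p ∈ P, p ∈ S → ∀ p' ∈ P, p' ∉ S → p ⊔ p' = ⊤) :
    ∃ e : R, e * e - e ∈ (span {π}).radical ∧
      (∀ p ∈ P, p ∈ S → e - 1 ∈ p) ∧ (∀ p ∈ P, p ∉ S → e ∈ p) := by
  classical
  let I : Ideal R := (P.filter (· ∈ S)).inf id
  let J : Ideal R := (P.filter (· ∉ S)).inf id
  have htop : I ⊔ J = ⊤ := by
    have h1 : ∀ p' ∈ P.filter (· ∉ S), I ⊔ p' = ⊤ := by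
      intro p' hp'
      rw [Finset.mem_filter] at hp'
      have h := Ideal.sup_iInf_eq_top (I := p') (s := P.filter (· ∈ S)) (J := fun p => p)
        fun p hp => by
          rw [Finset.mem_filter] at hp
          rw [sup_comm]
          exact hsep p hp.1 hp.2 p' hp'.1 hp'.2
      rw [sup_comm]
      simp only [I, Finset.inf_eq_iInf, id]
      exact h
    simp only [J, Finset.inf_eq_iInf, id]
    exact Ideal.sup_iInf_eq_top (J := fun p => p) h1
  obtain ⟨u, hu, e, he, hue⟩ := Submodule.mem_sup.1 (htop ▸ Submodule.mem_top : (1 : R) ∈ I ⊔ J)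
  have hS : ∀ p ∈ P, p ∈ S → e - 1 ∈ p := fun p hp hpS => by
    have h : I ≤ p := Finset.inf_le (f := id) (Finset.mem_filter.2 ⟨hp, hpS⟩)
    have he1 : e - 1 = -u := by linear_combination hue
    exact he1 ▸ p.neg_mem (h hu)
  have hN : ∀ p ∈ P, p ∉ S → e ∈ p := fun p hp hpS =>
    (Finset.inf_le (f := id) (Finset.mem_filter.2 ⟨hp, hpS⟩) : J ≤ p) he
  refine ⟨e, ?_, hS, hN⟩
  rw [radical_eq_sInf, Submodule.mem_sInf]
  rintro Q ⟨hQ, hQp⟩
  obtain ⟨p, hp, hpQ⟩ := hcover Q hQp (hQ (mem_span_singleton_self π))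
  refine hpQ ?_
  have hfac : e * e - e = e * (e - 1) := by ring
  rw [hfac]
  by_cases hpS : p ∈ S
  · exact p.mul_mem_left e (hS p hp hpS)
  · exact p.mul_mem_right _ (hN p hp hpS)

end Fermat.Agent.Conn
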