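import Fermat.Agent.Conn.Near
import Fermat.Agent.Conn.Partition
import Mathlib.RingTheory.Invariant.Basic
import Mathlib.RingTheory.Ideal.GoingUp
import Mathlib.RingTheory.Ideal.MinimalPrime.Noetherian
import Mathlib.RingTheory.RootsOfUnity.PrimitiveRoots
import Mathlib.RingTheory.Polynomial.Cyclotomic.Basic
import Mathlib.FieldTheory.Galois.Basic
import Mathlib.RingTheory.IntegralClosure.IntegralRestrict

/-!
# Kummer elements and the components of the special fibre

Let `h` in a finite Galois extension `L/F` satisfy `h ^ n = f`, where on every component of the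
special fibre `f` is `G_i ^ n` to first order.  The primes of the integral closure which are
minimal over `π` are those over the components (`Components.exists_comap_eq`,
`Components.mem_minimalPrimes`), and on each of them `h / G_i` is congruent to a unique `n`-th root
of unity (`exists_label`, `label_unique`).
-/

set_option autoImplicit false

namespace Fermat.Agent.Conn

open scoped Pointwise

variable {W F L : Type*} [CommRing W] [Field F] [Field L] [Algebra W F] [Algebra F L]
  [Algebra W L] [IsScalarTower W F L]

section OneChart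

variable (B : Subalgebra W F) {ι : Type*} (π : W) (Pi : ι → Ideal B)

/-- The components `Pi` exhaust the primes over `π`. -/
structure Components : Prop where
  prime : ∀ i, (Pi i).IsPrime
  pi_mem : ∀ i, algebraMap W B π ∈ Pi i
  cover : ∀ p : Ideal B, p.IsPrime → algebraMap W B π ∈ p → ∃ i, Pi i ≤ p
  antichain : ∀ i j, Pi i ≤ Pi j → i = j
  closed : ∀ x : F, IsIntegral B x → x ∈ B

variable (f : F) (n : ℕ) (G : ι → F)

/-- Approximate roots on the components, consistent at every closed point. -/
structure Consistent : Prop where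
  root_ne : ∀ i, G i ≠ 0
  root_near : ∀ i, Near (Pi i) (f / G i ^ n - 1)
  local_data : ∀ m : Ideal B, m.IsMaximal → algebraMap W B π ∈ m →
    ∃ (g : F) (c : W), g ≠ 0 ∧ IsUnit c ∧ InLoc m (f / g ^ n) ∧
      ∀ i, Pi i ≤ m → ∃ a : F, InLoc m a ∧ Near (Pi i) (G i / g - a) ∧
        Near m (a - algebraMap W F c)

variable {B π Pi f n G}

omit [Algebra W L] [IsScalarTower W F L] in
/-- Elements of `B_p` map into `C_P`. -/
theorem inLoc_map {P : Ideal (integralClosure B L)} {x : F}
    (hx : InLoc (P.comap (algebraMap B (integralClosure B L))) x) :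
    InLoc P (algebraMap F L x) := by
  obtain ⟨s, hs, r, e⟩ := hx
  exact ⟨algebraMap B _ s, hs, algebraMap B _ r, (congrArg (algebraMap F L) e).symm ▸
    (map_mul (algebraMap F L) (s : F) x).symm⟩

omit [Algebra W L] [IsScalarTower W F L] in
/-- Elements of the maximal ideal of `B_p` map into that of `C_P`. -/
theorem near_map {P : Ideal (integralClosure B L)} {x : F}
    (hx : Near (P.comap (algebraMap B (integralClosure B L))) x) :
    Near P (algebraMap F L x) := by
  obtain ⟨s, hs, r, hr, e⟩ := hx
  exact ⟨algebraMap B _ s, hs, algebraMap B _ r, hr, (congrArg (algebraMap F L) e).symm ▸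
    (map_mul (algebraMap F L) (s : F) x).symm⟩

omit [Algebra W L] [IsScalarTower W F L] in
/-- An `n`-th root of an element of `B_p` lies in `C_P`. -/
theorem inLoc_of_pow {P : Ideal (integralClosure B L)} (hn : 0 < n) {x : L} {u : F}
    (hxu : x ^ n = algebraMap F L u)
    (hu : InLoc (P.comap (algebraMap B (integralClosure B L))) u) : InLoc P x := by
  obtain ⟨s, hs, r, e⟩ := hu
  have hint : IsIntegral B (algebraMap B L s * x) := by
    refine IsIntegral.of_pow hn ?_
    have h : (algebraMap B L s * x) ^ n = algebraMap B L (s ^ (n - 1) * r) := by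
      have e' : algebraMap F L (s : F) * algebraMap F L u = algebraMap F L (r : F) := by
        rw [← map_mul]; exact congrArg (algebraMap F L) e
      rw [mul_pow, hxu, map_mul, map_pow, IsScalarTower.algebraMap_apply B F L,
        IsScalarTower.algebraMap_apply B F L]
      change algebraMap F L (s : F) ^ n * _ = algebraMap F L (s : F) ^ (n - 1) * algebraMap F L (r : F)
      rw [← e', ← mul_assoc, pow_sub_one_mul hn.ne']
    rw [h]
    exact isIntegral_algebraMap
  exact ⟨algebraMap B _ s, hs, ⟨_, hint⟩, rfl⟩

variable [FiniteDimensional F L] [IsGalois F L]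

omit [Algebra W L] [IsScalarTower W F L] in
/-- `B` is the ring of Galois invariants of its integral closure in `L`. -/
theorem Components.isInvariant (hB : Components B π Pi) :
    Algebra.IsInvariant B (integralClosure B L) (L ≃ₐ[F] L) := by
  refine ⟨fun b hb => ?_⟩
  have hfix : (b : L) ∈ (⊥ : IntermediateField F L) := by
    rw [IsGalois.mem_bot_iff_fixed]
    exact fun σ => congrArg Subtype.val (hb σ)
  obtain ⟨x, hx⟩ := IntermediateField.mem_bot.1 hfix
  have hxi : IsIntegral B x := by
    rw [← isIntegral_algebraMap_iff (algebraMap F L).injective (A := F) (B := L), hx]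
    exact b.2
  exact ⟨⟨x, hB.closed x hxi⟩, Subtype.ext hx⟩

/-- Minimal primes over `π` upstairs lie over components. -/
theorem Components.exists_comap_eq (hB : Components B π Pi) {P : Ideal (integralClosure B L)}
    (hP : P ∈ (Ideal.span {algebraMap W (integralClosure B L) π}).minimalPrimes) :
    ∃ i, P.comap (algebraMap B (integralClosure B L)) = Pi i := by
  have hPp : P.IsPrime := hP.1.1
  have hπP : algebraMap B (integralClosure B L) (algebraMap W B π) ∈ P :=
    (IsScalarTower.algebraMap_apply W B (integralClosure B L) π) ▸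
      hP.1.2 (Ideal.mem_span_singleton_self _)
  obtain ⟨i, hi⟩ := hB.cover (P.comap _) (hPp.comap _) hπP
  refine ⟨i, le_antisymm ?_ hi⟩
  have := hB.prime i
  have hker : RingHom.ker (algebraMap B (integralClosure B L)) ≤ Pi i := fun b hb => by
    have h : algebraMap F L (b : F) = 0 := congrArg Subtype.val (RingHom.mem_ker.1 hb)
    rw [map_eq_zero, ← ZeroMemClass.coe_zero B, Subtype.coe_inj] at h
    exact h ▸ zero_mem _
  obtain ⟨P', -, hP', hP'i⟩ := Ideal.exists_ideal_over_prime_of_isIntegral (Pi i)
    (⊥ : Ideal (integralClosure B L)) hker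
  obtain ⟨P'', hle, hP'', hP''eq⟩ := Ideal.exists_ideal_over_prime_of_isIntegral
    (P.comap (algebraMap B (integralClosure B L))) P' (hP'i.trans_le hi)
  have hinv := hB.isInvariant (L := L)
  have : P''.under B = P.under B := hP''eq
  obtain ⟨σ, hσ⟩ := Algebra.IsInvariant.exists_smul_of_under_eq B (integralClosure B L)
    (L ≃ₐ[F] L) P'' P this
  have hle' : σ • P' ≤ P := hσ ▸ Ideal.pointwise_smul_le_pointwise_smul_iff.2 hle
  have hunder : (σ • P').under B = Pi i := (Ideal.under_smul B P' σ).trans hP'i
  have hπ' : algebraMap W (integralClosure B L) π ∈ σ • P' := by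
    have h : algebraMap W B π ∈ (σ • P').under B := hunder ▸ hB.pi_mem i
    rw [IsScalarTower.algebraMap_apply W B (integralClosure B L)]
    exact h
  have heq : P ≤ σ • P' :=
    hP.2 ⟨hP'.smul σ, (Ideal.span_singleton_le_iff_mem _).2 hπ'⟩ hle'
  exact (Ideal.comap_mono heq).trans_eq hunder

/-- A prime lying over a component is minimal over `π`. -/
theorem Components.mem_minimalPrimes (hB : Components B π Pi) {P : Ideal (integralClosure B L)}
    [hP : P.IsPrime] {i : ι} (hi : P.comap (algebraMap B (integralClosure B L)) = Pi i) :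
    P ∈ (Ideal.span {algebraMap W (integralClosure B L) π}).minimalPrimes := by
  have hπ : algebraMap W (integralClosure B L) π ∈ P := by
    have h : algebraMap W B π ∈ P.comap (algebraMap B (integralClosure B L)) := hi ▸ hB.pi_mem i
    rw [IsScalarTower.algebraMap_apply W B (integralClosure B L)]
    exact h
  obtain ⟨Q, hQ, hQP⟩ := Ideal.exists_minimalPrimes_le ((Ideal.span_singleton_le_iff_mem _).2 hπ)
  obtain ⟨j, hj⟩ := hB.exists_comap_eq hQ
  have hji : j = i := hB.antichain j i (hj ▸ hi ▸ Ideal.comap_mono hQP)
  rcases eq_or_lt_of_le hQP with h | h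
  · exact h ▸ hQ
  · have := hQ.1.1
    have := Ideal.IsIntegral.comap_lt_comap (R := B) h
    rw [hj, hji, ← hi] at this
    exact absurd rfl this.ne

variable {ζ : W} (hn : 0 < n) (hζ : IsPrimitiveRoot (algebraMap W F ζ) n)
  (hζ1 : ζ ^ n = 1) (hζu : ∀ k : ℕ, 0 < k → k < n → IsUnit (ζ ^ k - 1))
  {h : L} (hh : h ^ n = algebraMap F L f)

include hn hζ hh in
omit [FiniteDimensional F L] [IsGalois F L] in
/-- Existence of the label of a prime over a component. -/
theorem exists_label (hC : Consistent B π Pi f n G) {P : Ideal (integralClosure B L)}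
    [P.IsPrime] {i : ι} (hi : P.comap (algebraMap B (integralClosure B L)) = Pi i) :
    ∃ k < n, Near P (h / algebraMap F L (G i) - algebraMap W L (ζ ^ k)) := by
  set x := h / algebraMap F L (G i)
  have hxn : x ^ n = algebraMap F L (f / G i ^ n) := by rw [div_pow, hh, map_div₀, map_pow]
  have hnear : Near P (x ^ n - 1) := by
    have := near_map (L := L) (hi.symm ▸ hC.root_near i)
    rwa [map_sub, ← hxn, map_one] at this
  have hx : InLoc P x := by
    refine inLoc_of_pow hn hxn (hi.symm ▸ ?_)
    have := (hC.root_near i).inLoc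
    have hp : (Pi i).IsPrime := hi ▸ Ideal.IsPrime.comap _
    simpa using this.add (inLoc_algebraMap (L := F) (Q := Pi i) (1 : B))
  have hζL : IsPrimitiveRoot (algebraMap W L ζ) n := by
    rw [IsScalarTower.algebraMap_apply W F L]
    exact hζ.map_of_injective (algebraMap F L).injective
  have hprod : x ^ n - 1 = ∏ k ∈ Finset.range n, (x - algebraMap W L (ζ ^ k)) := by
    have h := congrArg (Polynomial.eval x) (Polynomial.X_pow_sub_one_eq_prod hn hζL)
    rw [Polynomial.eval_prod] at h
    simp only [Polynomial.eval_sub, Polynomial.eval_pow, Polynomial.eval_X, Polynomial.eval_one,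
      Polynomial.eval_C] at h
    rw [h]
    refine (Finset.prod_bij (fun k _ => algebraMap W L (ζ ^ k)) ?_ ?_ ?_ ?_).symm
    · intro k _
      rw [Polynomial.mem_nthRootsFinset hn, map_pow, ← pow_mul, mul_comm, pow_mul,
        hζL.pow_eq_one, one_pow]
    · intro k hk l hl heq
      exact hζL.pow_inj (Finset.mem_range.1 hk) (Finset.mem_range.1 hl) (by simpa using heq)
    · intro z hz
      have : NeZero n := ⟨hn.ne'⟩
      obtain ⟨k, hk, rfl⟩ := hζL.eq_pow_of_pow_eq_one ((Polynomial.mem_nthRootsFinset hn _).1 hz)
      exact ⟨k, Finset.mem_range.2 hk, by rw [map_pow]⟩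
    · intro k _; rfl
  obtain ⟨k, hk, hkn⟩ := exists_near_of_prod (Subtype.val_injective) _ _
    (fun k _ => hx.sub (inLoc_algebraMap (L := L) (Q := P)
      (algebraMap W (integralClosure B L) (ζ ^ k)))) (hprod ▸ hnear)
  exact ⟨k, Finset.mem_range.1 hk, hkn⟩

include hζu hζ1 in
omit [Algebra F L] [IsScalarTower W F L] [FiniteDimensional F L] [IsGalois F L] in
/-- At a prime an element is congruent to at most one unit constant times a root of unity. -/
theorem label_unique {C : Type*} [CommRing C] [Algebra W C] [Algebra C L] [IsScalarTower W C L]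
    (hinj : Function.Injective (algebraMap C L)) {Q : Ideal C} [Q.IsPrime] {y : L} {c : W}
    (hc : IsUnit c) {k l : ℕ} (hk : k < n) (hl : l < n)
    (h₁ : Near Q (y - algebraMap W L (ζ ^ k * c))) (h₂ : Near Q (y - algebraMap W L (ζ ^ l * c))) :
    k = l := by
  wlog hkl : k ≤ l generalizing k l
  · exact (this hl hk h₂ h₁ (le_of_not_ge hkl)).symm
  by_contra hne
  obtain ⟨d, rfl⟩ := Nat.exists_eq_add_of_le hkl
  have hu : IsUnit (ζ ^ k * (ζ ^ d - 1) * c) := by
    refine (IsUnit.mul ?_ (hζu d (by omega) (by omega))).mul hc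
    rcases Nat.eq_zero_or_pos k with rfl | hk0
    · simp
    · refine IsUnit.pow _ ?_
      refine IsUnit.of_mul_eq_one (ζ ^ (n - 1)) ?_
      rw [mul_pow_sub_one (by omega : n ≠ 0)]
      exact hζ1
  refine not_near_of_isUnit hinj (Q := Q) (hu.map (algebraMap W C)) ?_
  have h := h₁.sub h₂
  rw [← IsScalarTower.algebraMap_apply]
  convert h using 1
  rw [pow_add]
  simp only [map_sub, map_mul, map_one]
  ring

end OneChart

end Fermat.Agent.Conn
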