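import Fermat.Agent.Conn.SheetsPoint
import Fermat.Agent.Conn.Kummer

/-!
# Consistent approximate roots on the three-component model

If both norms of `f` are constants times `n`-th powers and the divisor of `f` is divisible by `n`
away from the special fibre, a fixed power of `f`, times a constant and an `n`-th power, has
approximate roots on the three components which agree at every closed point.
-/

set_option autoImplicit false

noncomputable section

namespace Fermat.Agent.Conn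

namespace ThreeSheet

variable {W F R Rb : Type*} [CommRing W] [IsLocalRing W] [Field F]
    [Algebra W F] [CommRing R] [Algebra W R] [CommRing Rb] [Algebra W Rb] {q : ℕ}
variable (T : ThreeSheet W F R Rb q)

open IsLocalRing (residue)

/-- The kernels of the three reductions are the components of the special fibre. -/
theorem components : Components T.B (q : W) (fun i => RingHom.ker (T.r i)) where
  prime i := T.ker_prime i
  pi_mem i := by rw [map_natCast]; exact T.q_mem_ker i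
  cover p hp hq := T.cover p hp (by rwa [map_natCast] at hq)
  antichain := T.antichain
  closed := T.closed

/-- `x` is locally at `p` a unit times an `n`-th power. -/
def DivAt (n : ℕ) (p : Ideal T.B) (x : F) : Prop :=
  ∃ (g : F) (s t : T.B), s ∉ p ∧ t ∉ p ∧ (s : F) * x = (t : F) * g ^ n

variable {T} {n : ℕ} {p : Ideal T.B} {x y : F}

/-- Local divisibility of the divisor by `n` is stable under products. -/
theorem DivAt.mul [hp : p.IsPrime] (hx : T.DivAt n p x) (hy : T.DivAt n p y) :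
    T.DivAt n p (x * y) := by
  obtain ⟨g, s, t, hs, ht, e⟩ := hx
  obtain ⟨g', s', t', hs', ht', e'⟩ := hy
  refine ⟨g * g', s * s', t * t', hp.mul_notMem hs hs', hp.mul_notMem ht ht', ?_⟩
  rw [MulMemClass.coe_mul, MulMemClass.coe_mul, mul_mul_mul_comm, e, e']
  ring

/-- Local divisibility of the divisor by `n` is stable under inverses. -/
theorem DivAt.inv (hx : T.DivAt n p x) : T.DivAt n p x⁻¹ := by
  obtain ⟨g, s, t, hs, ht, e⟩ := hx
  have hsF : (s : F) ≠ 0 := T.ne_zero_of_coe fun h => hs (h ▸ zero_mem p)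
  have htF : (t : F) ≠ 0 := T.ne_zero_of_coe fun h => ht (h ▸ zero_mem p)
  refine ⟨g⁻¹, t, s, ht, hs, ?_⟩
  have hx' : x = (t : F) * g ^ n / (s : F) := by rw [eq_div_iff hsF, mul_comm, e]
  rw [hx', inv_div, inv_pow, mul_div_assoc', div_eq_mul_inv, mul_inv, mul_comm (t : F) (s : F),
    mul_assoc, mul_inv_cancel_left₀ htF]

variable (T)

theorem divAt_pow (hp : p.IsPrime) (hx : T.DivAt n p x) (k : ℕ) :
    T.DivAt n p (x ^ k) := by
  induction k with
  | zero => exact ⟨1, 1, 1, hp.one_notMem, hp.one_notMem, by simp⟩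
  | succ k ih => rw [pow_succ]; exact ih.mul hx

theorem divAt_zpow (hp : p.IsPrime) (hx : T.DivAt n p x) (k : ℤ) :
    T.DivAt n p (x ^ k) := by
  cases k with
  | ofNat k => simpa using T.divAt_pow hp hx k
  | negSucc k => rw [zpow_negSucc]; exact (T.divAt_pow hp hx _).inv

/-- The value at a point of a quotient is the quotient of the values. -/
theorem near_const_div {m : Ideal T.B} (hqm : (q : T.B) ∈ m) {v s : T.B}
    {a b c : W} (hs : s ∉ m) (hv : v - algebraMap W T.B a ∈ m) (hsb : s - algebraMap W T.B b ∈ m)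
    (h : residue W a = residue W (c * b)) :
    Near m ((v : F) / (s : F) - algebraMap W F c) := by
  refine ⟨s, hs, v - algebraMap W T.B c * s, ?_, ?_⟩
  · have := T.isDomain_Rb
    have h₁ : algebraMap W T.B (a - c * b) ∈ m :=
      T.mem_of_residue_eq_zero hqm (by rw [map_sub, h, sub_self])
    have e : v - algebraMap W T.B c * s = (v - algebraMap W T.B a) +
        algebraMap W T.B (a - c * b) - algebraMap W T.B c * (s - algebraMap W T.B b) := by
      rw [map_sub, map_mul]; ring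
    exact e ▸ m.sub_mem (m.add_mem hv h₁) (m.mul_mem_left _ hsb)
  · have hsF : (s : F) ≠ 0 := T.ne_zero_of_coe fun h => hs (h ▸ zero_mem m)
    show (s : F) * ((v : F) / (s : F) - algebraMap W F c) = ((v - algebraMap W T.B c * s : T.B) : F)
    rw [mul_sub, mul_div_cancel₀ _ hsF, Subalgebra.coe_sub, MulMemClass.coe_mul, mul_comm (s : F)]
    rfl

theorem pow_sub_mem {m : Ideal T.B} {u : T.B} {c : W} (h : u - algebraMap W T.B c ∈ m) (k : ℕ) :
    u ^ k - algebraMap W T.B (c ^ k) ∈ m := by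
  rw [map_pow]
  exact Ideal.mem_of_dvd _ (sub_dvd_pow_sub_pow _ _ k) h

variable {ζ : W}

omit T in
/-- A root of unity of `W` inverse to a residue which is an `n`-th root of unity. -/
theorem exists_root_inverse (hn : 0 < n) (hζ1 : ζ ^ n = 1)
    (hζu : ∀ k : ℕ, 0 < k → k < n → IsUnit (ζ ^ k - 1)) (κ : IsLocalRing.ResidueField W) :
    ∃ z : W, z ^ n = 1 ∧ (κ ^ n = 1 → residue W z * κ = 1) := by
  by_cases hκ : κ ^ n = 1
  · have hprim : IsPrimitiveRoot (residue W ζ) n :=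
      IsPrimitiveRoot.mk_of_lt _ hn (by rw [← map_pow, hζ1, map_one]) fun l hl hln h => by
        have h' := ((hζu l hl hln).map (residue W)).ne_zero
        rw [map_sub, map_pow, h, map_one, sub_self] at h'
        exact h' rfl
    have : NeZero n := ⟨hn.ne'⟩
    obtain ⟨k, hk, rfl⟩ := hprim.eq_pow_of_pow_eq_one hκ
    refine ⟨ζ ^ (n - k), by rw [← pow_mul, mul_comm, pow_mul, hζ1, one_pow], fun _ => ?_⟩
    rw [map_pow, ← pow_add, Nat.sub_add_cancel hk.le, ← map_pow, hζ1, map_one]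
  · exact ⟨1, one_pow n, fun h => absurd h hκ⟩

omit T in
theorem eliminate {K : Type*} [Field K] {a b p r p' r' : K} {k : ℕ} (hk : 1 ≤ k) (ha : a ≠ 0)
    (e : p * a = r * b ^ k) (e' : p' * b = r' * a ^ k) :
    r * r' ^ k * a ^ (k ^ 2 - 1) = p * p' ^ k := by
  have h : p * p' ^ k * a = r * r' ^ k * a ^ (k ^ 2) := by
    calc p * p' ^ k * a = p' ^ k * (p * a) := by ring
      _ = r * (p' * b) ^ k := by rw [e, mul_pow]; ring
      _ = _ := by rw [e', mul_pow, ← pow_mul, sq]; ring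
  refine mul_right_cancel₀ ha ?_
  rw [h, mul_assoc, ← pow_succ, Nat.sub_add_cancel (Nat.one_le_pow _ _ hk)]

/-- Roots on the components of `z ^ (q - 1)` and a root of its norm differ by constants: the data
needed for the relation between the values at a crossing. -/
theorem exists_norm_root [IsDomain Rb] (hn : 0 < n) (hζ1 : ζ ^ n = 1)
    (hζu : ∀ k : ℕ, 0 < k → k < n → IsUnit (ζ ^ k - 1))
    (hroot : ∀ a : IsLocalRing.ResidueField W, ∃ b, b ^ n = a)
    {z : F} (hz : ∀ i, T.UnitAt i z) (hzN : IsConstPow (W := W) (q := q) n (T.NAF z))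
    {G : Fin 3 → F} (hG : ∀ i, T.UnitAt i (G i) ∧ T.res i (G i) ^ n = T.res i (z ^ (q - 1))) :
    ∃ (c₃ : W) (gN : F) (l₀ l₂ : W), IsUnit c₃ ∧ (∀ i, T.UnitAt i gN) ∧
      IsUnit l₀ ∧ IsUnit l₂ ∧ T.NAF (z ^ (q - 1)) = algebraMap W F c₃ * gN ^ n ∧
      T.res 0 (G 0) * T.res 1 (G 1) ^ (q - 1) = T.cK l₀ * T.res 0 gN ∧
      T.res 2 (G 2) ^ q = T.cK l₂ * T.res 2 gN := by
  obtain ⟨hNu, e0, -, e2⟩ := T.res_NAF (x := z ^ (q - 1)) fun i => (hz i).pow _
  obtain ⟨c, g, hc, hg, eg⟩ := T.exists_unit_root hn hNu (by rw [T.NAF_pow]; exact hzN.pow _)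
  have hr : ∀ i, T.res i (T.NAF (z ^ (q - 1))) = T.cK c * T.res i g ^ n := fun i => by
    rw [eg, res_mul (T.unitAt_const hc i) ((hg i).pow n), res_pow (hg i), res_const]
  obtain ⟨l₀, hl₀, el₀⟩ := T.exists_unit_factor hn hζ1 hζu hroot hc (res_ne_zero (hg 0))
    (z := T.res 0 (G 0) * T.res 1 (G 1) ^ (q - 1))
    (by rw [mul_pow, ← pow_mul, mul_comm (q - 1), pow_mul, (hG 0).2, (hG 1).2, ← e0, hr])
  obtain ⟨l₂, hl₂, el₂⟩ := T.exists_unit_factor hn hζ1 hζu hroot hc (res_ne_zero (hg 2))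
    (z := T.res 2 (G 2) ^ q)
    (by rw [← pow_mul, mul_comm q, pow_mul, (hG 2).2, ← e2, hr])
  exact ⟨c, g, l₀, l₂, hc, hg, hl₀, hl₂, eg, el₀, el₂⟩

/-- The relation of `crossing_rel` for the image of `x` under the involution, in the point data of
`x`: the outer components change their roles. -/
theorem crossing_rel_wF [IsDomain Rb] [IsNoetherianRing W] (hn : 0 < n) {G : Fin 3 → F}
    (hG : ∀ i, T.UnitAt i (G i)) {c₃ : W} {gN : F} (hc₃ : IsUnit c₃)
    (hgN : ∀ i, T.UnitAt i gN) (hN : T.NAF (T.wF x) = algebraMap W F c₃ * gN ^ n) {l₀ l₂ : W}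
    (h0 : T.res 0 (T.wF (G (flip 0))) * T.res 1 (T.wF (G (flip 1))) ^ (q - 1) =
      T.cK l₀ * T.res 0 gN)
    (h2 : T.res 2 (T.wF (G (flip 2))) ^ q = T.cK l₂ * T.res 2 gN)
    {m : Ideal T.B} (hm : m.IsMaximal) (hle : ∀ i, RingHom.ker (T.r i) ≤ m)
    {g : F} {s t : T.B} (hs : s ∉ m) (e : (s : F) * x = (t : F) * g ^ n)
    {u : Fin 3 → T.B} {c : Fin 3 → W} (hg : ∀ i, T.UnitAt i g)
    (hu : ∀ i, T.res i (G i) * T.phi i s = T.phi i (u i) * T.res i g)
    (hc : ∀ i, u i - algebraMap W T.B (c i) ∈ m) :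
    residue W l₂ * residue W (c 2) * residue W (c 1) ^ (q - 1) =
      residue W l₀ * residue W (c 0) ^ q := by
  obtain ⟨P, hP, hp, hPm⟩ := T.exists_crossing hm (show (0 : Fin 3) ≠ 1 by decide) (hle 0) (hle 1)
  have hwm : ∀ b : T.B, T.w b ∈ m ↔ b ∈ m := fun b => by
    rw [← hPm]
    conv_rhs => rw [← T.pt_eq hP hp 2, T.pt_two]
    rfl
  have h := T.crossing_rel (G := fun i => T.wF (G (flip i))) hn hc₃ hgN hN h0 h2 hm hle
    (s := T.w s) (t := T.w t) (g := T.wF g) (u := fun i => T.w (u (flip i)))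
    (c := fun i => c (flip i))
    (fun h => hs ((hwm s).1 h))
    (by rw [← T.wF_coe, ← T.wF_coe, ← T.wF_pow, ← T.wF_mul, ← T.wF_mul, e])
    (fun i => T.unitAt_wF (hg (flip i)))
    (fun i => by
      have hphi : ∀ b, T.phi i (T.w b) = T.phi (flip i) b := fun b => by
        rw [phi_apply, phi_apply, T.r_w]
      rw [T.res_wF (hG (flip i)), T.res_wF (hg (flip i)), hphi, hphi]
      exact hu (flip i))
    (fun i => by
      have h := (hwm _).2 (hc (flip i))
      rwa [map_sub, AlgEquiv.commutes] at h)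
  rwa [show flip (0 : Fin 3) = 2 from rfl, show flip (1 : Fin 3) = 1 from rfl,
    show flip (2 : Fin 3) = 0 from rfl] at h

omit T in
/-- The two relations at a crossing determine the `(q ^ 2 - 1)`-th powers of the ratios of the
values, so roots of unity `z₀`, `z₂` make the three values agree. -/
theorem corrected_values {K : Type*} [Field K] (hq : 1 ≤ q) {l₀ l₂ l₀' l₂' z₀ z₂ : K}
    (hl₀ : l₀ ≠ 0) (hl₀' : l₀' ≠ 0) {c : Fin 3 → K} (hc : ∀ i, c i ≠ 0)
    (hcn : ∀ i, c i ^ n = c 1 ^ n)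
    (h : l₂ * c 0 * c 1 ^ (q - 1) = l₀ * c 2 ^ q)
    (h' : l₂' * c 2 * c 1 ^ (q - 1) = l₀' * c 0 ^ q)
    (hz₀ : (l₂ * l₂' ^ q / (l₀ * l₀' ^ q)) ^ n = 1 →
      z₀ * (l₂ * l₂' ^ q / (l₀ * l₀' ^ q)) = 1)
    (hz₂ : (l₂' * l₂ ^ q / (l₀' * l₀ ^ q)) ^ n = 1 →
      z₂ * (l₂' * l₂ ^ q / (l₀' * l₀ ^ q)) = 1) :
    z₀ * c 0 ^ (q ^ 2 - 1) = c 1 ^ (q ^ 2 - 1) ∧
      z₂ * c 2 ^ (q ^ 2 - 1) = c 1 ^ (q ^ 2 - 1) := by
  have hscale : ∀ {p r' a b : K}, p * a * c 1 ^ (q - 1) = r' * b ^ q →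
      p * (a / c 1) = r' * (b / c 1) ^ q := by
    intro p r' a b h
    have hvq : c 1 ^ q = c 1 ^ (q - 1) * c 1 := (pow_sub_one_mul (by omega) (c 1)).symm
    rw [div_pow, ← mul_div_assoc, ← mul_div_assoc, ← h, hvq,
      mul_div_mul_right _ _ (pow_ne_zero _ (hc 1)) |>.trans rfl |>.symm]
    ring
  have key : ∀ (i : Fin 3) (κ z : K), (κ ^ n = 1 → z * κ = 1) →
      (c i / c 1) ^ (q ^ 2 - 1) = κ → z * c i ^ (q ^ 2 - 1) = c 1 ^ (q ^ 2 - 1) := by
    intro i κ z hz hκ
    have h1 : z * κ = 1 := hz (by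
      rw [← hκ, ← pow_mul, mul_comm, pow_mul, div_pow, hcn i,
        div_self (pow_ne_zero n (hc 1)), one_pow])
    rwa [← hκ, div_pow, ← mul_div_assoc, div_eq_one_iff_eq (pow_ne_zero _ (hc 1))] at h1
  refine ⟨key 0 _ z₀ hz₀ ?_, key 2 _ z₂ hz₂ ?_⟩
  · rw [eq_div_iff (mul_ne_zero hl₀ (pow_ne_zero _ hl₀')), mul_comm]
    exact eliminate hq (div_ne_zero (hc 0) (hc 1)) (hscale h) (hscale h')
  · rw [eq_div_iff (mul_ne_zero hl₀' (pow_ne_zero _ hl₀)), mul_comm]
    exact eliminate hq (div_ne_zero (hc 2) (hc 1)) (hscale h') (hscale h)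

/-- Along a component, a corrected power of a root of `x` is an approximate root of the same power
of `x`. -/
theorem near_div_corrected_root [IsDomain Rb] {i : Fin 3} {G : F} (hx : T.UnitAt i x)
    (hG : T.UnitAt i G ∧ T.res i G ^ n = T.res i x) {z : W} (hz : z ^ n = 1) (hn : 0 < n) (E : ℕ) :
    Near (RingHom.ker (T.r i)) (x ^ E / (algebraMap W F z * G ^ E) ^ n - 1) := by
  have hzu := T.unitAt_const (IsUnit.of_pow_eq_one hz hn.ne') i
  have hGE : T.UnitAt i (algebraMap W F z * G ^ E) := hzu.mul (hG.1.pow E)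
  have hu1 : T.UnitAt i (x ^ E / (algebraMap W F z * G ^ E) ^ n) := by
    rw [div_eq_mul_inv]; exact (hx.pow E).mul (hGE.pow n).inv
  refine T.near_of_res_eq hu1.inLoc (T.unitAt_one i).inLoc ?_
  rw [res_div (hx.pow E) (hGE.pow n), res_pow hx, res_pow hGE,
    res_mul hzu (hG.1.pow E), res_pow hG.1, res_const,
    mul_pow, ← map_pow, hz, map_one, one_mul, ← pow_mul, mul_comm E n, pow_mul, hG.2,
    div_self (pow_ne_zero _ (res_ne_zero hx))]
  exact (resFrac_one T.coe_injective).symm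

/-- Along a component through a closed point, the quotient of the corrected root by `g ^ E` is
congruent to an element which is regular at the point, with value the corrected value. -/
theorem exists_local_value [IsDomain Rb] {i : Fin 3} {G g : F} (hG : T.UnitAt i G)
    (hgi : T.UnitAt i g)
    {z : W} (hz : IsUnit z) {m : Ideal T.B} (hm : m.IsMaximal) (hqm : (q : T.B) ∈ m)
    (hi : RingHom.ker (T.r i) ≤ m) {s u : T.B} (hs : s ∉ m)
    (hui : T.res i G * T.phi i s = T.phi i u * T.res i g) {ci cs c' : W}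
    (hci : u - algebraMap W T.B ci ∈ m) (hcs : s - algebraMap W T.B cs ∈ m) {E : ℕ}
    (hval : residue W (z * ci ^ E) = residue W (c' * cs ^ E)) :
    ∃ a : F, InLoc m a ∧ Near (RingHom.ker (T.r i)) (algebraMap W F z * G ^ E / g ^ E - a) ∧
      Near m (a - algebraMap W F c') := by
  have hsE : s ^ E ∉ m := fun h => hs (hm.isPrime.mem_of_pow_mem E h)
  have hsi : T.r i (s ^ E) ≠ 0 := fun h => hsE (hi h)
  have hsF : ((s ^ E : T.B) : F) ≠ 0 := T.ne_zero_of_coe fun h => hsE (h ▸ zero_mem m)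
  refine ⟨((algebraMap W T.B z * u ^ E : T.B) : F) / ((s ^ E : T.B) : F),
    ⟨s ^ E, hsE, algebraMap W T.B z * u ^ E, mul_div_cancel₀ _ hsF⟩, ?_, ?_⟩
  · refine T.near_of_res_eq (x := algebraMap W F z * G ^ E / g ^ E) ?_
      ⟨s ^ E, fun h => hsi (T.phi_eq_zero.1 h), algebraMap W T.B z * u ^ E, ?_⟩ ?_
    · rw [div_eq_mul_inv]
      exact (((T.unitAt_const hz i).mul (hG.pow E)).mul (hgi.pow E).inv).inLoc
    · exact mul_div_cancel₀ _ hsF
    rw [res_div ((T.unitAt_const hz i).mul (hG.pow E)) (hgi.pow E),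
      res_mul (T.unitAt_const hz i) (hG.pow E), res_pow hG, res_pow hgi, res_const,
      res_eq hsi (mul_div_cancel₀ _ hsF), map_mul, map_pow, map_pow, phi_const,
      div_eq_div_iff (pow_ne_zero _ (res_ne_zero hgi))
        (pow_ne_zero _ (mt T.phi_eq_zero.1 fun h => hs (hi h))),
      mul_assoc, ← mul_pow, hui, mul_pow]
    ring
  · refine T.near_const_div hqm (a := z * ci ^ E) (b := cs ^ E) hsE ?_ (T.pow_sub_mem hcs E) hval
    rw [map_mul, ← mul_sub]
    exact m.mul_mem_left _ (T.pow_sub_mem hci E)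

/-- Consistent approximate roots of a fixed power of `f`. -/
theorem exists_consistent [IsNoetherianRing W] (hn : 0 < n) (hcop : Nat.Coprime q n)
    (hζ1 : ζ ^ n = 1)
    (hζu : ∀ k : ℕ, 0 < k → k < n → IsUnit (ζ ^ k - 1))
    (hroot : ∀ a : IsLocalRing.ResidueField W, ∃ b, b ^ n = a)
    {f : F} (hf : f ≠ 0)
    (hdiv : ∀ p : Ideal T.B, p.IsPrime → (q : T.B) ∉ p → ∃ (g : F) (s t : T.B),
      s ∉ p ∧ t ∉ p ∧ (s : F) * f = (t : F) * g ^ n)
    (hA : IsConstPow (W := W) (q := q) n (T.NAF f))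
    (hA' : IsConstPow (W := W) (q := q) n (T.NAF (T.wF f))) :
    ∃ (k : ℤ) (y : F) (G : Fin 3 → F), y ≠ 0 ∧
      Consistent T.B (q : W) (fun i => RingHom.ker (T.r i))
        (f ^ ((q + 1) * (q - 1) * (q - 1) * (q ^ 2 - 1)) * (q : F) ^ k * y ^ n) n G := by
  have := T.isDomain_Rb
  obtain ⟨k, y, hy, hu, hN, hN'⟩ := T.exists_normalised hf hA hA'
  set f₂ := f ^ ((q + 1) * (q - 1)) * (q : F) ^ k * y ^ n with hf₂
  obtain ⟨G₀, hG₀⟩ := T.exists_res_root hn hcop hroot hu hN hN'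
  set x := f₂ ^ (q - 1) with hx_def
  have hx : ∀ i, T.UnitAt i x := fun i => (hu i).pow _
  have hxdiv : ∀ p : Ideal T.B, p.IsPrime → (q : T.B) ∉ p → T.DivAt n p x := fun p hp hqp => by
    have := hp
    refine T.divAt_pow hp (((T.divAt_pow hp (hdiv p hp hqp) _).mul
      (T.divAt_zpow hp ⟨1, 1, (q : T.B), hp.one_notMem, hqp, by simp⟩ k)).mul
      ⟨y, 1, 1, hp.one_notMem, hp.one_notMem, by simp⟩) _
  -- both norms of `x`
  obtain ⟨c₃, gN, l₀, l₂, hc₃, hgN, hl₀, hl₂, eN, el₀, el₂⟩ :=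
    T.exists_norm_root hn hζ1 hζu hroot hu hN hG₀
  obtain ⟨c₃', gN', l₀', l₂', hc₃', hgN', hl₀', hl₂', eN', el₀', el₂'⟩ :=
    T.exists_norm_root hn hζ1 hζu hroot (G := fun i => T.wF (G₀ (flip i)))
      (fun i => T.unitAt_wF (hu (flip i))) hN' fun i => by
        refine ⟨T.unitAt_wF (hG₀ (flip i)).1, ?_⟩
        rw [T.res_wF (hG₀ (flip i)).1, (hG₀ (flip i)).2, ← T.wF_pow,
          T.res_wF ((hu (flip i)).pow _)]
  rw [← T.wF_pow] at eN'
  -- roots of unity correcting the outer components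
  set E := q ^ 2 - 1 with hE
  set r := residue W
  obtain ⟨z₀, hz₀, hz₀κ⟩ :=
    exists_root_inverse hn hζ1 hζu (r l₂ * r l₂' ^ q / (r l₀ * r l₀' ^ q))
  obtain ⟨z₂, hz₂, hz₂κ⟩ :=
    exists_root_inverse hn hζ1 hζu (r l₂' * r l₂ ^ q / (r l₀' * r l₀ ^ q))
  let z : Fin 3 → W := ![z₀, 1, z₂]
  have hz : ∀ i, z i ^ n = 1 := fun i => by
    fin_cases i
    exacts [hz₀, one_pow n, hz₂]
  have hzu : ∀ i, IsUnit (z i) := fun i => IsUnit.of_pow_eq_one (hz i) hn.ne'
  let G : Fin 3 → F := fun i => algebraMap W F (z i) * G₀ i ^ E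
  refine ⟨k * ((q - 1 : ℕ) : ℤ) * (E : ℤ), y ^ ((q - 1) * E), G, pow_ne_zero _ hy, ?_⟩
  have hfx : f ^ ((q + 1) * (q - 1) * (q - 1) * E) *
      (q : F) ^ (k * ((q - 1 : ℕ) : ℤ) * (E : ℤ)) * (y ^ ((q - 1) * E)) ^ n = x ^ E := by
    simp only [hx_def, hf₂, mul_pow, zpow_mul, zpow_natCast, ← pow_mul]
    ring
  rw [hfx]
  refine ⟨fun i => ((T.unitAt_const (hzu i) i).mul ((hG₀ i).1.pow E)).ne_zero,
    fun i => T.near_div_corrected_root (hx i) (hG₀ i) (hz i) hn E, fun m hm hqm => ?_⟩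
  rw [map_natCast] at hqm
  obtain ⟨g, s, t, u, cs, c, c₀, hg0, hs, ht, e, hcsu, hcs, hdata⟩ :=
    T.exists_point_data hn hx G₀ hG₀ hxdiv hm hqm
  obtain ⟨i₀, hi₀⟩ := T.cover m hm.isPrime hqm
  obtain ⟨d, hd⟩ := hcsu.exists_left_inv
  -- the values agree
  have hval : ∀ i j, RingHom.ker (T.r i) ≤ m → RingHom.ker (T.r j) ≤ m →
      r (z i) * r (c i) ^ E = r (z j) * r (c j) ^ E := by
    intro i j hi hj
    rcases eq_or_ne i j with rfl | hij
    · rfl
    obtain ⟨P, hP, hp, hPm⟩ := T.exists_crossing hm hij hi hj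
    have hle : ∀ i, RingHom.ker (T.r i) ≤ m := fun i => by
      rw [← hPm, ← T.pt_eq hP hp i]; exact T.ker_le_pt i P
    have hg : ∀ i, T.UnitAt i g := fun i => (hdata i (hle i)).1
    have hres := fun i => (hdata i (hle i)).2.1
    have hcm := fun i => (hdata i (hle i)).2.2.2.1
    obtain ⟨e₀, e₂⟩ := corrected_values (n := n) T.prime_q.one_le (hl₀.map r).ne_zero
      (hl₀'.map r).ne_zero (c := fun i => r (c i))
      (fun i => ((hdata i (hle i)).2.2.1.map r).ne_zero)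
      (fun i => (hdata i (hle i)).2.2.2.2.trans (hdata 1 (hle 1)).2.2.2.2.symm)
      (T.crossing_rel hn hc₃ hgN eN el₀ el₂ hm hle hs e hg hres hcm)
      (T.crossing_rel_wF hn (fun i => (hG₀ i).1) hc₃' hgN' eN' el₀' el₂' hm hle hs e hg hres hcm)
      hz₀κ hz₂κ
    have key : ∀ i, r (z i) * r (c i) ^ E = r (c 1) ^ E := fun i => by
      fin_cases i
      exacts [e₀, by simp [z], e₂]
    rw [key i, key j]
  refine ⟨g ^ E, z i₀ * (c i₀ * d) ^ E, pow_ne_zero E hg0,
    (hzu i₀).mul (((hdata i₀ hi₀).2.2.1.mul (IsUnit.of_mul_eq_one cs hd)).pow E),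
    ⟨s ^ E, fun h => hs (hm.isPrime.mem_of_pow_mem E h), t ^ E, ?_⟩, fun i hi => ?_⟩
  · show ((s ^ E : T.B) : F) * _ = ((t ^ E : T.B) : F)
    rw [SubmonoidClass.coe_pow, SubmonoidClass.coe_pow, ← mul_div_assoc, ← mul_pow, e,
      ← pow_mul, mul_comm E n, pow_mul, mul_pow, mul_div_cancel_right₀]
    exact pow_ne_zero _ (pow_ne_zero _ hg0)
  obtain ⟨hgi, hui, -, hci, -⟩ := hdata i hi
  refine T.exists_local_value (hG₀ i).1 hgi (hzu i) hm hqm hi hs hui hci hcs ?_
  rw [mul_assoc, ← mul_pow, mul_assoc (c i₀), hd, mul_one]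
  simp only [map_mul, map_pow]
  exact hval i i₀ hi hi₀

end ThreeSheet

end Fermat.Agent.Conn
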