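import Mathlib.RingTheory.Idempotents
import Mathlib.RingTheory.Noetherian.Basic
import Mathlib.RingTheory.Ideal.Quotient.Operations
import Mathlib.Algebra.Algebra.Subalgebra.Lattice
import Mathlib.RingTheory.LocalRing.MaximalIdeal.Basic

/-!
# Lifting idempotents from the special fibre

An idempotent modulo the radical of `(π)` lifts to an idempotent modulo every power of `π`.
-/

set_option autoImplicit false

namespace Fermat.Agent.Conn

open Ideal

/-- Lift an idempotent modulo the radical of `(π)` to one modulo `π ^ m`. -/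
theorem exists_lift_idempotent {R : Type*} [CommRing R] (π : R) (m : ℕ) {e : R}
    (he : e * e - e ∈ (span {π}).radical) :
    ∃ b : R, b * b - b ∈ span {π ^ (m + 1)} ∧ b - e ∈ (span {π}).radical := by
  let I : Ideal R := span {π ^ (m + 1)}
  let J : Ideal R := (span {π}).radical
  have hIJ : I ≤ J := (span_singleton_le_iff_mem _).2
    (le_radical (Ideal.pow_mem_of_mem _ (mem_span_singleton_self π) _ m.succ_pos))
  let f : R ⧸ I →+* R ⧸ J := Ideal.Quotient.factor hIJ
  have hker : ∀ z ∈ RingHom.ker f, IsNilpotent z := by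
    intro z hz
    obtain ⟨z, rfl⟩ := Ideal.Quotient.mk_surjective z
    rw [RingHom.mem_ker, Ideal.Quotient.factor_mk, Ideal.Quotient.eq_zero_iff_mem] at hz
    obtain ⟨k, hk⟩ := hz
    obtain ⟨d, hd⟩ := mem_span_singleton'.1 hk
    refine ⟨k * (m + 1), ?_⟩
    rw [← map_pow, Ideal.Quotient.eq_zero_iff_mem, pow_mul, ← hd, mul_pow]
    exact Ideal.mul_mem_left _ _ (mem_span_singleton_self _)
  have hidem : IsIdempotentElem (Ideal.Quotient.mk J e) := by
    rw [IsIdempotentElem, ← map_mul, Ideal.Quotient.eq]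
    exact he
  obtain ⟨b, hb, hfb⟩ := exists_isIdempotentElem_eq_of_ker_isNilpotent f hker _
    ⟨Ideal.Quotient.mk I e, by simp [f]⟩ hidem
  obtain ⟨b, rfl⟩ := Ideal.Quotient.mk_surjective b
  refine ⟨b, ?_, ?_⟩
  · rw [IsIdempotentElem, ← map_mul, Ideal.Quotient.eq] at hb
    exact hb
  · rw [Ideal.Quotient.factor_mk, Ideal.Quotient.eq] at hfb
    exact hfb

end Fermat.Agent.Conn
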