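import Mathlib.RingTheory.LocalRing.MaximalIdeal.Basic
import Mathlib.RingTheory.Nakayama
import Mathlib.Algebra.Polynomial.Eval.Defs
import Mathlib.Algebra.Ring.GeomSum
import Mathlib.Tactic.LinearCombination
import Mathlib.Data.Nat.Choose.Dvd
import Mathlib.Algebra.CharP.Lemmas
import Mathlib.Algebra.Polynomial.RingDivision

/-!
# The local algebra of a crossing point

Two roots `y, y'` of the Kronecker congruence `(z - X^q) (z^q - X) + q ρ(X)` over a point with
coordinates `(a, a^q, a)`, `a^{q²} = a`, where `ρ` does not vanish: `q` and `z - a^q` lie in the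
square of the maximal ideal, which is then generated by `y - a` and `y' - a`.
-/

set_option autoImplicit false

namespace Fermat.Agent.Conn

open Polynomial IsLocalRing

variable {R : Type*} [CommRing R]

theorem exists_frobenius_poly {q : ℕ} (hq : q.Prime) (a : R) :
    ∃ E : R[X], ∀ Y : R, (a + Y) ^ q = a ^ q + Y ^ q + (q : R) * Y * E.eval Y := by
  refine ⟨∑ k ∈ Finset.Ioo 0 q,
    C (a ^ k * ((q.choose k / q : ℕ) : R)) * X ^ (q - k - 1), fun Y => ?_⟩
  rw [(Commute.all a Y).add_pow_prime_eq hq, eval_finsetSum]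
  simp only [eval_mul, eval_C, eval_pow, eval_X, Finset.mul_sum]
  congr 1
  refine Finset.sum_congr rfl fun k hk => ?_
  rw [Finset.mem_Ioo] at hk
  rw [← mul_pow_sub_one (by omega : k ≠ 0) a]
  ring

variable [IsLocalRing R] [IsDomain R]

/-- The maximal ideal at a crossing is generated by the two coordinates. -/
theorem maximalIdeal_eq_span_of_crossing {q : ℕ} (hq : q.Prime) (a y z y' : R) (ρ : R[X])
    (ha : a ^ (q ^ 2) = a) (hyy : y ≠ y')
    (hy : y - a ∈ maximalIdeal R) (hz : z - a ^ q ∈ maximalIdeal R)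
    (hy' : y' - a ∈ maximalIdeal R)
    (hF : (z - y ^ q) * (z ^ q - y) + (q : R) * ρ.eval y = 0)
    (hF' : (z - y' ^ q) * (z ^ q - y') + (q : R) * ρ.eval y' = 0)
    (hρ : IsUnit (ρ.eval y)) (hfg : (maximalIdeal R).FG)
    (hgen : maximalIdeal R ≤ Ideal.span {(q : R), y - a, z - a ^ q, y' - a}) :
    maximalIdeal R = Ideal.span {y - a, y' - a} := by
  set m := maximalIdeal R
  set Y := y - a
  set Z := z - a ^ q
  set Y' := y' - a
  obtain ⟨E, hE⟩ := exists_frobenius_poly hq a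
  obtain ⟨E₁, hE₁⟩ := exists_frobenius_poly hq (a ^ q)
  have hzq : z ^ q = a + Z ^ q + (q : R) * Z * E₁.eval Z := by
    have h := hE₁ Z
    rw [← pow_mul, ← sq, ha, show a ^ q + Z = z by simp [Z]] at h
    exact h
  have hyq : y ^ q = a ^ q + Y ^ q + (q : R) * Y * E.eval Y := by
    have h := hE Y; rwa [show a + Y = y by simp [Y]] at h
  have hyq' : y' ^ q = a ^ q + Y' ^ q + (q : R) * Y' * E.eval Y' := by
    have h := hE Y'; rwa [show a + Y' = y' by simp [Y']] at h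
  -- `q` lies in the square of the maximal ideal
  have hA : z - y ^ q ∈ m := by
    rw [show z - y ^ q = Z - Y ^ q - (q : R) * E.eval Y * Y by rw [hyq]; simp only [Z]; ring]
    exact m.sub_mem (m.sub_mem hz (m.pow_mem_of_mem hy q hq.pos)) (m.mul_mem_left _ hy)
  have hB : z ^ q - y ∈ m := by
    rw [show z ^ q - y = Z ^ q + (q : R) * E₁.eval Z * Z - Y by rw [hzq]; simp only [Y]; ring]
    exact m.sub_mem (m.add_mem (m.pow_mem_of_mem hz q hq.pos) (m.mul_mem_left _ hz)) hy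
  have hq2 : (q : R) ∈ m ^ 2 := by
    obtain ⟨u, hu⟩ := hρ
    have hh : (q : R) = -((z - y ^ q) * (z ^ q - y)) * (↑u⁻¹ : R) := by
      have : (q : R) * u = -((z - y ^ q) * (z ^ q - y)) := by
        rw [hu]; linear_combination hF
      rw [← this, mul_assoc, Units.mul_inv, mul_one]
    rw [hh]
    exact Ideal.mul_mem_right _ _ (neg_mem (sq m ▸ Ideal.mul_mem_mul hA hB))
  -- the difference quotient
  obtain ⟨D₁, hD₁⟩ := sub_dvd_eval_sub Y Y' (X * E)
  obtain ⟨D₂, hD₂⟩ := sub_dvd_eval_sub y y' ρ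
  obtain ⟨D₃, hD₃⟩ := sub_dvd_eval_sub Y Y' (X ^ q)
  obtain ⟨D₄, hD₄⟩ := sub_dvd_eval_sub Y Y' (X ^ (q + 1))
  obtain ⟨D₅, hD₅⟩ := sub_dvd_eval_sub Y Y' (X ^ 2 * E)
  simp only [eval_mul, eval_X, eval_pow] at hD₁ hD₃ hD₄ hD₅
  have hYY : y - y' = Y - Y' := by simp [Y, Y']
  have hD₃m : ∀ D, Y ^ q - Y' ^ q = (Y - Y') * D → D ∈ m := by
    intro D hD
    have hgs := geom_sum₂_mul Y Y' q
    have : D = ∑ i ∈ Finset.range q, Y ^ i * Y' ^ (q - 1 - i) :=
      mul_left_cancel₀ (sub_ne_zero.2 fun h => hyy (sub_left_injective h))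
        (hD.symm.trans (hgs.symm.trans (mul_comm _ _)))
    rw [this]
    refine sum_mem fun i hi => ?_
    rw [Finset.mem_range] at hi
    rcases Nat.eq_zero_or_pos i with rfl | hi0
    · exact m.mul_mem_left _ (m.pow_mem_of_mem hy' _ (by have := hq.two_le; omega))
    · exact m.mul_mem_right _ (m.pow_mem_of_mem hy _ hi0)
  have hD₄m : D₄ ∈ m ^ 2 := by
    have hgs := geom_sum₂_mul Y Y' (q + 1)
    have : D₄ = ∑ i ∈ Finset.range (q + 1), Y ^ i * Y' ^ (q + 1 - 1 - i) :=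
      mul_left_cancel₀ (sub_ne_zero.2 fun h => hyy (sub_left_injective h))
        (hD₄.symm.trans (hgs.symm.trans (mul_comm _ _)))
    rw [this]
    refine sum_mem fun i hi => ?_
    rw [Finset.mem_range] at hi
    refine Ideal.pow_le_pow_right (m := 2) (n := i + (q + 1 - 1 - i)) (by have := hq.two_le; omega) ?_
    rw [pow_add]
    exact Ideal.mul_mem_mul (Ideal.pow_mem_pow hy i) (Ideal.pow_mem_pow hy' _)
  set W₁ := Z ^ q + (q : R) * Z * E₁.eval Z
  have hzq' : z ^ q = a + W₁ := by rw [hzq]; simp only [W₁]; ring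
  have hne : Y - Y' ≠ 0 := sub_ne_zero.2 fun h => hyy (sub_left_injective h)
  have hkey : (Y - Y') * (-Z - W₁ * D₃ + D₄ + (q : R) * (-(W₁ * D₁) + D₅ + D₂)) = 0 := by
    have e : ∀ (x X₀ : R), x = a + X₀ → x ^ q = a ^ q + X₀ ^ q + (q : R) * X₀ * E.eval X₀ →
        (z - x ^ q) * (z ^ q - x) = Z * W₁ - Z * X₀ - X₀ ^ q * W₁ + X₀ ^ (q + 1) -
          (q : R) * (X₀ * E.eval X₀) * W₁ + (q : R) * (X₀ ^ 2 * E.eval X₀) := by
      intro x X₀ hx hxq
      rw [hxq, hzq', hx]
      simp only [Z]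
      ring
    rw [e y Y (by simp [Y]) hyq] at hF
    rw [e y' Y' (by simp [Y']) hyq'] at hF'
    rw [hYY] at hD₂
    linear_combination hF - hF' + W₁ * hD₃ - hD₄ + (q : R) * W₁ * hD₁ - (q : R) * hD₅ -
      (q : R) * hD₂
  have hW₁ : W₁ ∈ m :=
    m.add_mem (m.pow_mem_of_mem hz q hq.pos) (m.mul_mem_right _ (m.mul_mem_left _ hz))
  have hZ2 : Z ∈ m ^ 2 := by
    have h0 := (mul_eq_zero.1 hkey).resolve_left hne
    rw [show Z = -(W₁ * D₃) + D₄ + (q : R) * (-(W₁ * D₁) + D₅ + D₂) by linear_combination -h0]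
    refine add_mem (add_mem (neg_mem ?_) hD₄m) (Ideal.mul_mem_right _ _ hq2)
    rw [sq]
    exact Ideal.mul_mem_mul hW₁ (hD₃m D₃ hD₃)
  -- conclude by Nakayama
  refine le_antisymm ?_ ?_
  · refine Submodule.le_of_le_smul_of_le_jacobson_bot hfg
      (IsLocalRing.maximalIdeal_le_jacobson ⊥) ?_
    rw [smul_eq_mul, ← sq]
    refine hgen.trans (Ideal.span_le.2 ?_)
    have hs : ∀ x ∈ ({Y, Y'} : Set R), x ∈ Ideal.span ({Y, Y'} : Set R) ⊔ m ^ 2 := fun x hx =>
      Submodule.mem_sup_left (Ideal.subset_span hx)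
    rintro x (rfl | rfl | rfl | rfl)
    exacts [Submodule.mem_sup_right hq2, hs _ (Or.inl rfl), Submodule.mem_sup_right hZ2,
      hs _ (Or.inr rfl)]
  · rw [Ideal.span_le]
    rintro x (rfl | rfl)
    exacts [hy, hy']

end Fermat.Agent.Conn
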