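import Fermat.Agent.Conn.Kummer

/-!
# Labels of the primes over the components

The label of a prime over a component is the `n`-th root of unity to which the Kummer element,
divided by the approximate root on that component, is congruent.  Primes meeting at a closed point
carry the same label.
-/

set_option autoImplicit false

namespace Fermat.Agent.Conn

open scoped Pointwise

variable {W F L : Type*} [CommRing W] [Field F] [Field L] [Algebra W F] [Algebra F L]
  [Algebra W L] [IsScalarTower W F L] [FiniteDimensional F L] [IsGalois F L]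
variable {B : Subalgebra W F} {ι : Type*} {π : W} {Pi : ι → Ideal B}
variable {f : F} {n : ℕ} {G : ι → F} {h : L} {ζ : W}

variable (B Pi G h ζ) in
/-- The prime `P` lies over a component and `h ≡ ζ^k G_i` there. -/
def HasLabel (k : ℕ) (P : Ideal (integralClosure B L)) : Prop :=
  ∃ i, P.comap (algebraMap B (integralClosure B L)) = Pi i ∧
    Near P (h / algebraMap F L (G i) - algebraMap W L (ζ ^ k))

omit [Algebra W L] [IsScalarTower W F L] [FiniteDimensional F L] [IsGalois F L] in
/-- `Near` is transported by the Galois action. -/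
theorem near_smul {P : Ideal (integralClosure B L)} {x : L} (σ : L ≃ₐ[F] L) (hx : Near P x) :
    Near (σ • P) (σ x) := by
  obtain ⟨s, hs, r, hr, e⟩ := hx
  refine ⟨σ • s, fun h => hs ?_, σ • r, Ideal.smul_mem_pointwise_smul σ r P hr, ?_⟩
  · exact Ideal.smul_mem_pointwise_smul_iff.1 h
  · have h' := congrArg σ e
    rw [map_mul] at h'
    exact h'

variable (hn : 0 < n) (hζ : IsPrimitiveRoot (algebraMap W F ζ) n) (hζ1 : ζ ^ n = 1)
  (hζu : ∀ k : ℕ, 0 < k → k < n → IsUnit (ζ ^ k - 1))
  (hh : h ^ n = algebraMap F L f)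
  (hB : Components B π Pi) (hC : Consistent B π Pi f n G)

include hn hζ hh hζ1 hζu hB hC in
/-- Two components of the special fibre meeting at a closed point carry the same label. -/
theorem label_eq_of_le_maximal {P P' Q : Ideal (integralClosure B L)} [Q.IsMaximal]
    (hP : P.IsPrime) (hP' : P' ∈ (Ideal.span {algebraMap W (integralClosure B L) π}).minimalPrimes)
    (hPQ : P ≤ Q) (hP'Q : P' ≤ Q) {k : ℕ} (hk : k < n) (hlab : HasLabel B Pi G h ζ k P) :
    HasLabel B Pi G h ζ k P' := by
  obtain ⟨i, hi, hnear⟩ := hlab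
  obtain ⟨j, hj⟩ := hB.exists_comap_eq hP'
  have hP'p : P'.IsPrime := hP'.1.1
  obtain ⟨l, hl, hlnear⟩ := exists_label (L := L) hn hζ hh hC hj
  have hQp : Q.IsPrime := Ideal.IsMaximal.isPrime ‹_›
  have hm : (Q.comap (algebraMap B (integralClosure B L))).IsMaximal :=
    Ideal.isMaximal_comap_of_isIntegral_of_isMaximal Q
  have hπm : algebraMap W B π ∈ Q.comap (algebraMap B (integralClosure B L)) :=
    Ideal.comap_mono hPQ (hi.symm ▸ hB.pi_mem i)
  obtain ⟨g, c, hg, hc, hu, hloc⟩ := hC.local_data _ hm hπm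
  set w := h / algebraMap F L g
  have hw : InLoc Q w := inLoc_of_pow hn (by rw [div_pow, hh, map_div₀, map_pow]) hu
  have key : ∀ (P₀ : Ideal (integralClosure B L)) (i₀ : ι) (k₀ : ℕ), P₀.IsPrime → P₀ ≤ Q →
      P₀.comap (algebraMap B (integralClosure B L)) = Pi i₀ →
      Near P₀ (h / algebraMap F L (G i₀) - algebraMap W L (ζ ^ k₀)) →
      Near Q (w - algebraMap W L (ζ ^ k₀ * c)) := by
    intro P₀ i₀ k₀ hP₀ hle hcomap hn₀
    have hζ₀ : InLoc P₀ (algebraMap W L (ζ ^ k₀)) :=
      inLoc_algebraMap (L := L) (Q := P₀) (algebraMap W (integralClosure B L) (ζ ^ k₀))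
    have hζQ : InLoc Q (algebraMap W L (ζ ^ k₀)) :=
      inLoc_algebraMap (L := L) (Q := Q) (algebraMap W (integralClosure B L) (ζ ^ k₀))
    obtain ⟨a, ha, hga, hac⟩ := hloc i₀ (hcomap ▸ Ideal.comap_mono hle)
    have haQ : InLoc Q (algebraMap F L a) := inLoc_map ha
    have hga' := near_map (L := L) (hcomap.symm ▸ hga)
    have hac' := near_map (L := L) hac
    rw [map_sub, ← IsScalarTower.algebraMap_apply] at hac'
    rw [map_sub] at hga'
    have hGg : InLoc P₀ (algebraMap F L (G i₀ / g)) := by
      simpa using hga'.inLoc.add (haQ.mono hle)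
    have h1 : Near P₀ (w - algebraMap W L (ζ ^ k₀) * algebraMap F L a) := by
      have h' := (hn₀.mul_inLoc hGg).add (hga'.mul_inLoc hζ₀)
      have hG : algebraMap F L (G i₀) ≠ 0 := (map_ne_zero _).2 (hC.root_ne i₀)
      have hg' : algebraMap F L g ≠ 0 := (map_ne_zero _).2 hg
      have hmul : h / algebraMap F L (G i₀) * algebraMap F L (G i₀ / g) = w := by
        rw [map_div₀, div_mul_div_comm, mul_comm (algebraMap F L (G i₀)),
          mul_div_mul_right _ _ hG]
      convert h' using 1
      rw [← hmul]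
      ring
    have h2 : Near Q (w - algebraMap W L (ζ ^ k₀) * algebraMap F L a) :=
      h1.of_le Subtype.val_injective hle (hw.sub (hζQ.mul haQ))
    have h3 := h2.add (hac'.mul_inLoc hζQ)
    convert h3 using 1
    rw [map_mul]
    ring
  have hkl : k = l := label_unique hζ1 hζu Subtype.val_injective hc hk hl
    (key P i k hP hPQ hi hnear) (key P' j l hP'p hP'Q hj hlnear)
  exact ⟨j, hj, hkl ▸ hlnear⟩

end Fermat.Agent.Conn
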