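import Mathlib.RingTheory.Ideal.Prime
import Mathlib.Algebra.Algebra.Subalgebra.Basic
import Mathlib.Algebra.BigOperators.Group.Finset.Basic
import Mathlib.Algebra.Field.Basic
import Mathlib.Tactic.Ring

/-!
# Congruences in the local ring of a prime, inside an ambient field

For a domain `C` with an injective map to a field `L`, `InLoc Q x` says `x ∈ C_Q` and `Near Q x`
says `x ∈ Q C_Q`.
-/

set_option autoImplicit false

namespace Fermat.Agent.Conn

variable {C L : Type*} [CommRing C] [Field L] [Algebra C L]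

/-- `x` lies in the localisation `C_Q ⊆ L`. -/
def InLoc (Q : Ideal C) (x : L) : Prop :=
  ∃ s : C, s ∉ Q ∧ ∃ r : C, algebraMap C L s * x = algebraMap C L r

/-- `x` lies in the maximal ideal of `C_Q ⊆ L`. -/
def Near (Q : Ideal C) (x : L) : Prop :=
  ∃ s : C, s ∉ Q ∧ ∃ r ∈ Q, algebraMap C L s * x = algebraMap C L r

variable {Q P : Ideal C} {x y : L}

/-- An element of the maximal ideal lies in the local ring. -/
theorem Near.inLoc (h : Near Q x) : InLoc Q x := by
  obtain ⟨s, hs, r, -, e⟩ := h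
  exact ⟨s, hs, r, e⟩

/-- The ring maps into its local rings. -/
theorem inLoc_algebraMap [hQ : Q.IsPrime] (a : C) : InLoc Q (algebraMap C L a) :=
  ⟨1, hQ.one_notMem, a, by simp⟩

/-- The local ring is stable under sums. -/
theorem InLoc.add [hQ : Q.IsPrime] (hx : InLoc Q x) (hy : InLoc Q y) : InLoc Q (x + y) := by
  obtain ⟨s, hs, r, e⟩ := hx
  obtain ⟨s', hs', r', e'⟩ := hy
  refine ⟨s * s', hQ.mul_notMem hs hs', s' * r + s * r', ?_⟩
  rw [map_add, map_mul, map_mul, map_mul, ← e, ← e']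
  ring

/-- The local ring is stable under products. -/
theorem InLoc.mul [hQ : Q.IsPrime] (hx : InLoc Q x) (hy : InLoc Q y) : InLoc Q (x * y) := by
  obtain ⟨s, hs, r, e⟩ := hx
  obtain ⟨s', hs', r', e'⟩ := hy
  refine ⟨s * s', hQ.mul_notMem hs hs', r * r', ?_⟩
  rw [map_mul, map_mul, ← e, ← e']
  ring

/-- The local ring is stable under negation. -/
theorem InLoc.neg (hx : InLoc Q x) : InLoc Q (-x) := by
  obtain ⟨s, hs, r, e⟩ := hx
  exact ⟨s, hs, -r, by rw [map_neg, ← e, mul_neg]⟩

/-- The local ring is stable under differences. -/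
theorem InLoc.sub [Q.IsPrime] (hx : InLoc Q x) (hy : InLoc Q y) : InLoc Q (x - y) :=
  sub_eq_add_neg x y ▸ hx.add hy.neg

/-- The maximal ideal is stable under sums. -/
theorem Near.add [hQ : Q.IsPrime] (hx : Near Q x) (hy : Near Q y) : Near Q (x + y) := by
  obtain ⟨s, hs, r, hr, e⟩ := hx
  obtain ⟨s', hs', r', hr', e'⟩ := hy
  refine ⟨s * s', hQ.mul_notMem hs hs', s' * r + s * r',
    Q.add_mem (Q.mul_mem_left _ hr) (Q.mul_mem_left _ hr'), ?_⟩
  rw [map_add, map_mul, map_mul, map_mul, ← e, ← e']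
  ring

/-- The maximal ideal is stable under negation. -/
theorem Near.neg (hx : Near Q x) : Near Q (-x) := by
  obtain ⟨s, hs, r, hr, e⟩ := hx
  exact ⟨s, hs, -r, Q.neg_mem hr, by rw [map_neg, ← e, mul_neg]⟩

/-- The maximal ideal is stable under differences. -/
theorem Near.sub [Q.IsPrime] (hx : Near Q x) (hy : Near Q y) : Near Q (x - y) :=
  sub_eq_add_neg x y ▸ hx.add hy.neg

/-- The maximal ideal absorbs the local ring. -/
theorem Near.mul_inLoc [hQ : Q.IsPrime] (hx : Near Q x) (hy : InLoc Q y) : Near Q (x * y) := by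
  obtain ⟨s, hs, r, hr, e⟩ := hx
  obtain ⟨s', hs', r', e'⟩ := hy
  refine ⟨s * s', hQ.mul_notMem hs hs', r * r', Q.mul_mem_right _ hr, ?_⟩
  rw [map_mul, map_mul, ← e, ← e']
  ring

/-- The local ring at a larger prime is contained in that at a smaller one. -/
theorem InLoc.mono (hle : P ≤ Q) (hx : InLoc Q x) : InLoc P x := by
  obtain ⟨s, hs, r, e⟩ := hx
  exact ⟨s, fun h => hs (hle h), r, e⟩

variable (hinj : Function.Injective (algebraMap C L))
include hinj

/-- Units are not in the maximal ideal. -/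
theorem not_near_of_isUnit [Q.IsPrime] {u : C} (hu : IsUnit u) : ¬ Near Q (algebraMap C L u) := by
  rintro ⟨s, hs, r, hr, e⟩
  rw [← map_mul] at e
  exact hs ((Ideal.mul_unit_mem_iff_mem _ hu).1 (hinj e ▸ hr))

/-- An element of `C_Q` in `P C_P` lies in `Q C_Q` for primes `P ≤ Q`. -/
theorem Near.of_le [hP : P.IsPrime] (hle : P ≤ Q) (hx : Near P x) (hxQ : InLoc Q x) : Near Q x := by
  obtain ⟨s, hs, r, e⟩ := hxQ
  obtain ⟨t, ht, p, hp, e'⟩ := hx
  refine ⟨s, hs, r, hle ?_, e⟩
  have h : t * r = s * p := hinj (by rw [map_mul, map_mul, ← e, ← e']; ring)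
  exact (hP.mem_or_mem (h ▸ P.mul_mem_left s hp)).resolve_left ht

/-- A root of a monic product: some factor is near zero. -/
theorem exists_near_of_prod [Q.IsPrime] {ι : Type*} (t : Finset ι) (z : ι → L)
    (hz : ∀ i ∈ t, InLoc Q (z i)) (h : Near Q (∏ i ∈ t, z i)) : ∃ i ∈ t, Near Q (z i) := by
  classical
  induction t using Finset.induction with
  | empty =>
    rw [Finset.prod_empty] at h
    exact absurd (by simpa using h) (not_near_of_isUnit hinj (Q := Q) isUnit_one)
  | insert a t hat ih =>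
    rw [Finset.prod_insert hat] at h
    obtain ⟨s, hs, r, e⟩ := hz a (Finset.mem_insert_self a t)
    by_cases hr : r ∈ Q
    · exact ⟨a, Finset.mem_insert_self a t, s, hs, r, hr, e⟩
    · obtain ⟨u, hu, p, hp, e'⟩ := h
      have hrest : Near Q (∏ i ∈ t, z i) := by
        refine ⟨r * u, ‹Q.IsPrime›.mul_notMem hr hu, s * p, Q.mul_mem_left _ hp, ?_⟩
        rw [map_mul, map_mul, ← e, ← e']
        ring
      obtain ⟨i, hi, hiz⟩ := ih (fun i hi => hz i (Finset.mem_insert_of_mem hi)) hrest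
      exact ⟨i, Finset.mem_insert_of_mem hi, hiz⟩

end Fermat.Agent.Conn
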