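import Fermat.Agent.Conn.Near
import Mathlib.RingTheory.Localization.AtPrime.Basic
import Mathlib.RingTheory.Localization.FractionRing
import Mathlib.Tactic.FieldSimp

/-!
# Extending a ring map to fractions inside a field

For `φ : B → K` the elements of `F` that are fractions with denominator outside the kernel.
-/

set_option autoImplicit false

noncomputable section

namespace Fermat.Agent.Conn

variable {B F K : Type*} [CommRing B] [Field F] [Algebra B F] [Field K] (φ : B →+* K)

/-- The value of `φ` at a fraction `x` of elements of `B`; zero outside the domain. -/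
def resFrac (x : F) : K :=
  open Classical in
  if h : InLoc (RingHom.ker φ) x then φ h.choose_spec.2.choose / φ h.choose else 0

variable {φ} {x y : F}

/-- The residue of `r / s` is `φ r / φ s`. -/
theorem resFrac_eq (hinj : Function.Injective (algebraMap B F)) {s r : B} (hs : φ s ≠ 0)
    (e : algebraMap B F s * x = algebraMap B F r) : resFrac φ x = φ r / φ s := by
  have hloc : InLoc (RingHom.ker φ) x := ⟨s, hs, r, e⟩
  have hs' : φ hloc.choose ≠ 0 := hloc.choose_spec.1
  have e' := hloc.choose_spec.2.choose_spec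
  rw [resFrac, dif_pos hloc, div_eq_div_iff hs' hs, ← map_mul, ← map_mul]
  refine congrArg φ (hinj ?_)
  rw [map_mul, map_mul, ← e, ← e']
  ring

variable (hinj : Function.Injective (algebraMap B F))
include hinj

/-- The residue of an element of `B` is its image. -/
theorem resFrac_algebraMap (b : B) : resFrac φ (algebraMap B F b) = φ b := by
  rw [resFrac_eq hinj (s := 1) (r := b) (by simp) (by simp), map_one, div_one]

/-- The residue of one is one. -/
theorem resFrac_one : resFrac φ (1 : F) = 1 := by
  rw [← map_one (algebraMap B F), resFrac_algebraMap hinj, map_one]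

theorem resFrac_add (hx : InLoc (RingHom.ker φ) x) (hy : InLoc (RingHom.ker φ) y) :
    resFrac φ (x + y) = resFrac φ x + resFrac φ y := by
  obtain ⟨s, hs, r, e⟩ := hx
  obtain ⟨s', hs', r', e'⟩ := hy
  have hs0 : φ s ≠ 0 := hs
  have hs0' : φ s' ≠ 0 := hs'
  rw [resFrac_eq hinj hs0 e, resFrac_eq hinj hs0' e',
    resFrac_eq hinj (s := s * s') (r := s' * r + s * r') (by rw [map_mul]; exact mul_ne_zero hs0 hs0')
      (by rw [map_add, map_mul, map_mul, map_mul, ← e, ← e']; ring),
    map_add, map_mul, map_mul, map_mul]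
  field_simp

/-- Residues are multiplicative on the local ring. -/
theorem resFrac_mul (hx : InLoc (RingHom.ker φ) x) (hy : InLoc (RingHom.ker φ) y) :
    resFrac φ (x * y) = resFrac φ x * resFrac φ y := by
  obtain ⟨s, hs, r, e⟩ := hx
  obtain ⟨s', hs', r', e'⟩ := hy
  have hs0 : φ s ≠ 0 := hs
  have hs0' : φ s' ≠ 0 := hs'
  rw [resFrac_eq hinj hs0 e, resFrac_eq hinj hs0' e',
    resFrac_eq hinj (s := s * s') (r := r * r') (by rw [map_mul]; exact mul_ne_zero hs0 hs0')
      (by rw [map_mul, map_mul, ← e, ← e']; ring), map_mul, map_mul]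
  field_simp

/-- Residues are compatible with subtraction on the local ring. -/
theorem resFrac_sub (hx : InLoc (RingHom.ker φ) x) (hy : InLoc (RingHom.ker φ) y) :
    resFrac φ (x - y) = resFrac φ x - resFrac φ y := by
  have : (RingHom.ker φ).IsPrime := RingHom.ker_isPrime φ
  have h := resFrac_add hinj (hx.sub hy) hy
  rw [sub_add_cancel] at h
  exact eq_sub_of_add_eq h.symm

/-- Residues commute with powers. -/
theorem resFrac_pow (hx : InLoc (RingHom.ker φ) x) (n : ℕ) :
    InLoc (RingHom.ker φ) (x ^ n) ∧ resFrac φ (x ^ n) = resFrac φ x ^ n := by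
  have : (RingHom.ker φ).IsPrime := RingHom.ker_isPrime φ
  induction n with
  | zero =>
    refine ⟨?_, by rw [pow_zero, pow_zero, resFrac_one hinj]⟩
    simpa using inLoc_algebraMap (L := F) (Q := RingHom.ker φ) (1 : B)
  | succ n ih =>
    rw [pow_succ, pow_succ]
    exact ⟨ih.1.mul hx, by rw [resFrac_mul hinj ih.1 hx, ih.2]⟩

/-- The residue vanishes exactly on the maximal ideal of the local ring. -/
theorem resFrac_eq_zero_iff (hx : InLoc (RingHom.ker φ) x) :
    resFrac φ x = 0 ↔ Near (RingHom.ker φ) x := by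
  obtain ⟨s, hs, r, e⟩ := hx
  have hs0 : φ s ≠ 0 := hs
  constructor
  · intro h
    rw [resFrac_eq hinj hs0 e, div_eq_zero_iff, or_iff_left hs0] at h
    exact ⟨s, hs, r, h, e⟩
  · rintro ⟨t, ht, p, hp, e'⟩
    rw [resFrac_eq hinj (show φ t ≠ 0 from ht) e', RingHom.mem_ker.1 hp, zero_div]

/-- An element with non-zero residue is invertible in the local ring. -/
theorem inLoc_inv (hx : InLoc (RingHom.ker φ) x) (h : resFrac φ x ≠ 0) :
    InLoc (RingHom.ker φ) x⁻¹ ∧ resFrac φ x⁻¹ = (resFrac φ x)⁻¹ := by
  obtain ⟨s, hs, r, e⟩ := hx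
  have hs0 : φ s ≠ 0 := hs
  rw [resFrac_eq hinj hs0 e] at h
  have hr : φ r ≠ 0 := (div_ne_zero_iff.1 h).1
  have hx0 : x ≠ 0 := by
    rintro rfl
    rw [mul_zero, ← map_zero (algebraMap B F)] at e
    exact hr (by rw [← hinj e, map_zero])
  have e' : algebraMap B F r * x⁻¹ = algebraMap B F s := by
    rw [← e, mul_assoc, mul_inv_cancel₀ hx0, mul_one]
  exact ⟨⟨r, hr, s, e'⟩, by rw [resFrac_eq hinj hr e', resFrac_eq hinj hs0 e, inv_div]⟩

end Fermat.Agent.Conn
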