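import Fermat.Agent.Conn.ThreeSheet
import Mathlib.RingTheory.Ideal.GoingUp
import Mathlib.RingTheory.IntegralClosure.Algebra.Basic

/-!
# Points of the three-component model and their images at the generating subring
-/

set_option autoImplicit false

namespace Fermat.Agent.Conn

namespace ThreeSheet

variable {W F R Rb : Type*} [CommRing W] [IsLocalRing W] [Field F] [Algebra W F]
    [CommRing R] [Algebra W R] [CommRing Rb] [Algebra W Rb] {q : ℕ}
variable (T : ThreeSheet W F R Rb q)

/-- The reductions to the components are surjective. -/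
theorem r_surj (i : Fin 3) : Function.Surjective (T.r i) := by
  intro y
  obtain ⟨x, rfl⟩ := T.r0_surj y
  fin_cases i
  · exact ⟨T.e 0 x, (T.r20_e x).1⟩
  · exact ⟨T.e 0 x, (T.r11_e x).1⟩
  · refine ⟨T.e 2 x, ?_⟩
    show T.r 2 (T.e 2 x) = T.r0 x
    rw [T.r02_eq, ← (T.w_e x).1, T.w_w, (T.r20_e x).1]

/-- The reductions kill `q`. -/
theorem r_q (i : Fin 3) : T.r i (q : T.B) = 0 := by
  rw [map_natCast, T.q_zero]

/-- `q` lies in every component. -/
theorem q_mem_ker (i : Fin 3) : (q : T.B) ∈ RingHom.ker (T.r i) := T.r_q i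

/-- The components are prime. -/
theorem ker_prime (i : Fin 3) : (RingHom.ker (T.r i)).IsPrime :=
  have := T.isDomain_Rb
  RingHom.ker_isPrime _

/-- `q` is non-zero in `B`. -/
theorem q_ne_B : (q : T.B) ≠ 0 := fun h => T.q_ne (by
  simpa using congrArg Subtype.val h)

/-- The components are non-zero ideals. -/
theorem ker_ne_bot (i : Fin 3) : RingHom.ker (T.r i) ≠ ⊥ := fun h =>
  T.q_ne_B (Ideal.mem_bot.1 (h ▸ T.q_mem_ker i))

/-- The closed point of the component `i` at `P`. -/
def pt (i : Fin 3) (P : Ideal Rb) : Ideal T.B := P.comap (T.r i)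

/-- Membership in a point is tested on its component. -/
theorem mem_pt {i : Fin 3} {P : Ideal Rb} {x : T.B} : x ∈ T.pt i P ↔ T.r i x ∈ P := Iff.rfl

/-- Maximal ideals of `Rb` give maximal ideals of `B`. -/
theorem pt_isMaximal (i : Fin 3) {P : Ideal Rb} (hP : P.IsMaximal) : (T.pt i P).IsMaximal :=
  Ideal.comap_isMaximal_of_surjective _ (T.r_surj i)

/-- A point lies on its component. -/
theorem ker_le_pt (i : Fin 3) (P : Ideal Rb) : RingHom.ker (T.r i) ≤ T.pt i P := fun x hx => by
  rw [mem_pt, RingHom.mem_ker.1 hx]; exact zero_mem P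

/-- Every closed point of a component comes from `Rb`. -/
theorem exists_pt {i : Fin 3} {m : Ideal T.B} (hm : m.IsMaximal) (h : RingHom.ker (T.r i) ≤ m) :
    ∃ P : Ideal Rb, P.IsMaximal ∧ T.pt i P = m := by
  refine ⟨m.map (T.r i), ?_, ?_⟩
  · refine (Ideal.map_eq_top_or_isMaximal_of_surjective _ (T.r_surj i) hm).resolve_left fun htop => ?_
    have hc := Ideal.comap_map_of_surjective (T.r i) (T.r_surj i) m
    rw [htop, Ideal.comap_top, ← RingHom.ker_eq_comap_bot, sup_of_le_left h] at hc
    exact hm.ne_top hc.symm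
  · rw [pt, Ideal.comap_map_of_surjective (T.r i) (T.r_surj i), ← RingHom.ker_eq_comap_bot,
      sup_of_le_left h]

/-- A point of the last component is the pullback by the involution of one of the first. -/
theorem pt_two (P : Ideal Rb) : T.pt 2 P = (T.pt 0 P).comap T.w := by
  ext x
  rw [mem_pt, T.r02_eq]
  rfl

/-- Every element is congruent to a constant at every closed point of the special fibre. -/
theorem exists_const {P : Ideal Rb} (hP : P.IsMaximal) (i : Fin 3) (x : T.B) :
    ∃ c : W, x - algebraMap W T.B c ∈ T.pt i P := by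
  obtain ⟨c, hc⟩ := T.point_const P hP (T.r i x)
  exact ⟨c, by rw [mem_pt, map_sub, AlgHom.commutes]; exact hc⟩

/-- Two points agree if they agree on the generating subring. -/
theorem eq_of_comap_eq {m m' : Ideal T.B} (hm : m.IsMaximal) (hm' : m'.IsMaximal)
    (hreg : ∀ x : T.B, ∃ d ∈ Algebra.adjoin W (⋃ i, Set.range (T.e i)),
      d ∉ m ∧ d * x ∈ Algebra.adjoin W (⋃ i, Set.range (T.e i)))
    (h : ∀ c ∈ Algebra.adjoin W (⋃ i, Set.range (T.e i)), c ∈ m ↔ c ∈ m') : m' = m := by
  refine hm'.eq_of_le hm.ne_top fun x hx => ?_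
  obtain ⟨d, hd, hdm, hdx⟩ := hreg x
  exact (hm.isPrime.mem_or_mem ((h _ hdx).2 (m'.mul_mem_left d hx))).resolve_left hdm

/-- Two points at which the generators have the same values agree on the generated subring. -/
theorem mem_iff_of_const {m m' : Ideal T.B} (hm : m.IsPrime) (hm' : m'.IsPrime)
    (hq : (q : T.B) ∈ m) (hq' : (q : T.B) ∈ m')
    (h : ∀ i x, ∃ c : W, T.e i x - algebraMap W T.B c ∈ m ∧ T.e i x - algebraMap W T.B c ∈ m') :
    ∀ c ∈ Algebra.adjoin W (⋃ i, Set.range (T.e i)), c ∈ m ↔ c ∈ m' := by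
  have key : ∀ c ∈ Algebra.adjoin W (⋃ i, Set.range (T.e i)),
      ∃ k : W, c - algebraMap W T.B k ∈ m ∧ c - algebraMap W T.B k ∈ m' := by
    intro c hc
    induction hc using Algebra.adjoin_induction with
    | mem x hx =>
      obtain ⟨i, y, rfl⟩ := Set.mem_iUnion.1 hx
      exact h i y
    | algebraMap k => exact ⟨k, by simp, by simp⟩
    | add x y _ _ hx hy =>
      obtain ⟨k, hk, hk'⟩ := hx
      obtain ⟨l, hl, hl'⟩ := hy
      refine ⟨k + l, ?_, ?_⟩
      · rw [map_add, add_sub_add_comm]; exact add_mem hk hl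
      · rw [map_add, add_sub_add_comm]; exact add_mem hk' hl'
    | mul x y _ _ hx hy =>
      obtain ⟨k, hk, hk'⟩ := hx
      obtain ⟨l, hl, hl'⟩ := hy
      have e : x * y - algebraMap W T.B (k * l) =
          (x - algebraMap W T.B k) * y + algebraMap W T.B k * (y - algebraMap W T.B l) := by
        rw [map_mul]; ring
      exact ⟨k * l, e ▸ add_mem (m.mul_mem_right _ hk) (m.mul_mem_left _ hl),
        e ▸ add_mem (m'.mul_mem_right _ hk') (m'.mul_mem_left _ hl')⟩
  have hconst : ∀ (p : Ideal T.B), p.IsPrime → (q : T.B) ∈ p → ∀ k : W,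
      algebraMap W T.B k ∈ p ↔ k ∈ IsLocalRing.maximalIdeal W := by
    intro p hp hqp k
    constructor
    · intro hk
      by_contra hn
      rw [IsLocalRing.notMem_maximalIdeal] at hn
      exact hp.ne_top (Ideal.eq_top_of_isUnit_mem p hk (hn.map _))
    · intro hk
      rw [T.maximal_W, Ideal.mem_span_singleton] at hk
      obtain ⟨d, rfl⟩ := hk
      rw [map_mul, map_natCast]
      exact p.mul_mem_right _ hqp
  intro c hc
  obtain ⟨k, hk, hk'⟩ := key c hc
  rw [show c = c - algebraMap W T.B k + algebraMap W T.B k by ring,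
    Ideal.add_mem_iff_right _ hk, Ideal.add_mem_iff_right _ hk', hconst m hm hq, hconst m' hm' hq']

end ThreeSheet

end Fermat.Agent.Conn
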