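import Fermat.Agent.Conn.SheetsOne
import Fermat.Agent.Conn.Crossing
import Mathlib.RingTheory.Adjoin.FG
import Mathlib.RingTheory.Localization.Ideal

/-!
# The crossing points of the three-component model

Where `p12` vanishes the three components pass through one point, whose maximal ideal is
generated by the two coordinates.
-/

set_option autoImplicit false

namespace Fermat.Agent.Conn

namespace ThreeSheet

variable {W F R Rb : Type*} [CommRing W] [IsLocalRing W] [Field F]
    [Algebra W F] [CommRing R] [Algebra W R] [CommRing Rb] [Algebra W Rb] {q : ℕ}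
variable (T : ThreeSheet W F R Rb q)

/-- The subring generated by the three pullbacks from the base level. -/
def gen : Subalgebra W T.B := Algebra.adjoin W (⋃ i, Set.range (T.e i))

/-- The pullbacks lie in the generated subring. -/
theorem e_mem_gen (i : Fin 3) (x : R) : T.e i x ∈ T.gen :=
  Algebra.subset_adjoin (Set.mem_iUnion.2 ⟨i, x, rfl⟩)

theorem gen_fg : T.gen.FG := by
  have := T.finiteType
  have hR : (⊤ : Subalgebra W R).FG := Algebra.FiniteType.out
  have hrange : ∀ i, (T.e i).range.FG := fun i => by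
    rw [← Algebra.map_top]
    exact hR.map _
  have : T.gen = (T.e 0).range ⊔ (T.e 1).range ⊔ (T.e 2).range := by
    refine le_antisymm (Algebra.adjoin_le ?_) (sup_le (sup_le ?_ ?_) ?_)
    · rintro z hz
      obtain ⟨i, x, rfl⟩ := Set.mem_iUnion.1 hz
      fin_cases i
      · exact (le_sup_left.trans le_sup_left : (T.e 0).range ≤ _) ⟨x, rfl⟩
      · exact (le_sup_right.trans le_sup_left : (T.e 1).range ≤ _) ⟨x, rfl⟩
      · exact (le_sup_right : (T.e 2).range ≤ _) ⟨x, rfl⟩
    all_goals rintro _ ⟨x, rfl⟩; exact T.e_mem_gen _ x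
  rw [this]
  exact ((hrange 0).sup (hrange 1)).sup (hrange 2)

/-- The generated subring is Noetherian. -/
theorem gen_noetherian [IsNoetherianRing W] : IsNoetherianRing T.gen := by
  have : Algebra.FiniteType W T.gen := (Subalgebra.fg_iff_finiteType _).1 T.gen_fg
  exact Algebra.FiniteType.isNoetherianRing W T.gen

/-- `F` is the fraction field of the generated subring. -/
theorem gen_isFractionRing : IsFractionRing T.gen F := by
  have : FaithfulSMul T.gen F := (faithfulSMul_iff_algebraMap_injective T.gen F).2 fun a b h =>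
    Subtype.ext (Subtype.ext h)
  refine IsFractionRing.of_field T.gen F fun z => ?_
  obtain ⟨b, hb, hbz⟩ := T.frac z
  obtain ⟨c, hc, hc0, hcb⟩ := T.gen_frac b
  obtain ⟨d, hd, hd0, hdb⟩ := T.gen_frac ⟨_, hbz⟩
  refine ⟨⟨c * (d * ⟨_, hbz⟩), T.gen.mul_mem hc hdb⟩, ⟨d * (c * b), T.gen.mul_mem hd hcb⟩, ?_⟩
  have hne : ((d * (c * b) : T.B) : F) ≠ 0 := by
    rw [ne_eq, ZeroMemClass.coe_eq_zero]
    exact mul_ne_zero hd0 (mul_ne_zero hc0 hb)
  show z = ((c * (d * ⟨_, hbz⟩) : T.B) : F) / ((d * (c * b) : T.B) : F)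
  rw [eq_div_iff hne]
  push_cast
  ring

/-- The `ρ` of the Kronecker congruence inside a `W`-algebra. -/
noncomputable def rhoEval {X : Type*} [CommRing X] [Algebra W X] (z y : X) : X :=
  (T.ρ.map (Polynomial.aeval z).toRingHom).eval y

theorem map_rhoEval {X Y : Type*} [CommRing X] [Algebra W X] [CommRing Y] [Algebra W Y]
    (φ : X →ₐ[W] Y) (z y : X) : φ (T.rhoEval z y) = T.rhoEval (φ z) (φ y) := by
  rw [rhoEval, rhoEval, Polynomial.eval_map, Polynomial.eval_map]
  refine (Polynomial.hom_eval₂ _ _ φ.toRingHom _).trans ?_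
  rw [show φ.toRingHom.comp (Polynomial.aeval z).toRingHom = (Polynomial.aeval (φ z)).toRingHom
    from RingHom.ext fun p => (Polynomial.aeval_algHom_apply φ z p).symm]
  rfl

/-- A Teichmüller coordinate of a supersingular point. -/
theorem exists_coord {P : Ideal Rb} (hP : P.IsMaximal) (hp : T.p12 ∈ P) :
    ∃ a : W, a ^ (q ^ 2) = a ∧ T.r0 (T.h - algebraMap W R a) ∈ P := by
  obtain ⟨c, hc⟩ := T.point_const P hP (T.r0 T.h)
  have hc2 := (T.fr_fr_mem_iff hP hp _).2 hc
  rw [map_sub, map_sub, T.Fr_h, map_pow, T.Fr_h, AlgHom.commutes, AlgHom.commutes, ← pow_mul,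
    ← sq] at hc2
  have hdiv : T.r0 T.h ^ (q ^ 2) - algebraMap W Rb c ^ (q ^ 2) ∈ P :=
    Ideal.mem_of_dvd _ (sub_dvd_pow_sub_pow _ _ _) hc
  have hcc : algebraMap W Rb (c ^ (q ^ 2) - c) ∈ P := by
    rw [map_sub, map_pow]
    have h := sub_mem hc2 hdiv
    rwa [sub_sub_sub_cancel_left] at h
  have hqc : (q : W) ∣ c ^ (q ^ 2) - c := by
    rw [← Ideal.mem_span_singleton, ← T.maximal_W, IsLocalRing.mem_maximalIdeal, mem_nonunits_iff]
    intro hu
    exact hP.ne_top (Ideal.eq_top_of_isUnit_mem P hcc (hu.map _))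
  obtain ⟨a, ha, d, hd⟩ := T.teich c hqc
  refine ⟨a, ha, ?_⟩
  rw [map_sub, AlgHom.commutes, show a = c + (q : W) * d by rw [← hd]; ring, map_add, map_mul,
    map_natCast, T.q_zero, zero_mul, add_zero]
  exact hc

theorem mem_of_sub_mem {X : Type*} [CommRing X] (I : Ideal X) (u v : X) (hu : u ∈ I)
    (h : u - v ∈ I) : v ∈ I := by
  have h' := I.sub_mem hu h
  rwa [sub_sub_cancel] at h'

/-- If the three pullbacks consist of constants modulo an ideal, so does the generated subring. -/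
theorem exists_const_of_gen {L : Type*} [CommRing L] [Algebra W L] (φ : T.gen →ₐ[W] L)
    {J : Ideal L}
    (hG : ∀ i x, ∃ k : W, φ ⟨T.e i x, T.e_mem_gen i x⟩ - algebraMap W L k ∈ J) (c : T.gen) :
    ∃ k : W, φ c - algebraMap W L k ∈ J := by
  obtain ⟨c, hc⟩ := c
  induction hc using Algebra.adjoin_induction with
  | mem x hx =>
    obtain ⟨i, r, rfl⟩ := Set.mem_iUnion.1 hx
    exact hG i r
  | algebraMap k =>
    refine ⟨k, ?_⟩
    rw [show φ ⟨algebraMap W T.B k, _⟩ = algebraMap W L k from φ.commutes k, sub_self]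
    exact zero_mem J
  | add x y hx hy h₁ h₂ =>
    obtain ⟨k, hk⟩ := h₁
    obtain ⟨l, hl⟩ := h₂
    refine ⟨k + l, ?_⟩
    rw [show φ ⟨x + y, _⟩ = φ ⟨x, hx⟩ + φ ⟨y, hy⟩ from map_add φ ⟨x, hx⟩ ⟨y, hy⟩, map_add]
    convert J.add_mem hk hl using 1
    ring
  | mul x y hx hy h₁ h₂ =>
    obtain ⟨k, hk⟩ := h₁
    obtain ⟨l, hl⟩ := h₂
    refine ⟨k * l, ?_⟩
    rw [show φ ⟨x * y, _⟩ = φ ⟨x, hx⟩ * φ ⟨y, hy⟩ from map_mul φ ⟨x, hx⟩ ⟨y, hy⟩, map_mul]
    have e : φ ⟨x, hx⟩ * φ ⟨y, hy⟩ - algebraMap W L k * algebraMap W L l =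
        (φ ⟨x, hx⟩ - algebraMap W L k) * φ ⟨y, hy⟩ +
          algebraMap W L k * (φ ⟨y, hy⟩ - algebraMap W L l) := by ring
    exact e ▸ add_mem (J.mul_mem_right _ hk) (J.mul_mem_left _ hl)

/-- A copy of `R` is constant modulo `J` once its coordinate is, if it inverts what does not vanish
at the point `Q` of coordinate `b`. -/
theorem exists_const_of_coord {L : Type*} [CommRing L] [Algebra W L] (ψ : R →ₐ[W] L)
    {J : Ideal L} (hqJ : (q : L) ∈ J) {Q : Ideal Rb} (hQ : Q.IsMaximal) {b : W}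
    (hb : T.r0 (T.h - algebraMap W R b) ∈ Q) (hu : ∀ s, T.r0 s ∉ Q → IsUnit (ψ s))
    (hJ : ψ T.h - algebraMap W L b ∈ J) (x : R) : ∃ k : W, ψ x - algebraMap W L k ∈ J := by
  obtain ⟨k, hk⟩ := T.point_const Q hQ (T.r0 x)
  obtain ⟨s, hs, hmem⟩ := T.unramified Q hQ b hb (x - algebraMap W R k)
    (by rwa [map_sub, AlgHom.commutes])
  refine ⟨k, ?_⟩
  rw [← Ideal.unit_mul_mem_iff_mem J (hu s hs)]
  obtain ⟨c₁, c₂, hc⟩ := Ideal.mem_span_pair.1 hmem
  have h := congrArg ψ hc
  simp only [map_add, map_mul, map_sub, map_natCast, AlgHom.commutes] at h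
  rw [← h]
  exact add_mem (J.mul_mem_left _ hqJ) (J.mul_mem_left _ hJ)

/-- The inverse image of a maximal ideal of `Rb` under the Frobenius is maximal. -/
theorem comap_Fr_isMaximal {P : Ideal Rb} (hP : P.IsMaximal) : (P.comap T.Fr).IsMaximal := by
  have hQp : (P.comap T.Fr).IsPrime := hP.isPrime.comap _
  have := T.isDomain_Rb
  have := T.dedekind
  refine hQp.isMaximal fun hbot => ?_
  obtain ⟨w, hwP, hw0⟩ := Submodule.exists_mem_ne_zero_of_ne_bot
    (Ring.ne_bot_of_isMaximal_of_not_isField hP T.notField)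
  obtain ⟨v, hv⟩ := T.Fr_pow w
  have hvQ : v ∈ P.comap T.Fr := by
    rw [Ideal.mem_comap, hv]; exact P.pow_mem_of_mem hwP q T.prime_q.pos
  rw [hbot, Ideal.mem_bot] at hvQ
  rw [hvQ, map_zero] at hv
  exact hw0 (eq_zero_of_pow_eq_zero hv.symm)

include T in
/-- A proper ideal containing `q`, modulo which every element of `S` is constant, contains the
maximal ideal of the localisation of `S`. -/
theorem maximalIdeal_le_of_exists_const {S L : Type*} [CommRing S] [Algebra W S] [CommRing L]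
    [IsLocalRing L] [Algebra W L] [Algebra S L] [IsScalarTower W S L] {p : Ideal S} [p.IsPrime]
    [IsLocalization.AtPrime L p] {J : Ideal L} (hJ : J ≤ IsLocalRing.maximalIdeal L)
    (hqJ : (q : L) ∈ J) (hall : ∀ c : S, ∃ k : W, algebraMap S L c - algebraMap W L k ∈ J) :
    IsLocalRing.maximalIdeal L ≤ J := by
  rw [← IsLocalization.AtPrime.map_eq_maximalIdeal p L, Ideal.map_le_iff_le_comap]
  intro c hc
  obtain ⟨k, hk⟩ := hall c
  have hcm := (IsLocalization.AtPrime.to_map_mem_maximal_iff L p c).2 hc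
  have hkm : k ∈ IsLocalRing.maximalIdeal W := by
    by_contra hk'
    rw [IsLocalRing.notMem_maximalIdeal] at hk'
    exact (IsLocalRing.maximalIdeal.isMaximal L).ne_top
      (Ideal.eq_top_of_isUnit_mem _ (mem_of_sub_mem _ _ _ hcm (hJ hk)) (hk'.map _))
  rw [T.maximal_W, Ideal.mem_span_singleton] at hkm
  obtain ⟨d, rfl⟩ := hkm
  rw [map_mul, map_natCast] at hk
  rw [Ideal.mem_comap]
  have h := J.add_mem hk (J.mul_mem_right (algebraMap W L d) hqJ)
  rwa [sub_add_cancel] at h

/-- The Kronecker congruences in any algebra over the generated subring. -/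
theorem kronecker_map {L : Type*} [CommRing L] [Algebra W L] (φ : T.gen →ₐ[W] L) {i : Fin 3}
    (hi : i = 0 ∨ i = 2) :
    let z := φ ⟨T.e 1 T.h, T.e_mem_gen 1 _⟩
    let y := φ ⟨T.e i T.h, T.e_mem_gen i _⟩
    (z - y ^ q) * (z ^ q - y) + (q : L) * T.rhoEval z y = 0 := by
  intro z y
  set g₁ : T.gen := ⟨T.e 1 T.h, T.e_mem_gen 1 _⟩
  set g : T.gen := ⟨T.e i T.h, T.e_mem_gen i _⟩
  have h0 : (g₁ - g ^ q) * (g₁ ^ q - g) + (q : T.gen) * T.rhoEval g₁ g = 0 := by
    apply (Subtype.val_injective : Function.Injective (Subtype.val : T.gen → T.B))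
    have e : ((T.rhoEval g₁ g : T.gen) : T.B) = T.rhoEval (T.e 1 T.h) (T.e i T.h) :=
      T.map_rhoEval (X := T.gen) (Y := T.B) T.gen.val _ _
    simp only [Subalgebra.coe_add, Subalgebra.coe_mul, Subalgebra.coe_sub, Subalgebra.coe_pow,
      Subalgebra.coe_zero, e]
    rw [show ((q : T.gen) : T.B) = (q : T.B) from map_natCast T.gen.val q]
    rcases hi with rfl | rfl
    exacts [T.kronecker, T.kronecker']
  have h := congrArg φ h0
  simp only [map_add, map_mul, map_sub, map_pow, map_natCast, map_zero,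
    T.map_rhoEval (X := T.gen) (Y := L) φ] at h
  exact h

omit [IsLocalRing W] in
/-- Two elements generating the maximal ideal of the localisation generate at the prime. -/
theorem twoGenAt_of_maximalIdeal_eq {S L : Type*} [CommRing S] [CommRing L] [IsLocalRing L]
    [Algebra S L] {p : Ideal S} [hpp : p.IsPrime] [IsLocalization.AtPrime L p]
    (hinj : Function.Injective (algebraMap S L)) {x y : S} (hx : x ∈ p) (hy : y ∈ p)
    (h : IsLocalRing.maximalIdeal L = Ideal.span {algebraMap S L x, algebraMap S L y}) :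
    TwoGenAt p := by
  refine ⟨_, hx, _, hy, fun c hc => ?_⟩
  have hc' := h ▸ (IsLocalization.AtPrime.to_map_mem_maximal_iff L p c).2 hc
  rw [Ideal.mem_span_pair] at hc'
  obtain ⟨u, v, huv⟩ := hc'
  obtain ⟨a₁, s₁, rfl⟩ := IsLocalization.exists_mk'_eq p.primeCompl u
  obtain ⟨a₂, s₂, rfl⟩ := IsLocalization.exists_mk'_eq p.primeCompl v
  refine ⟨s₁ * s₂, a₁ * s₂, a₂ * s₁, hpp.mul_notMem s₁.2 s₂.2, hinj ?_⟩
  have e₁ := IsLocalization.mk'_spec' L a₁ s₁
  have e₂ := IsLocalization.mk'_spec' L a₂ s₂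
  simp only [map_add, map_mul]
  rw [← huv, ← e₁, ← e₂]
  ring

/-- At a crossing with coordinate `a`, the first and last coordinates lie in the point and generate
the maximal ideal of its localisation. -/
theorem maximalIdeal_eq_span_coordinates {P : Ideal Rb} (hP : P.IsMaximal) (hp : T.p12 ∈ P)
    {a : W} (ha : a ^ q ^ 2 = a) (haP : T.r0 (T.h - algebraMap W R a) ∈ P)
    [((T.pt 0 P).comap T.gen.val).IsPrime] (L : Type*) [CommRing L] [IsDomain L]
    [IsLocalRing L] [IsNoetherianRing L] [Algebra T.gen L] [Algebra W L] [IsScalarTower W T.gen L]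
    [IsLocalization.AtPrime L ((T.pt 0 P).comap T.gen.val)]
    (hinj : Function.Injective (algebraMap T.gen L)) :
    let x : T.gen := ⟨T.e 0 T.h, T.e_mem_gen 0 _⟩ - algebraMap W T.gen a
    let x' : T.gen := ⟨T.e 2 T.h, T.e_mem_gen 2 _⟩ - algebraMap W T.gen a
    x ∈ (T.pt 0 P).comap T.gen.val ∧ x' ∈ (T.pt 0 P).comap T.gen.val ∧
      IsLocalRing.maximalIdeal L = Ideal.span {algebraMap T.gen L x, algebraMap T.gen L x'} := by
  set p := (T.pt 0 P).comap T.gen.val with hp_def
  let g : Fin 3 → R →ₐ[W] T.gen := fun i => (T.e i).codRestrict T.gen (T.e_mem_gen i)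
  let φ : T.gen →ₐ[W] L := IsScalarTower.toAlgHom W T.gen L
  have hφ : Function.Injective φ := hinj
  have hφm : ∀ x : T.gen, φ x ∈ IsLocalRing.maximalIdeal L ↔ x ∈ p := fun x =>
    IsLocalization.AtPrime.to_map_mem_maximal_iff L p x
  have hred : ∀ b : W, T.r 0 (algebraMap W T.B b) = algebraMap W Rb b := fun b =>
    AlgHom.commutes _ _
  -- the three coordinates lie in the point
  have hsub : T.r0 T.h - algebraMap W Rb a ∈ P := by
    rwa [map_sub, AlgHom.commutes] at haP
  have hy : g 0 T.h - algebraMap W T.gen a ∈ p := by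
    show T.r 0 (T.e 0 T.h - algebraMap W T.B a) ∈ P
    rwa [map_sub, hred, (T.r20_e _).1]
  have hy' : g 2 T.h - algebraMap W T.gen a ∈ p := by
    show T.r 0 (T.e 2 T.h - algebraMap W T.B a) ∈ P
    rw [map_sub, hred, (T.r20_e _).2.2]
    have := (T.fr_fr_mem_iff hP hp _).2 hsub
    rwa [map_sub, map_sub, AlgHom.commutes, AlgHom.commutes] at this
  have hz : g 1 T.h - algebraMap W T.gen a ^ q ∈ p := by
    show T.r 0 (T.e 1 T.h - algebraMap W T.B a ^ q) ∈ P
    rw [map_sub, map_pow, hred, (T.r20_e _).2.1, T.Fr_h]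
    exact Ideal.mem_of_dvd _ (sub_dvd_pow_sub_pow _ _ _) hsub
  set y := φ (g 0 T.h)
  set z := φ (g 1 T.h)
  set y' := φ (g 2 T.h)
  set α := algebraMap W L a
  have hφa : φ (algebraMap W T.gen a) = α := φ.commutes a
  set J : Ideal L := Ideal.span {(q : L), y - α, z - α ^ q, y' - α}
  have hqJ : (q : L) ∈ J := Ideal.subset_span (Or.inl rfl)
  have hym : y - α ∈ IsLocalRing.maximalIdeal L := by
    have h := (hφm _).2 hy
    rwa [map_sub, hφa] at h
  have hzm : z - α ^ q ∈ IsLocalRing.maximalIdeal L := by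
    have h := (hφm _).2 hz
    rwa [map_sub, map_pow, hφa] at h
  have hym' : y' - α ∈ IsLocalRing.maximalIdeal L := by
    have h := (hφm _).2 hy'
    rwa [map_sub, hφa] at h
  have hJm : J ≤ IsLocalRing.maximalIdeal L := by
    rw [Ideal.span_le]
    rintro t (rfl | rfl | rfl | rfl)
    · rw [← map_natCast φ q]
      refine (hφm _).2 ?_
      show T.r 0 ((q : T.gen) : T.B) ∈ P
      simp [T.q_zero]
    · exact hym
    · exact hzm
    · exact hym'
  -- every element is a constant modulo the coordinates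
  have hu : ∀ (i : Fin 3) (s : R), T.r 0 (T.e i s) ∉ P → IsUnit (φ (g i s)) := fun i s hs =>
    IsLocalization.map_units L (⟨g i s, hs⟩ : p.primeCompl)
  have hgenJ : ∀ (i : Fin 3) (x : R), ∃ k : W, φ (g i x) - algebraMap W L k ∈ J := by
    intro i x
    fin_cases i
    · exact T.exists_const_of_coord (L := L) (φ.comp (g 0)) hqJ hP haP
        (fun s hs => hu 0 s (by rwa [(T.r20_e s).1]))
        (Ideal.subset_span (Or.inr (Or.inl rfl))) x
    · refine T.exists_const_of_coord (L := L) (φ.comp (g 1)) hqJ (T.comap_Fr_isMaximal hP)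
        (b := a ^ q) ?_
        (fun s hs => hu 1 s (by rw [(T.r20_e s).2.1]; exact hs)) ?_ x
      · rw [Ideal.mem_comap, map_sub, map_sub, AlgHom.commutes, AlgHom.commutes, T.Fr_h, map_pow]
        exact Ideal.mem_of_dvd _ (sub_dvd_pow_sub_pow _ _ _) hsub
      · rw [map_pow]
        exact Ideal.subset_span (Or.inr (Or.inr (Or.inl rfl)))
    · exact T.exists_const_of_coord (L := L) (φ.comp (g 2)) hqJ hP haP
        (fun s hs => hu 2 s (by
          rw [(T.r20_e s).2.2]
          exact fun h => hs ((T.fr_fr_mem_iff hP hp _).1 h)))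
        (Ideal.subset_span (Or.inr (Or.inr (Or.inr rfl)))) x
  have hall : ∀ c : T.gen, ∃ k : W, φ c - algebraMap W L k ∈ J :=
    T.exists_const_of_gen (L := L) φ hgenJ
  have hle : IsLocalRing.maximalIdeal L ≤ J :=
    T.maximalIdeal_le_of_exists_const (S := T.gen) (L := L) (p := p) hJm hqJ hall
  have hρ : IsUnit ((T.ρ.map (Polynomial.aeval z).toRingHom).eval y) := by
    show IsUnit (T.rhoEval z y)
    rw [← T.map_rhoEval (X := T.gen) (Y := L) φ]
    refine IsLocalization.map_units L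
      (⟨T.rhoEval (g 1 T.h) (g 0 T.h), ?_⟩ : p.primeCompl)
    show ¬ T.r 0 (T.gen.val (T.rhoEval (g 1 T.h) (g 0 T.h))) ∈ P
    rw [T.map_rhoEval (X := T.gen) (Y := T.B) T.gen.val]
    exact T.ρ_ne P hP hp
  have hyy : y ≠ y' := fun h => T.e0h_ne (congrArg Subtype.val (hφ h))
  have hfin := maximalIdeal_eq_span_of_crossing (R := L) T.prime_q α y z y'
    (T.ρ.map (Polynomial.aeval z).toRingHom)
    (by rw [← map_pow, ha]) hyy hym hzm hym' (T.kronecker_map (L := L) φ (Or.inl rfl))
    (T.kronecker_map (L := L) φ (Or.inr rfl)) hρ (IsNoetherian.noetherian _) hle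
  refine ⟨hy, hy', ?_⟩
  rw [map_sub, map_sub, ← IsScalarTower.algebraMap_apply W T.gen L]
  exact hfin

/-- The two coordinates generate at a crossing, inside the generated subring. -/
theorem twoGenAt_gen [IsNoetherianRing W] {P : Ideal Rb} (hP : P.IsMaximal) (hp : T.p12 ∈ P) :
    TwoGenAt ((T.pt 0 P).comap T.gen.val) := by
  obtain ⟨a, ha, haP⟩ := T.exists_coord hP hp
  set p := (T.pt 0 P).comap T.gen.val
  have hpp : p.IsPrime := (T.pt_isMaximal 0 hP).isPrime.comap _
  have : IsNoetherianRing T.gen := T.gen_noetherian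
  have : IsNoetherianRing (Localization.AtPrime p) :=
    IsLocalization.isNoetherianRing p.primeCompl _ inferInstance
  have hinj : Function.Injective (algebraMap T.gen (Localization.AtPrime p)) :=
    IsLocalization.injective (Localization.AtPrime p) p.primeCompl_le_nonZeroDivisors
  obtain ⟨hx, hx', h⟩ := T.maximalIdeal_eq_span_coordinates hP hp ha haP
    (Localization.AtPrime p) hinj
  exact twoGenAt_of_maximalIdeal_eq hinj hx hx' h

end ThreeSheet

end Fermat.Agent.Conn
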