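import Fermat.Agent.Conn.SheetsCrossing

/-!
# The three components meet at every supersingular point

The three components share their point over a supersingular point of the base level, and its
maximal ideal is generated by two elements.
-/

set_option autoImplicit false

namespace Fermat.Agent.Conn

namespace ThreeSheet

variable {W F R Rb : Type*} [CommRing W] [IsLocalRing W] [IsNoetherianRing W] [Field F]
    [Algebra W F] [CommRing R] [Algebra W R] [CommRing Rb] [Algebra W Rb] {q : ℕ}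
variable (T : ThreeSheet W F R Rb q)

/-- Near a supersingular point the model is the localisation of the generated subring. -/
theorem exists_denominator {P : Ideal Rb} (hP : P.IsMaximal) (hp : T.p12 ∈ P) (x : T.B) :
    ∃ d ∈ T.gen, d ∉ T.pt 0 P ∧ d * x ∈ T.gen := by
  have := T.gen_noetherian
  have := T.gen_isFractionRing
  have := T.isDomain_Rb
  set p := (T.pt 0 P).comap T.gen.val
  have hpp : p.IsPrime := (T.pt_isMaximal 0 hP).isPrime.comap _
  have hchain : ∃ Q : Ideal T.gen, Q.IsPrime ∧ Q ≠ ⊥ ∧ Q < p := by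
    refine ⟨(RingHom.ker (T.r 0)).comap T.gen.val, (T.ker_prime 0).comap _, fun h => ?_,
      lt_of_le_of_ne (Ideal.comap_mono (T.ker_le_pt 0 P)) fun h => ?_⟩
    · have hq : (q : T.gen) ∈ (RingHom.ker (T.r 0)).comap T.gen.val := by
        rw [Ideal.mem_comap, map_natCast]; exact T.q_mem_ker 0
      rw [h, Ideal.mem_bot] at hq
      exact T.q_ne_B (by simpa using congrArg T.gen.val hq)
    · obtain ⟨y, hyP, hy0⟩ := Submodule.exists_mem_ne_zero_of_ne_bot
        (Ring.ne_bot_of_isMaximal_of_not_isField hP T.notField)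
      obtain ⟨x, rfl⟩ := T.r0_surj y
      have hx : (⟨T.e 0 x, T.e_mem_gen 0 x⟩ : T.gen) ∈ p := by
        show T.r 0 (T.e 0 x) ∈ P
        rwa [(T.r20_e x).1]
      rw [← h] at hx
      exact hy0 ((T.r20_e x).1.symm.trans hx)
  have hx0 : IsIntegral T.gen x := T.gen_int x
  have hx : IsIntegral T.gen (x : F) := hx0.map (IsScalarTower.toAlgHom T.gen T.B F)
  obtain ⟨d, c, hd, hdc⟩ := (localFactor (T.twoGenAt_gen hP hp) hchain).1 _ hx
  refine ⟨d.1, d.2, hd, ?_⟩
  have : (d.1 * x : T.B) = c.1 := Subtype.ext hdc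
  rw [this]
  exact c.2

/-- All three components pass through a supersingular point. -/
theorem pt_eq {P : Ideal Rb} (hP : P.IsMaximal) (hp : T.p12 ∈ P) (i : Fin 3) :
    T.pt i P = T.pt 0 P := by
  have hm := T.pt_isMaximal 0 hP
  have hm' := T.pt_isMaximal i hP
  refine eq_of_comap_eq T hm hm' (T.exists_denominator hP hp) ?_
  refine mem_iff_of_const T hm.isPrime hm'.isPrime (T.ker_le_pt 0 P (T.q_mem_ker 0))
    (T.ker_le_pt i P (T.q_mem_ker i)) fun j x => ?_
  have hFF := T.fr_fr_mem_iff hP hp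
  -- the point of `r0 x` and of its Frobenius transforms
  have key : ∀ (y : Rb), ∃ c : W, y - algebraMap W Rb c ∈ P ∧
      T.Fr (T.Fr y) - algebraMap W Rb c ∈ P := by
    intro y
    obtain ⟨c, hc⟩ := T.point_const P hP y
    refine ⟨c, hc, ?_⟩
    have h := (hFF _).2 hc
    rwa [map_sub, map_sub, AlgHom.commutes, AlgHom.commutes] at h
  obtain ⟨c, hc, hc'⟩ := key (T.r0 x)
  obtain ⟨c₁, hc₁, hc₁'⟩ := key (T.Fr (T.r0 x))
  have h2 : ∀ z : T.B, T.r 2 z = T.r 0 (T.w z) := T.r02_eq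
  fin_cases j
  · refine ⟨c, ?_, ?_⟩
    · rw [mem_pt, map_sub, AlgHom.commutes]
      show T.r 0 (T.e 0 x) - _ ∈ P
      rwa [(T.r20_e x).1]
    · rw [mem_pt, map_sub, AlgHom.commutes]
      fin_cases i
      · show T.r 0 (T.e 0 x) - _ ∈ P
        rwa [(T.r20_e x).1]
      · show T.r 1 (T.e 0 x) - _ ∈ P
        rwa [(T.r11_e x).1]
      · show T.r 2 (T.e 0 x) - _ ∈ P
        rwa [h2, (T.w_e x).1, (T.r20_e x).2.2]
  · refine ⟨c₁, ?_, ?_⟩
    · rw [mem_pt, map_sub, AlgHom.commutes]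
      show T.r 0 (T.e 1 x) - _ ∈ P
      rwa [(T.r20_e x).2.1]
    · rw [mem_pt, map_sub, AlgHom.commutes]
      fin_cases i
      · show T.r 0 (T.e 1 x) - _ ∈ P
        rwa [(T.r20_e x).2.1]
      · show T.r 1 (T.e 1 x) - _ ∈ P
        rwa [(T.r11_e x).2.1]
      · show T.r 2 (T.e 1 x) - _ ∈ P
        rwa [h2, (T.w_e x).2, (T.r20_e x).2.1]
  · refine ⟨c, ?_, ?_⟩
    · rw [mem_pt, map_sub, AlgHom.commutes]
      show T.r 0 (T.e 2 x) - _ ∈ P
      rwa [(T.r20_e x).2.2]
    · rw [mem_pt, map_sub, AlgHom.commutes]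
      fin_cases i
      · show T.r 0 (T.e 2 x) - _ ∈ P
        rwa [(T.r20_e x).2.2]
      · show T.r 1 (T.e 2 x) - _ ∈ P
        rwa [(T.r11_e x).2.2]
      · show T.r 2 (T.e 2 x) - _ ∈ P
        rwa [h2, ← (T.w_e x).1, T.w_w, (T.r20_e x).1]

/-- The supersingular points are two-generated on the model. -/
theorem twoGenAt_crossing {P : Ideal Rb} (hP : P.IsMaximal) (hp : T.p12 ∈ P) :
    TwoGenAt (T.pt 0 P) := by
  obtain ⟨x, hx, y, hy, hgen⟩ := T.twoGenAt_gen hP hp
  have hm := (T.pt_isMaximal 0 hP).isPrime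
  refine ⟨x.1, hx, y.1, hy, fun z hz => ?_⟩
  obtain ⟨d, hd, hdm, hdz⟩ := T.exists_denominator hP hp z
  obtain ⟨s, a, b, hs, e⟩ := hgen ⟨d * z, hdz⟩ ((T.pt 0 P).mul_mem_left d hz)
  refine ⟨s.1 * d, a.1, b.1, hm.mul_notMem hs hdm, ?_⟩
  have h := congrArg Subtype.val e
  simp only [Subalgebra.coe_add, Subalgebra.coe_mul] at h
  rw [mul_assoc]
  exact h

end ThreeSheet

end Fermat.Agent.Conn
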