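import Fermat.Agent.Conn.SheetsMeet

/-!
# Points on the middle component only
-/

set_option autoImplicit false

namespace Fermat.Agent.Conn

namespace ThreeSheet

variable {W F R Rb : Type*} [CommRing W] [IsLocalRing W] [Field F]
    [Algebra W F] [CommRing R] [Algebra W R] [CommRing Rb] [Algebra W Rb] {q : ℕ}
variable (T : ThreeSheet W F R Rb q)

/-- `e 2 h - e 0 h` generates the middle component at its generic point. -/
theorem exists_mid_dvd {P : Ideal Rb} {s₁ b₁ : T.B} (hb₁ : T.r 1 b₁ ∉ P)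
    (hmid : s₁ * (T.e 2 T.h - T.e 0 T.h) ^ (q - 1) = (q : T.B) * b₁) :
    ∀ r : T.B, T.r 1 r = 0 →
      ∃ σ w : T.B, T.r 1 σ ≠ 0 ∧ σ * r = (T.e 2 T.h - T.e 0 T.h) * w := by
  have := T.isDomain_Rb
  have hne : ∀ {x : Rb}, x ∉ P → x ≠ 0 := fun h h' => h (h' ▸ zero_mem P)
  set δ₀ := T.e 2 T.h - T.e 0 T.h with hδ₀
  have hδ₀0 : δ₀ ≠ 0 := sub_ne_zero.2 (Ne.symm T.e0h_ne)
  intro r hr
  obtain ⟨s₂, hs₂, b₂, hb₂⟩ := T.ram11 r hr
  have hδF : (δ₀ : F) ≠ 0 := fun h => hδ₀0 (Subtype.ext h)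
  have hint : IsIntegral T.B (((s₂ * b₁ * r : T.B) : F) / (δ₀ : F)) := by
    refine IsIntegral.of_pow (show 0 < q - 1 from T.one_le_pred) ?_
    have hkey : (((s₂ * b₁ * r : T.B) : F) / (δ₀ : F)) ^ (q - 1) =
        ((s₂ ^ (q - 1 - 1) * b₂ * b₁ ^ (q - 1 - 1) * s₁ : T.B) : F) := by
      rw [div_pow, div_eq_iff (pow_ne_zero _ hδF), ← SubmonoidClass.coe_pow,
        ← SubmonoidClass.coe_pow, ← MulMemClass.coe_mul]
      refine congrArg Subtype.val ?_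
      have hpow : ∀ x : T.B, x ^ (q - 1) = x ^ (q - 1 - 1) * x := fun x => by
        rw [← pow_succ, Nat.sub_add_cancel T.one_le_pred]
      rw [mul_pow, mul_pow, hpow s₂, hpow b₁]
      linear_combination (s₂ ^ (q - 1 - 1) * b₁ ^ (q - 1 - 1) * b₁) * hb₂ -
        (s₂ ^ (q - 1 - 1) * b₂ * b₁ ^ (q - 1 - 1)) * hmid
    rw [hkey]
    exact isIntegral_algebraMap (R := T.B) (A := F)
      (x := s₂ ^ (q - 1 - 1) * b₂ * b₁ ^ (q - 1 - 1) * s₁)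
  refine ⟨s₂ * b₁, ⟨_, T.closed _ hint⟩, ?_, Subtype.ext ?_⟩
  · rw [map_mul]; exact mul_ne_zero hs₂ (hne hb₁)
  · show ((s₂ * b₁ * r : T.B) : F) = (δ₀ : F) * (((s₂ * b₁ * r : T.B) : F) / (δ₀ : F))
    exact (mul_div_cancel₀ _ hδF).symm

/-- Points lying only on `P11` are two-generated. -/
theorem twoGenAt_only11 [IsNoetherianRing W] {m : Ideal T.B} (hm : m.IsMaximal)
    (h1 : RingHom.ker (T.r 1) ≤ m)
    (h0 : ¬ RingHom.ker (T.r 0) ≤ m) (h2 : ¬ RingHom.ker (T.r 2) ≤ m) : TwoGenAt m := by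
  have := T.dedekind
  have := T.isDomain_Rb
  obtain ⟨P, hP, hPm⟩ := T.exists_pt hm h1
  have hp12 : T.p12 ∉ P := fun hp => h0 (by
    rw [← hPm, T.pt_eq hP hp 1]; exact T.ker_le_pt 0 P)
  have hu : ¬ RingHom.ker (T.r 1) ≤ T.pt 0 P := fun h => hp12 (hP.isPrime.mem_of_pow_mem q (by
    have := h (show T.u ∈ RingHom.ker (T.r 1) from T.r11_u)
    rwa [mem_pt, T.r20_u] at this))
  obtain ⟨s₁, b₁, hs₁, hb₁, hmid⟩ := T.mid P hP hp12
  set δ₀ := T.e 2 T.h - T.e 0 T.h with hδ₀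
  have hδ₀0 : δ₀ ≠ 0 := sub_ne_zero.2 (Ne.symm T.e0h_ne)
  have hδ₀r : T.r 1 δ₀ = 0 := by rw [map_sub, (T.r11_e _).2.2, (T.r11_e _).1, sub_self]
  have hne : ∀ {x : Rb}, x ∉ P → x ≠ 0 := fun h h' => h (h' ▸ zero_mem P)
  -- `δ₀` is a uniformiser of the middle component
  have hunif := T.exists_mid_dvd hb₁ hmid
  -- a uniformiser which does not vanish at the point of `P20`
  obtain ⟨δ, hδr, hδP, S₀, S₁, hS₀, hS₁, hSδ⟩ : ∃ δ : T.B, T.r 1 δ = 0 ∧ T.r 0 δ ∉ P ∧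
      ∃ S₀ S₁ : T.B, T.r 1 S₀ ≠ 0 ∧ T.r 1 S₁ = T.r 1 S₀ ∧ S₀ * δ = δ₀ * S₁ := by
    by_cases hδ : T.r 0 δ₀ ∈ P
    · obtain ⟨v, hv, hvP⟩ := SetLike.not_le_iff_exists.1 hu
      obtain ⟨σ, w, hσ, hσw⟩ := hunif v hv
      have hv' : T.r 1 v = 0 := hv
      refine ⟨δ₀ + v ^ 2, by rw [map_add, map_pow, hv', hδ₀r]; simp, fun h => ?_,
        σ, σ + v * w, hσ, by rw [map_add, map_mul, hv']; simp, by
          linear_combination v * hσw⟩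
      rw [map_add, map_pow, Ideal.add_mem_iff_right _ hδ] at h
      exact hvP (hP.isPrime.mem_of_pow_mem 2 h)
    · exact ⟨δ₀, hδ₀r, hδ, 1, 1, by rw [map_one]; exact one_ne_zero, rfl, by ring⟩
  have hδ0 : T.r 0 δ ≠ 0 := hne hδP
  have hrel : s₁ * S₀ ^ (q - 1) * δ ^ (q - 1) = (q : T.B) * (b₁ * S₁ ^ (q - 1)) := by
    rw [mul_assoc, ← mul_pow, hSδ, mul_pow, ← mul_assoc, hmid]
    ring
  obtain ⟨c, hc, hNA⟩ := T.NA_mid δ (s₁ * S₀ ^ (q - 1)) (b₁ * S₁ ^ (q - 1)) hδ0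
    (by rw [map_mul, map_pow]; exact mul_ne_zero (hne hs₁) (pow_ne_zero _ hS₀))
    (by rw [map_mul, map_pow, hS₁]; exact mul_ne_zero (hne hb₁) (pow_ne_zero _ hS₀)) hrel
  obtain ⟨X, hX⟩ := T.NA_dvd δ
  obtain ⟨s, hs, hsm⟩ := SetLike.not_le_iff_exists.1 h2
  obtain ⟨τ₁, β₁, hτ₁, hτβ₁, hres₁⟩ := hNA 1 (by decide)
  obtain ⟨τ₀, β₀, hτ₀, hτβ₀, -⟩ := hNA 0 (by decide)
  obtain ⟨U, hU⟩ : (q : T.B) ∣ s * T.NA δ := by
    refine T.q_dvd _ fun i => ?_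
    fin_cases i
    · exact ⟨τ₀, hτ₀, s * β₀, by linear_combination s * hτβ₀⟩
    · exact ⟨τ₁, hτ₁, s * β₁, by linear_combination s * hτβ₁⟩
    · obtain ⟨τ, hτ, hd⟩ := T.ram02 hs
      exact ⟨τ, hτ, by rw [← mul_assoc]; exact hd.mul_right _⟩
  have hUm : U ∉ m := by
    intro hUm
    rw [← hPm, mem_pt] at hUm
    have e : τ₁ * U = s * β₁ := mul_left_cancel₀ T.q_ne_B (by
      linear_combination s * hτβ₁ - τ₁ * hU)
    have h := congrArg (T.r 1) e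
    rw [map_mul, map_mul] at h
    rw [map_mul, map_mul, map_pow, map_pow, hS₁] at hres₁
    have h' : T.r 1 U * T.r 1 s₁ =
        T.r 1 s * (algebraMap W Rb c * T.r 0 δ * T.r 1 b₁) := by
      refine mul_left_cancel₀ (mul_ne_zero hτ₁ (pow_ne_zero (q - 1) hS₀)) ?_
      linear_combination T.r 1 S₀ ^ (q - 1) * T.r 1 s₁ * h + T.r 1 s * hres₁
    refine absurd (h' ▸ P.mul_mem_right _ hUm) (hP.isPrime.mul_notMem ?_
      (hP.isPrime.mul_notMem (hP.isPrime.mul_notMem ?_ hδP) hb₁))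
    · intro hsP
      exact hsm (by rw [← hPm, mem_pt]; exact hsP)
    · exact fun hcP => hP.ne_top (Ideal.eq_top_of_isUnit_mem P hcP (hc.map _))
  have hdvd : ∀ r : T.B, T.r 1 r = 0 → δ ∣ U * r := by
    intro r hr
    obtain ⟨σ, wr, hσ, hσw⟩ := hunif r hr
    obtain ⟨Y, hY⟩ : (q : T.B) ∣ s * X * r := by
      refine T.q_dvd _ fun i => ?_
      fin_cases i
      · exact ⟨τ₀ * δ, by show T.r 0 (τ₀ * δ) ≠ 0; rw [map_mul]; exact mul_ne_zero hτ₀ hδ0,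
          s * r * β₀, by linear_combination (s * r) * hτβ₀ - (τ₀ * s * r) * hX⟩
      · refine ⟨σ * S₁ * τ₁, by
          show T.r 1 (σ * S₁ * τ₁) ≠ 0
          rw [map_mul, map_mul, hS₁]; exact mul_ne_zero (mul_ne_zero hσ hS₀) hτ₁,
          s * S₀ * wr * β₁, ?_⟩
        linear_combination (s * X * S₁ * τ₁) * hσw - (τ₁ * s * X * wr) * hSδ +
          (s * S₀ * wr) * hτβ₁ - (τ₁ * s * S₀ * wr) * hX
      · obtain ⟨τ, hτ, hd⟩ := T.ram02 hs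
        exact ⟨τ, hτ, by rw [← mul_assoc, ← mul_assoc]; exact (hd.mul_right _).mul_right _⟩
    exact ⟨Y, mul_left_cancel₀ T.q_ne_B (by linear_combination (-r) * hU + δ * hY + (s * r) * hX)⟩
  obtain ⟨t, htP, σ, hσ, htd⟩ := exists_uniformiser T.notField hP
  obtain ⟨t', rfl⟩ := T.r_surj 1 t
  obtain ⟨σ', rfl⟩ := T.r_surj 1 σ
  refine ⟨δ, h1 hδr, t', hPm ▸ htP, fun z hz => ?_⟩
  rw [← hPm] at hz
  obtain ⟨c', hc'⟩ := htd _ hz
  obtain ⟨c'', rfl⟩ := T.r_surj 1 c'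
  obtain ⟨b, hb⟩ := hdvd (σ' * z - t' * c'') (by rw [map_sub, map_mul, map_mul, hc', sub_self])
  exact ⟨U * σ', b, U * c'', hm.isPrime.mul_notMem hUm fun h => hσ (by rwa [← hPm] at h),
    by linear_combination hb⟩

end ThreeSheet

end Fermat.Agent.Conn
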