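import Fermat.Agent.Conn.SheetsOrders

/-!
# The norm on fractions, and elements of prescribed orders
-/

set_option autoImplicit false

namespace Fermat.Agent.Conn

namespace ThreeSheet

variable {W F R Rb : Type*} [CommRing W] [IsLocalRing W] [Field F]
    [Algebra W F] [CommRing R] [Algebra W R] [CommRing Rb] [Algebra W Rb] {q : ℕ}
variable (T : ThreeSheet W F R Rb q)

/-- A non-zero element of `B` is non-zero in `F`. -/
theorem ne_zero_of_coe {b : T.B} (hb : b ≠ 0) : (b : F) ≠ 0 := fun h => hb (Subtype.ext h)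

theorem hasOrd_nonneg {i : Fin 3} {b : T.B} {a : ℤ} (h : T.HasOrd i (b : F) a) : 0 ≤ a := by
  by_contra hneg
  push Not at hneg
  obtain ⟨k, rfl⟩ : ∃ k : ℕ, a = -(k : ℤ) := ⟨(-a).toNat, by omega⟩
  have hk : k ≠ 0 := by omega
  have key : ∀ y : T.B, T.UnitAt i ((y : F) * (q : F) ^ (-(-(k : ℤ)))) → False := by
    rintro y ⟨s, t, hs, ht, e⟩
    rw [neg_neg, zpow_natCast] at e
    refine ht ?_
    rw [← (show s * (y * (q : T.B) ^ k) = t from Subtype.ext (by push_cast; exact e)), map_mul,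
      map_mul, map_pow, T.r_q, zero_pow hk, mul_zero, mul_zero]
  by_cases hi : i = 1
  · subst hi
    rw [hasOrd_mid, ← SubmonoidClass.coe_pow] at h
    exact key _ h
  · rw [T.hasOrd_outer hi] at h
    exact key b h

theorem exists_ord_nat (i : Fin 3) {b : T.B} (hb : b ≠ 0) :
    ∃ a : ℕ, T.HasOrd i (b : F) a ∧ ∃ s t, T.r i s ≠ 0 ∧ T.r i t ≠ 0 ∧
      s * (if i = 1 then b ^ (q - 1) else b) = t * (q : T.B) ^ a := by
  obtain ⟨a, ha, -⟩ := T.exists_hasOrd i (T.ne_zero_of_coe hb)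
  lift a to ℕ using T.hasOrd_nonneg ha
  refine ⟨a, ha, ?_⟩
  have key : ∀ y : T.B, T.UnitAt i ((y : F) * (q : F) ^ (-(a : ℤ))) →
      ∃ s t, T.r i s ≠ 0 ∧ T.r i t ≠ 0 ∧ s * y = t * (q : T.B) ^ a := by
    rintro y ⟨s, t, hs, ht, e⟩
    refine ⟨s, t, hs, ht, Subtype.ext ?_⟩
    rw [zpow_neg, zpow_natCast, ← mul_assoc, mul_inv_eq_iff_eq_mul₀ (pow_ne_zero _ T.q_ne)] at e
    push_cast
    exact e
  by_cases hi : i = 1
  · subst hi
    rw [hasOrd_mid, ← SubmonoidClass.coe_pow] at ha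
    simpa using key _ ha
  · rw [T.hasOrd_outer hi] at ha
    simpa [hi] using key b ha

theorem hasOrd_NA {x : T.B} (hx : x ≠ 0) {a b c : ℤ} (ha : T.HasOrd 0 (x : F) a)
    (hb : T.HasOrd 1 (x : F) b) (hc : T.HasOrd 2 (x : F) c) :
    T.HasOrd 0 (T.NA x : F) (a + b) ∧ T.HasOrd 2 (T.NA x : F) (q * c) := by
  obtain ⟨a', ha', hA⟩ := T.exists_ord_nat 0 hx
  obtain ⟨b', hb', hB⟩ := T.exists_ord_nat 1 hx
  obtain ⟨c', hc', hC⟩ := T.exists_ord_nat 2 hx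
  rw [T.hasOrd_unique ha ha', T.hasOrd_unique hb hb', T.hasOrd_unique hc hc']
  rw [if_pos rfl] at hB
  rw [if_neg (by decide)] at hA hC
  obtain ⟨h0, h2⟩ := T.NA_ord x a' b' c' hA hB hC
  have key : ∀ (i : Fin 3), i ≠ 1 → ∀ k : ℕ,
      (∃ s t, T.r i s ≠ 0 ∧ T.r i t ≠ 0 ∧ s * T.NA x = t * (q : T.B) ^ k) →
      T.HasOrd i (T.NA x : F) (k : ℤ) := by
    rintro i hi k ⟨s, t, hs, ht, e⟩
    refine (T.hasOrd_outer hi).2 ⟨s, t, hs, ht, ?_⟩
    rw [zpow_neg, zpow_natCast, ← mul_assoc, mul_inv_eq_iff_eq_mul₀ (pow_ne_zero _ T.q_ne)]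
    exact_mod_cast congrArg Subtype.val e
  refine ⟨?_, ?_⟩
  · exact_mod_cast key 0 (by decide) _ h0
  · exact_mod_cast key 2 (by decide) _ h2

/-- The norm of a non-zero element is non-zero. -/
theorem NA_ne_zero {x : T.B} (hx : x ≠ 0) : (T.NA x : F) ≠ 0 := by
  obtain ⟨a, ha, -⟩ := T.exists_hasOrd 0 (T.ne_zero_of_coe hx)
  obtain ⟨b, hb, -⟩ := T.exists_hasOrd 1 (T.ne_zero_of_coe hx)
  obtain ⟨c, hc, -⟩ := T.exists_hasOrd 2 (T.ne_zero_of_coe hx)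
  have h := ((T.hasOrd_outer (by decide)).1 (T.hasOrd_NA hx ha hb hc).1).ne_zero
  exact left_ne_zero_of_mul h

/-- The norm extended to fractions. -/
noncomputable def NAF (x : F) : F :=
  (T.NA ⟨_, (T.frac x).choose_spec.2⟩ : F) / (T.NA (T.frac x).choose : F)

/-- The norm of a fraction is the quotient of the norms. -/
theorem NAF_eq {x : F} {b c : T.B} (hb : b ≠ 0) (e : (b : F) * x = c) :
    T.NAF x = (T.NA c : F) / (T.NA b : F) := by
  have hd := (T.frac x).choose_spec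
  rw [NAF, div_eq_div_iff (T.NA_ne_zero hd.1) (T.NA_ne_zero hb), ← MulMemClass.coe_mul,
    ← MulMemClass.coe_mul, ← map_mul, ← map_mul]
  refine congrArg (fun z : T.B => (T.NA z : F)) (Subtype.ext ?_)
  push_cast
  rw [← e]
  ring

/-- On `B` the extended norm is the norm. -/
theorem NAF_coe (b : T.B) : T.NAF (b : F) = (T.NA b : F) := by
  have := T.isDomain_Rb
  rw [T.NAF_eq (b := 1) (c := b) one_ne_zero (by rw [OneMemClass.coe_one, one_mul]), map_one,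
    OneMemClass.coe_one, div_one]

/-- The norm is multiplicative. -/
theorem NAF_mul (x y : F) : T.NAF (x * y) = T.NAF x * T.NAF y := by
  obtain ⟨b, hb, hbx⟩ := T.frac x
  obtain ⟨d, hd, hdy⟩ := T.frac y
  rw [T.NAF_eq (c := ⟨_, hbx⟩) hb rfl, T.NAF_eq (c := ⟨_, hdy⟩) hd rfl,
    T.NAF_eq (b := b * d) (c := ⟨_, hbx⟩ * ⟨_, hdy⟩) (mul_ne_zero hb hd) (by push_cast; ring),
    map_mul, map_mul, MulMemClass.coe_mul, MulMemClass.coe_mul, div_mul_div_comm]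

/-- The norm of one is one. -/
theorem NAF_one : T.NAF 1 = 1 := by
  rw [show (1 : F) = ((1 : T.B) : F) from rfl, T.NAF_coe, map_one]

/-- The norm commutes with powers. -/
theorem NAF_pow (x : F) (n : ℕ) : T.NAF (x ^ n) = T.NAF x ^ n := by
  induction n with
  | zero => rw [pow_zero, pow_zero, T.NAF_one]
  | succ n ih => rw [pow_succ, pow_succ, T.NAF_mul, ih]

/-- The norm of a non-zero element of `F` is non-zero. -/
theorem NAF_ne_zero {x : F} (hx : x ≠ 0) : T.NAF x ≠ 0 := by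
  obtain ⟨b, hb, hbx⟩ := T.frac x
  rw [T.NAF_eq (c := ⟨_, hbx⟩) hb rfl]
  refine div_ne_zero (T.NA_ne_zero fun h => ?_) (T.NA_ne_zero hb)
  exact mul_ne_zero (T.ne_zero_of_coe hb) hx (congrArg Subtype.val h)

/-- The orders of the norm on the outer components. -/
theorem hasOrd_NAF {x : F} (hx : x ≠ 0) {a b c : ℤ} (ha : T.HasOrd 0 x a)
    (hb : T.HasOrd 1 x b) (hc : T.HasOrd 2 x c) :
    T.HasOrd 0 (T.NAF x) (a + b) ∧ T.HasOrd 2 (T.NAF x) (q * c) := by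
  obtain ⟨d, hd, hdx⟩ := T.frac x
  obtain ⟨a', ha', -⟩ := T.exists_hasOrd 0 (T.ne_zero_of_coe hd)
  obtain ⟨b', hb', -⟩ := T.exists_hasOrd 1 (T.ne_zero_of_coe hd)
  obtain ⟨c', hc', -⟩ := T.exists_hasOrd 2 (T.ne_zero_of_coe hd)
  set e : T.B := ⟨_, hdx⟩ with he_def
  have he : e ≠ 0 := fun h =>
    mul_ne_zero (T.ne_zero_of_coe hd) hx (congrArg Subtype.val h)
  obtain ⟨h0, h2⟩ := T.hasOrd_NA he (T.hasOrd_mul ha' ha) (T.hasOrd_mul hb' hb)
    (T.hasOrd_mul hc' hc)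
  obtain ⟨g0, g2⟩ := T.hasOrd_NA hd ha' hb' hc'
  rw [T.NAF_eq (c := e) hd rfl, div_eq_mul_inv]
  refine ⟨?_, ?_⟩
  · convert T.hasOrd_mul h0 (T.hasOrd_inv g0) using 1
    ring
  · convert T.hasOrd_mul h2 (T.hasOrd_inv g2) using 1
    ring

theorem exists_mem_only {i j k : Fin 3} (hij : i ≠ j) (hik : i ≠ k) :
    ∃ a : T.B, T.r i a = 0 ∧ T.r j a ≠ 0 ∧ T.r k a ≠ 0 := by
  obtain ⟨a, ha, haj⟩ := SetLike.not_le_iff_exists.1 fun h => hij (T.antichain i j h)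
  obtain ⟨b, hb, hbk⟩ := SetLike.not_le_iff_exists.1 fun h => hik (T.antichain i k h)
  rw [RingHom.mem_ker] at ha haj hb hbk
  by_cases hak : T.r k a = 0
  · by_cases hbj : T.r j b = 0
    · exact ⟨a + b, by rw [map_add, ha, hb, add_zero], by rwa [map_add, hbj, add_zero],
        by rwa [map_add, hak, zero_add]⟩
    · exact ⟨b, hb, hbj, hbk⟩
  · exact ⟨a, ha, haj, hak⟩

/-- An element of order one on `P20` and a unit on the other components. -/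
theorem exists_ord_one_outer :
    ∃ x : T.B, T.HasOrd 0 (x : F) 1 ∧ T.HasOrd 1 (x : F) 0 ∧ T.HasOrd 2 (x : F) 0 := by
  have := T.isDomain_Rb
  obtain ⟨a, ha, ha1, ha2⟩ := T.exists_mem_only (i := 0) (j := 1) (k := 2) (by decide) (by decide)
  obtain ⟨s, hs, b, hb⟩ := T.ram20 a ha
  have key : ∀ x s t : T.B, T.r 0 s ≠ 0 → T.r 0 t ≠ 0 → s * x = (q : T.B) * t →
      T.r 1 x ≠ 0 → T.r 2 x ≠ 0 →
      T.HasOrd 0 (x : F) 1 ∧ T.HasOrd 1 (x : F) 0 ∧ T.HasOrd 2 (x : F) 0 := by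
    intro x s t hs ht e h1 h2
    refine ⟨(T.hasOrd_outer (by decide)).2 ⟨s, t, hs, ht, ?_⟩,
      T.hasOrd_of_unitAt (T.unitAt_of_r 1 h1), T.hasOrd_of_unitAt (T.unitAt_of_r 2 h2)⟩
    rw [zpow_neg_one, ← mul_assoc, mul_inv_eq_iff_eq_mul₀ T.q_ne, mul_comm (t : F)]
    exact_mod_cast congrArg Subtype.val e
  by_cases hb0 : T.r 0 b = 0
  · exact ⟨a + q, key _ s (b + s) hs (by rwa [map_add, hb0, zero_add])
      (by linear_combination hb) (by rwa [map_add, T.r_q, add_zero])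
      (by rwa [map_add, T.r_q, add_zero])⟩
  · exact ⟨a, key _ s b hs hb0 hb ha1 ha2⟩

/-- An element of order one on `P11` and a unit on the other components. -/
theorem exists_ord_one_mid :
    ∃ x : T.B, T.HasOrd 0 (x : F) 0 ∧ T.HasOrd 1 (x : F) 1 ∧ T.HasOrd 2 (x : F) 0 := by
  have := T.isDomain_Rb
  obtain ⟨P, hP, hp⟩ := T.ordinary
  obtain ⟨s₁, b₁, hs₁, hb₁, hmid⟩ := T.mid P hP hp
  set δ₀ := T.e 2 T.h - T.e 0 T.h
  have key : ∀ x σ w : T.B, T.r 1 σ ≠ 0 → T.r 1 w ≠ 0 → σ * x = δ₀ * w →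
      T.r 0 x ≠ 0 → T.r 2 x ≠ 0 →
      T.HasOrd 0 (x : F) 0 ∧ T.HasOrd 1 (x : F) 1 ∧ T.HasOrd 2 (x : F) 0 := by
    intro x σ w hσ hw e h0 h2
    refine ⟨T.hasOrd_of_unitAt (T.unitAt_of_r 0 h0), T.hasOrd_mid.2 ⟨s₁ * σ ^ (q - 1),
      b₁ * w ^ (q - 1), ?_, ?_, ?_⟩, T.hasOrd_of_unitAt (T.unitAt_of_r 2 h2)⟩
    · rw [map_mul, map_pow]
      exact mul_ne_zero (fun h => hs₁ (h ▸ zero_mem P)) (pow_ne_zero _ hσ)
    · rw [map_mul, map_pow]
      exact mul_ne_zero (fun h => hb₁ (h ▸ zero_mem P)) (pow_ne_zero _ hw)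
    · have h : s₁ * σ ^ (q - 1) * x ^ (q - 1) = b₁ * w ^ (q - 1) * (q : T.B) := by
        rw [mul_assoc, ← mul_pow, e, mul_pow, ← mul_assoc, hmid]; ring
      rw [zpow_neg_one, ← mul_assoc, mul_inv_eq_iff_eq_mul₀ T.q_ne]
      exact_mod_cast congrArg Subtype.val h
  obtain ⟨a, ha, ha0, ha2⟩ := T.exists_mem_only (i := 1) (j := 0) (k := 2) (by decide) (by decide)
  obtain ⟨σ, w, hσ, hσw⟩ := T.exists_mid_dvd hb₁ hmid a ha
  by_cases hw : T.r 1 w = 0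
  · obtain ⟨y₀, hy₀, hy₀1⟩ := SetLike.not_le_iff_exists.1 fun h => absurd (T.antichain 0 1 h) (by decide)
    obtain ⟨y₂, hy₂, hy₂1⟩ := SetLike.not_le_iff_exists.1 fun h => absurd (T.antichain 2 1 h) (by decide)
    rw [RingHom.mem_ker] at hy₀ hy₀1 hy₂ hy₂1
    exact ⟨a + δ₀ * (y₀ * y₂), key _ σ (w + σ * (y₀ * y₂)) hσ
      (by rw [map_add, hw, zero_add, map_mul, map_mul]
          exact mul_ne_zero hσ (mul_ne_zero hy₀1 hy₂1))
      (by linear_combination hσw)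
      (by rw [map_add, map_mul, map_mul, hy₀, zero_mul, mul_zero, add_zero]; exact ha0)
      (by rw [map_add, map_mul, map_mul, hy₂, mul_zero, mul_zero, add_zero]; exact ha2)⟩
  · exact ⟨a, key a σ w hσ hw hσw ha0 ha2⟩

end ThreeSheet

end Fermat.Agent.Conn
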