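import Fermat.Agent.Conn.SheetsNorm

/-!
# The involution on fractions, and normalisation of orders

If both norms of `f` are constants times `n`-th powers, a fixed power of `f` times a constant and an
`n`-th power is a unit on all three components.
-/

set_option autoImplicit false

namespace Fermat.Agent.Conn

namespace ThreeSheet

variable {W F R Rb : Type*} [CommRing W] [IsLocalRing W] [Field F]
    [Algebra W F] [CommRing R] [Algebra W R] [CommRing Rb] [Algebra W Rb] {q : ℕ}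
variable (T : ThreeSheet W F R Rb q)

/-- The involution extended to fractions. -/
noncomputable def wF (x : F) : F :=
  (T.w ⟨_, (T.frac x).choose_spec.2⟩ : F) / (T.w (T.frac x).choose : F)

/-- The involution sends non-zero elements to non-zero elements. -/
theorem w_ne {b : T.B} (hb : b ≠ 0) : (T.w b : F) ≠ 0 :=
  T.ne_zero_of_coe fun h => hb (T.w.injective (h.trans (map_zero T.w).symm))

/-- The involution of a fraction. -/
theorem wF_eq {x : F} {b c : T.B} (hb : b ≠ 0) (e : (b : F) * x = c) :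
    T.wF x = (T.w c : F) / (T.w b : F) := by
  have hd := (T.frac x).choose_spec
  rw [wF, div_eq_div_iff (T.w_ne hd.1) (T.w_ne hb), ← MulMemClass.coe_mul,
    ← MulMemClass.coe_mul, ← map_mul, ← map_mul]
  refine congrArg (fun z : T.B => (T.w z : F)) (Subtype.ext ?_)
  push_cast
  rw [← e]
  ring

/-- On `B` the extended involution is the involution. -/
theorem wF_coe (b : T.B) : T.wF (b : F) = (T.w b : F) := by
  have := T.isDomain_Rb
  rw [T.wF_eq (b := 1) (c := b) one_ne_zero (by rw [OneMemClass.coe_one, one_mul]), map_one,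
    OneMemClass.coe_one, div_one]

/-- The involution is multiplicative. -/
theorem wF_mul (x y : F) : T.wF (x * y) = T.wF x * T.wF y := by
  obtain ⟨b, hb, hbx⟩ := T.frac x
  obtain ⟨d, hd, hdy⟩ := T.frac y
  rw [T.wF_eq (c := ⟨_, hbx⟩) hb rfl, T.wF_eq (c := ⟨_, hdy⟩) hd rfl,
    T.wF_eq (b := b * d) (c := ⟨_, hbx⟩ * ⟨_, hdy⟩) (mul_ne_zero hb hd) (by push_cast; ring),
    map_mul, map_mul, MulMemClass.coe_mul, MulMemClass.coe_mul, div_mul_div_comm]

theorem wF_one : T.wF 1 = 1 := by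
  rw [show (1 : F) = ((1 : T.B) : F) from rfl, T.wF_coe, map_one]

/-- The involution commutes with powers. -/
theorem wF_pow (x : F) (n : ℕ) : T.wF (x ^ n) = T.wF x ^ n := by
  induction n with
  | zero => rw [pow_zero, pow_zero, T.wF_one]
  | succ n ih => rw [pow_succ, pow_succ, T.wF_mul, ih]

/-- The involution preserves non-vanishing in `F`. -/
theorem wF_ne_zero {x : F} (hx : x ≠ 0) : T.wF x ≠ 0 := by
  obtain ⟨b, hb, hbx⟩ := T.frac x
  rw [T.wF_eq (c := ⟨_, hbx⟩) hb rfl]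
  refine div_ne_zero (T.w_ne fun h => ?_) (T.w_ne hb)
  exact mul_ne_zero (T.ne_zero_of_coe hb) hx (congrArg Subtype.val h)

/-- The component exchanged with `i`. -/
def flip (i : Fin 3) : Fin 3 := if i = 0 then 2 else if i = 2 then 0 else 1

/-- The involution exchanges the outer components. -/
theorem r_w (i : Fin 3) (b : T.B) : T.r i (T.w b) = T.r (flip i) b := by
  fin_cases i
  · exact (T.r02_eq b).symm
  · exact T.r11_w b
  · show T.r 2 (T.w b) = T.r 0 b
    rw [T.r02_eq, T.w_w]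

/-- The involution permutes the units along the components. -/
theorem unitAt_wF {i : Fin 3} {x : F} (h : T.UnitAt (flip i) x) : T.UnitAt i (T.wF x) := by
  obtain ⟨s, t, hs, ht, e⟩ := h
  have hs' : s ≠ 0 := fun h => hs (by rw [h, map_zero])
  refine ⟨T.w s, T.w t, by rwa [T.r_w], by rwa [T.r_w], ?_⟩
  rw [T.wF_eq hs' e, mul_div_cancel₀ _ (T.w_ne hs')]

theorem wF_inv (x : F) : T.wF x⁻¹ = (T.wF x)⁻¹ := by
  rcases eq_or_ne x 0 with rfl | hx
  · rw [inv_zero, show (0 : F) = ((0 : T.B) : F) from rfl, T.wF_coe, map_zero]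
    exact inv_zero.symm
  · refine eq_inv_of_mul_eq_one_right ?_
    rw [← T.wF_mul, mul_inv_cancel₀ hx, T.wF_one]

theorem wF_zpow (x : F) (k : ℤ) : T.wF (x ^ k) = T.wF x ^ k := by
  cases k with
  | ofNat k => simpa using T.wF_pow x k
  | negSucc k => rw [zpow_negSucc, zpow_negSucc, T.wF_inv, T.wF_pow]

theorem NAF_inv (x : F) : T.NAF x⁻¹ = (T.NAF x)⁻¹ := by
  rcases eq_or_ne x 0 with rfl | hx
  · rw [inv_zero, show (0 : F) = ((0 : T.B) : F) from rfl, T.NAF_coe]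
    have h : T.NA 0 = 0 := zero_dvd_iff.1 (T.NA_dvd 0)
    rw [h]
    exact inv_zero.symm
  · refine eq_inv_of_mul_eq_one_right ?_
    rw [← T.NAF_mul, mul_inv_cancel₀ hx, T.NAF_one]

theorem NAF_zpow (x : F) (k : ℤ) : T.NAF (x ^ k) = T.NAF x ^ k := by
  cases k with
  | ofNat k => simpa using T.NAF_pow x k
  | negSucc k => rw [zpow_negSucc, zpow_negSucc, T.NAF_inv, T.NAF_pow]

theorem wF_q : T.wF (q : F) = (q : F) := by
  rw [show (q : F) = ((q : T.B) : F) by push_cast; rfl, T.wF_coe, map_natCast]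

theorem NAF_q : T.NAF (q : F) = (q : F) ^ q := by
  have h := T.NA_const (q : W)
  rw [map_natCast] at h
  rw [show (q : F) = ((q : T.B) : F) by push_cast; rfl, T.NAF_coe, h, SubmonoidClass.coe_pow]

theorem flip_ne_one : ∀ i : Fin 3, i ≠ 1 → flip i ≠ 1 := by unfold flip; decide

/-- The involution permutes the orders. -/
theorem hasOrd_wF {i : Fin 3} {x : F} {a : ℤ} (h : T.HasOrd (flip i) x a) :
    T.HasOrd i (T.wF x) a := by
  by_cases hi : i = 1
  · subst hi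
    rw [hasOrd_mid]
    have h' := T.unitAt_wF (i := 1) (x := x ^ (q - 1) * (q : F) ^ (-a)) (T.hasOrd_mid.1 h)
    rwa [T.wF_mul, T.wF_pow, T.wF_zpow, T.wF_q] at h'
  · have hf : flip i ≠ 1 := flip_ne_one i hi
    rw [T.hasOrd_outer hi]
    have h' := T.unitAt_wF ((T.hasOrd_outer hf).1 h)
    rwa [T.wF_mul, T.wF_zpow, T.wF_q] at h'

/-- A constant times an `n`-th power. -/
def IsConstPow (n : ℕ) (x : F) : Prop :=
  ∃ (c : W) (j : ℤ) (g : F), IsUnit c ∧ g ≠ 0 ∧ x = algebraMap W F c * (q : F) ^ j * g ^ n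

variable {T}

omit [IsLocalRing W] in
/-- Constants times `n`-th powers are stable under products. -/
theorem IsConstPow.mul {n : ℕ} {x y : F} (hx : IsConstPow (W := W) (q := q) n x)
    (hy : IsConstPow (W := W) (q := q) n y) (hq : (q : F) ≠ 0) :
    IsConstPow (W := W) (q := q) n (x * y) := by
  obtain ⟨c, j, g, hc, hg, rfl⟩ := hx
  obtain ⟨d, k, h, hd, hh, rfl⟩ := hy
  exact ⟨c * d, j + k, g * h, hc.mul hd, mul_ne_zero hg hh, by
    rw [map_mul, zpow_add₀ hq, mul_pow]; ring⟩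

omit [IsLocalRing W] in
/-- Constants times `n`-th powers are stable under powers. -/
theorem IsConstPow.pow {n : ℕ} {x : F} (hx : IsConstPow (W := W) (q := q) n x) (m : ℕ) :
    IsConstPow (W := W) (q := q) n (x ^ m) := by
  obtain ⟨c, j, g, hc, hg, rfl⟩ := hx
  exact ⟨c ^ m, j * m, g ^ m, hc.pow m, pow_ne_zero m hg, by
    rw [map_pow, zpow_mul, zpow_natCast, mul_pow, mul_pow, ← pow_mul, ← pow_mul, mul_comm n]⟩

variable (T)

/-- Unit constants are units along every component. -/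
theorem unitAt_const {c : W} (hc : IsUnit c) (i : Fin 3) : T.UnitAt i (algebraMap W F c) := by
  have := T.isDomain_Rb
  rw [show algebraMap W F c = ((algebraMap W T.B c : T.B) : F) from rfl]
  refine T.unitAt_of_r i ?_
  rw [AlgHom.commutes]
  exact (hc.map _).ne_zero

omit T [IsLocalRing W] in
theorem isConstPow_q (n : ℕ) (k : ℤ) : IsConstPow (W := W) (q := q) n ((q : F) ^ k) :=
  ⟨1, k, 1, isUnit_one, one_ne_zero, by rw [map_one, one_pow, one_mul, mul_one]⟩

omit T [IsLocalRing W] in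
theorem isConstPow_npow (n : ℕ) {y : F} (hy : y ≠ 0) : IsConstPow (W := W) (q := q) n (y ^ n) :=
  ⟨1, 0, y, isUnit_one, hy, by rw [map_one, zpow_zero, mul_one, one_mul]⟩

/-- A constant times an `n`-th power has outer orders congruent modulo `n`. -/
theorem exists_ord_constPow {n : ℕ} {x : F} (hx : IsConstPow (W := W) (q := q) n x) :
    ∃ j a c : ℤ, T.HasOrd 0 x (j + n * a) ∧ T.HasOrd 2 x (j + n * c) := by
  obtain ⟨c₀, j, g, hc, hg, rfl⟩ := hx
  obtain ⟨a, ha, -⟩ := T.exists_hasOrd 0 hg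
  obtain ⟨c, hc', -⟩ := T.exists_hasOrd 2 hg
  refine ⟨j, a, c, ?_, ?_⟩
  · have h := T.hasOrd_mul (T.hasOrd_mul (T.hasOrd_of_unitAt (T.unitAt_const hc 0))
      (T.hasOrd_zpow (T.hasOrd_q 0) j)) (T.hasOrd_pow ha n)
    simpa using h
  · have h := T.hasOrd_mul (T.hasOrd_mul (T.hasOrd_of_unitAt (T.unitAt_const hc 2))
      (T.hasOrd_zpow (T.hasOrd_q 2) j)) (T.hasOrd_pow hc' n)
    simpa using h

/-- A power of `f` times a constant and an `n`-th power is a unit on the three components. -/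
theorem exists_normalised {n : ℕ} {f : F} (hf : f ≠ 0)
    (hA : IsConstPow (W := W) (q := q) n (T.NAF f))
    (hA' : IsConstPow (W := W) (q := q) n (T.NAF (T.wF f))) :
    ∃ (k : ℤ) (y : F), y ≠ 0 ∧
      (∀ i, T.UnitAt i (f ^ ((q + 1) * (q - 1)) * (q : F) ^ k * y ^ n)) ∧
      IsConstPow (W := W) (q := q) n (T.NAF (f ^ ((q + 1) * (q - 1)) * (q : F) ^ k * y ^ n)) ∧
      IsConstPow (W := W) (q := q) n
        (T.NAF (T.wF (f ^ ((q + 1) * (q - 1)) * (q : F) ^ k * y ^ n))) := by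
  obtain ⟨a, ha, -⟩ := T.exists_hasOrd 0 hf
  obtain ⟨b, hb, -⟩ := T.exists_hasOrd 1 hf
  obtain ⟨c, hc, -⟩ := T.exists_hasOrd 2 hf
  obtain ⟨j, u₀, u₂, hj0, hj2⟩ := T.exists_ord_constPow hA
  obtain ⟨j', v₀, v₂, hj0', hj2'⟩ := T.exists_ord_constPow hA'
  obtain ⟨e0, e2⟩ := T.hasOrd_NAF hf ha hb hc
  obtain ⟨e0', e2'⟩ := T.hasOrd_NAF (T.wF_ne_zero hf) (T.hasOrd_wF (i := 0) hc)
    (T.hasOrd_wF (i := 1) hb) (T.hasOrd_wF (i := 2) ha)
  have h1 := T.hasOrd_unique e0 hj0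
  have h2 := T.hasOrd_unique e2 hj2
  have h3 := T.hasOrd_unique e0' hj0'
  have h4 := T.hasOrd_unique e2' hj2'
  obtain ⟨x₀, hx00, hx01, hx02⟩ := T.exists_ord_one_outer
  obtain ⟨x₁, hx10, hx11, hx12⟩ := T.exists_ord_one_mid
  have hw : ((T.w x₀ : T.B) : F) = T.wF (x₀ : F) := (T.wF_coe x₀).symm
  have hx20 : T.HasOrd 0 (T.w x₀ : F) 0 := hw ▸ T.hasOrd_wF (i := 0) hx02
  have hx21 : T.HasOrd 1 (T.w x₀ : F) 0 := hw ▸ T.hasOrd_wF (i := 1) hx01
  have hx22 : T.HasOrd 2 (T.w x₀ : F) 1 := hw ▸ T.hasOrd_wF (i := 2) hx00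
  set m : ℕ := (q + 1) * (q - 1)
  -- `m * (c - a)` and `m * (b - (q - 1) * a)` are multiples of `n`
  set dc : ℤ := (((q : ℤ)) - 1) * ((v₀ - v₂) - (u₀ - u₂)) with hdc_def
  set db : ℤ := ((q : ℤ) + 1) * ((q : ℤ) - 1) * (u₀ - u₂) + (q : ℤ) * dc with hdb_def
  have hdc : (m : ℤ) * (c - a) = (n : ℤ) * dc := by
    rw [hdc_def]
    simp only [m, Nat.cast_mul, Nat.cast_add, Nat.cast_one, Nat.cast_sub T.prime_q.one_le]
    linear_combination ((q : ℤ) - 1) * ((h3 - h4) - (h1 - h2))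
  have hdb : (m : ℤ) * (b - ((q - 1 : ℕ) : ℤ) * a) = (n : ℤ) * db := by
    rw [hdb_def]
    simp only [m, Nat.cast_mul, Nat.cast_add, Nat.cast_one,
      Nat.cast_sub T.prime_q.one_le] at hdc ⊢
    linear_combination ((q : ℤ) + 1) * ((q : ℤ) - 1) * (h1 - h2) + (q : ℤ) * hdc
  set y : F := (x₁ : F) ^ (-db) * (T.w x₀ : F) ^ (-dc) with hy_def
  have hne : ∀ {i : Fin 3} {x : F} {a : ℤ}, i ≠ 1 → T.HasOrd i x a → x ≠ 0 := fun hi h =>
    left_ne_zero_of_mul ((T.hasOrd_outer hi).1 h).ne_zero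
  have hy : y ≠ 0 := mul_ne_zero (zpow_ne_zero _ (hne (by decide) hx10))
    (zpow_ne_zero _ (hne (by decide) hx20))
  set f' : F := f ^ m * (q : F) ^ (-((m : ℤ) * a)) * y ^ n
  have hf' : f' ≠ 0 :=
    mul_ne_zero (mul_ne_zero (pow_ne_zero _ hf) (zpow_ne_zero _ T.q_ne)) (pow_ne_zero _ hy)
  refine ⟨-((m : ℤ) * a), y, hy, fun i => T.unitAt_of_hasOrd hf' ?_, ?_, ?_⟩
  · have ho : ∀ (e x1 x2 : ℤ), T.HasOrd i f e → T.HasOrd i (x₁ : F) x1 →
        T.HasOrd i (T.w x₀ : F) x2 →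
        T.HasOrd i f' ((m : ℤ) * e + -((m : ℤ) * a) * (if i = 1 then ((q - 1 : ℕ) : ℤ) else 1) +
          (n : ℤ) * (-db * x1 + -dc * x2)) := fun e x1 x2 he h1' h2' =>
      T.hasOrd_mul (T.hasOrd_mul (T.hasOrd_pow he m) (T.hasOrd_zpow (T.hasOrd_q i) _))
        (T.hasOrd_pow (T.hasOrd_mul (T.hasOrd_zpow h1' _) (T.hasOrd_zpow h2' _)) n)
    fin_cases i
    · convert ho a 0 0 ha hx10 hx20 using 1
      simp
    · convert ho b 1 0 hb hx11 hx21 using 1
      simp only [↓reduceIte, Fin.mk_one]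
      linear_combination -hdb
    · convert ho c 0 1 hc hx12 hx22 using 1
      simp only [Fin.reduceEq, ↓reduceIte, Fin.reduceFinMk]
      linear_combination -hdc
  · rw [T.NAF_mul, T.NAF_mul, T.NAF_pow, T.NAF_zpow, T.NAF_q, T.NAF_pow, ← zpow_natCast (q : F) q,
      ← zpow_mul]
    exact (((hA.pow m).mul (isConstPow_q n _) T.q_ne).mul
      (isConstPow_npow n (T.NAF_ne_zero hy)) T.q_ne)
  · rw [T.wF_mul, T.wF_mul, T.wF_pow, T.wF_zpow, T.wF_q, T.wF_pow, T.NAF_mul, T.NAF_mul,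
      T.NAF_pow, T.NAF_zpow, T.NAF_q, T.NAF_pow, ← zpow_natCast (q : F) q, ← zpow_mul]
    exact (((hA'.pow m).mul (isConstPow_q n _) T.q_ne).mul
      (isConstPow_npow n (T.NAF_ne_zero (T.wF_ne_zero hy))) T.q_ne)

end ThreeSheet

end Fermat.Agent.Conn
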