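import Fermat.Agent.Conn.Sheets
import Fermat.Agent.Conn.LocalFactor
import Mathlib.RingTheory.DedekindDomain.Ideal.Lemmas
import Mathlib.Tactic.LinearCombination

/-!
# Points on a single component of the three-component model, and the supersingular points

Where only one component passes, the maximal ideal is generated by two elements; where `p12`
vanishes the three components meet at one point.
-/

set_option autoImplicit false

namespace Fermat.Agent.Conn

/-- In a Dedekind domain a maximal ideal is locally principal. -/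
theorem exists_uniformiser {D : Type*} [CommRing D] [IsDedekindDomain D] (hD : ¬ IsField D)
    {P : Ideal D} (hP : P.IsMaximal) :
    ∃ t ∈ P, ∃ s ∉ P, ∀ x ∈ P, t ∣ s * x := by
  have hP0 : P ≠ ⊥ := Ring.ne_bot_of_isMaximal_of_not_isField hP hD
  have hlt : P ^ 2 < P := Ideal.pow_lt_self P hP0 hP.ne_top 2 le_rfl
  obtain ⟨t, htP, ht⟩ := SetLike.exists_of_lt hlt
  obtain ⟨I, hI⟩ : P ∣ Ideal.span {t} :=
    Ideal.dvd_iff_le.2 ((Ideal.span_singleton_le_iff_mem P).2 htP)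
  have hIP : ¬ I ≤ P := fun hle => ht (by
    have h : Ideal.span {t} ≤ P ^ 2 := by rw [hI, sq]; exact Ideal.mul_mono_right hle
    exact h (Ideal.mem_span_singleton_self t))
  obtain ⟨s, hsI, hsP⟩ := SetLike.not_le_iff_exists.1 hIP
  refine ⟨t, htP, s, hsP, fun x hx => ?_⟩
  rw [← Ideal.mem_span_singleton, hI, mul_comm s x]
  exact Ideal.mul_mem_mul hx hsI

namespace ThreeSheet

variable {W F R Rb : Type*} [CommRing W] [IsLocalRing W] [Field F] [Algebra W F]
    [CommRing R] [Algebra W R] [CommRing Rb] [Algebra W Rb] {q : ℕ}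
variable (T : ThreeSheet W F R Rb q)

include T in
/-- The exponent `q - 1` is positive. -/
theorem one_le_pred : 1 ≤ q - 1 := by have := T.prime_q.two_le; omega

/-- `P02` is unramified over `q`. -/
theorem ram02 {x : T.B} (hx : T.r 2 x = 0) : ∃ s, T.r 2 s ≠ 0 ∧ (q : T.B) ∣ s * x := by
  rw [T.r02_eq] at hx
  obtain ⟨s, hs, b, hb⟩ := T.ram20 _ hx
  refine ⟨T.w s, by rwa [T.r02_eq, T.w_w], T.w b, ?_⟩
  have h := congrArg T.w hb
  rwa [map_mul, map_mul, T.w_w, map_natCast] at h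

/-- At a point only on `P20`, that component is cut out by `q`. -/
theorem exists_dvd_of_only20 {m : Ideal T.B} [m.IsPrime]
    (h1 : ¬ RingHom.ker (T.r 1) ≤ m) (h2 : ¬ RingHom.ker (T.r 2) ≤ m)
    {x : T.B} (hx : T.r 0 x = 0) : ∃ s, s ∉ m ∧ (q : T.B) ∣ s * x := by
  obtain ⟨s₁, hs₁, hs₁m⟩ := SetLike.not_le_iff_exists.1 h1
  obtain ⟨s₂, hs₂, hs₂m⟩ := SetLike.not_le_iff_exists.1 h2
  have hm : m.IsPrime := inferInstance
  refine ⟨(s₁ * s₂) ^ (q - 1),
    fun h => hm.mul_notMem hs₁m hs₂m (hm.mem_of_pow_mem _ h), T.q_dvd _ fun i => ?_⟩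
  fin_cases i
  · obtain ⟨s, hs, hd⟩ := T.ram20 x hx
    exact ⟨s, hs, by rw [mul_left_comm]; exact hd.mul_left _⟩
  · obtain ⟨s, hs, hd⟩ := T.ram11 s₁ hs₁
    exact ⟨s, hs, by rw [mul_pow, ← mul_assoc, ← mul_assoc]; exact (hd.mul_right _).mul_right _⟩
  · obtain ⟨s, hs, hd⟩ := T.ram02 hs₂
    refine ⟨s, hs, ?_⟩
    have : s * ((s₁ * s₂) ^ (q - 1) * x) = s * s₂ * (s₁ ^ (q - 1) * s₂ ^ (q - 1 - 1) * x) := by
      conv_lhs => rw [show q - 1 = q - 1 - 1 + 1 from (Nat.sub_add_cancel T.one_le_pred).symm,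
        pow_succ]
      conv_rhs => rw [show q - 1 = q - 1 - 1 + 1 from (Nat.sub_add_cancel T.one_le_pred).symm,
        pow_succ]
      simp only [Nat.add_sub_cancel, mul_pow]
      ring
    rw [this]
    exact hd.mul_right _

/-- Points lying only on `P20` are two-generated. -/
theorem twoGenAt_only20 {m : Ideal T.B} (hm : m.IsMaximal) (h0 : RingHom.ker (T.r 0) ≤ m)
    (h1 : ¬ RingHom.ker (T.r 1) ≤ m) (h2 : ¬ RingHom.ker (T.r 2) ≤ m) : TwoGenAt m := by
  have := T.dedekind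
  obtain ⟨P, hP, hPm⟩ := T.exists_pt hm h0
  obtain ⟨t, htP, σ, hσ, hdvd⟩ := exists_uniformiser T.notField hP
  obtain ⟨t', rfl⟩ := T.r_surj 0 t
  obtain ⟨σ', rfl⟩ := T.r_surj 0 σ
  refine ⟨q, h0 (T.q_mem_ker 0), t', hPm ▸ htP, fun z hz => ?_⟩
  rw [← hPm] at hz
  obtain ⟨c, hc⟩ := hdvd _ hz
  obtain ⟨c', rfl⟩ := T.r_surj 0 c
  obtain ⟨s, hs, b, hb⟩ := T.exists_dvd_of_only20 h1 h2 (x := σ' * z - t' * c')
    (by rw [map_sub, map_mul, map_mul, hc, sub_self])
  refine ⟨s * σ', b, s * c', hm.isPrime.mul_notMem hs fun h => hσ (by rwa [← hPm] at h), ?_⟩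
  linear_combination hb

/-- The function `u` is a unit near a point lying only on `P20`. -/
theorem u_notMem {m : Ideal T.B} [m.IsPrime]
    (h1 : ¬ RingHom.ker (T.r 1) ≤ m) (h2 : ¬ RingHom.ker (T.r 2) ≤ m) : T.u ∉ m := by
  obtain ⟨v, k, huv⟩ := T.u_unit
  have hm : m.IsPrime := inferInstance
  have := T.isDomain_Rb
  suffices key : ∀ k (v s : T.B), s ∉ m → T.u * v = s * (q : T.B) ^ k → T.u ∉ m by
    exact key k v 1 hm.one_notMem (by rw [one_mul, huv])
  intro k
  induction k with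
  | zero =>
    intro v s hs e hu
    rw [pow_zero, mul_one] at e
    exact hs (e ▸ m.mul_mem_right v hu)
  | succ k ih =>
    intro v s hs e
    have hv : T.r 0 v = 0 := by
      have h := congrArg (T.r 0) e
      rw [map_mul, map_mul, map_pow, T.r_q, zero_pow k.succ_ne_zero, mul_zero, mul_eq_zero,
        T.r20_u] at h
      exact h.resolve_left (pow_ne_zero q T.p12_ne)
    obtain ⟨s', hs', v', hv'⟩ := T.exists_dvd_of_only20 h1 h2 hv
    refine ih v' (s * s') (hm.mul_notMem hs hs') (mul_left_cancel₀ T.q_ne_B ?_)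
    rw [pow_succ] at e
    linear_combination s' * e - T.u * hv'

/-- Where `p12` vanishes, the point is fixed by the square of Frobenius. -/
theorem fr_fr_mem_iff {P : Ideal Rb} (hP : P.IsMaximal) (hp : T.p12 ∈ P) (y : Rb) :
    T.Fr (T.Fr y) ∈ P ↔ y ∈ P := by
  have hm := T.pt_isMaximal 0 hP
  have hu : T.u ∈ T.pt 0 P := by
    rw [mem_pt, T.r20_u]
    exact P.pow_mem_of_mem hp q T.prime_q.pos
  have := hm.isPrime
  have hor : RingHom.ker (T.r 1) ≤ T.pt 0 P ∨ RingHom.ker (T.r 2) ≤ T.pt 0 P := by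
    by_contra h
    push Not at h
    exact T.u_notMem h.1 h.2 hu
  obtain ⟨x, rfl⟩ := T.r0_surj y
  rcases hor with h | h
  · obtain ⟨P', hP', hPP⟩ := T.exists_pt hm h
    have key : ∀ z : T.B, T.r 1 z ∈ P' ↔ T.r 0 z ∈ P := fun z => by
      rw [← T.mem_pt, hPP, T.mem_pt]
    have h0 := key (T.e 0 x)
    have h2 := key (T.e 2 x)
    rw [(T.r11_e x).1, (T.r20_e x).1] at h0
    rw [(T.r11_e x).2.2, (T.r20_e x).2.2] at h2
    exact h2.symm.trans h0
  · obtain ⟨P', hP', hPP⟩ := T.exists_pt hm h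
    have key : ∀ z : T.B, T.r 2 z ∈ P' ↔ T.r 0 z ∈ P := fun z => by
      rw [← T.mem_pt, hPP, T.mem_pt]
    have hPP' : ∀ z : Rb, z ∈ P' ↔ z ∈ P := by
      intro z
      obtain ⟨z', hz'⟩ := T.Fr_pow z
      obtain ⟨z'', rfl⟩ := T.r0_surj z'
      have h1 := key (T.e 1 z'')
      rw [T.r02_eq, (T.w_e z'').2, (T.r20_e z'').2.1, hz'] at h1
      exact (hP'.isPrime.pow_mem_iff_mem q T.prime_q.pos).symm.trans
        (h1.trans (hP.isPrime.pow_mem_iff_mem q T.prime_q.pos))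
    have h0 := key (T.e 0 x)
    rw [T.r02_eq, (T.w_e x).1, (T.r20_e x).2.2, (T.r20_e x).1, hPP'] at h0
    exact h0

end ThreeSheet

end Fermat.Agent.Conn
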