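import Fermat.Agent.Conn.SheetsRegular
import Mathlib.RingTheory.Ideal.Operations

/-!
# Orders along the three components

`HasOrd i x a` says that `x` has order `a` along the component `i`; orders exist, are unique and
are additive, and an element of order zero is a unit along the component.
-/

set_option autoImplicit false

namespace Fermat.Agent.Conn

/-- If every element of the prime `p` is locally a multiple of `π ∈ p`, every nonzero element is
locally a power of `π`. -/
theorem exists_local_power {B : Type*} [CommRing B] [IsDomain B] [IsNoetherianRing B] {p : Ideal B}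
    [p.IsPrime] {π : B} (hπ : π ∈ p) (hdvd : ∀ x ∈ p, ∃ s, s ∉ p ∧ π ∣ s * x) {x : B}
    (hx : x ≠ 0) : ∃ (k : ℕ) (s t : B), s ∉ p ∧ t ∉ p ∧ s * x = t * π ^ k := by
  have : IsNoetherianRing (Localization.AtPrime p) :=
    IsLocalization.isNoetherianRing p.primeCompl _ inferInstance
  let φ := algebraMap B (Localization.AtPrime p)
  have hφ : Function.Injective φ := IsLocalization.injective _ p.primeCompl_le_nonZeroDivisors
  have hπu : ¬ IsUnit (φ π) := fun h =>
    (IsLocalization.AtPrime.isUnit_to_map_iff (Localization.AtPrime p) p π).1 h hπ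
  obtain ⟨k, y, hy, hxy⟩ := WfDvdMonoid.max_power_factor' ((map_ne_zero_iff φ hφ).2 hx) hπu
  obtain ⟨t, s, rfl⟩ := IsLocalization.exists_mk'_eq p.primeCompl y
  refine ⟨k, s, t, s.2, fun ht => ?_, hφ ?_⟩
  · obtain ⟨u, hu, c, hc⟩ := hdvd t ht
    have hus : IsUnit (φ u) := IsLocalization.map_units (Localization.AtPrime p) (⟨u, hu⟩ : p.primeCompl)
    refine hy (hus.dvd_mul_left.1 ?_)
    rw [IsLocalization.mul_mk'_eq_mk'_of_mul, hc, ← IsLocalization.mul_mk'_eq_mk'_of_mul]
    exact dvd_mul_right _ _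
  · rw [map_mul, map_mul, map_pow, hxy, mul_left_comm, IsLocalization.mk'_spec', mul_comm]

namespace ThreeSheet

variable {W F R Rb : Type*} [CommRing W] [IsLocalRing W] [Field F]
    [Algebra W F] [CommRing R] [Algebra W R] [CommRing Rb] [Algebra W Rb] {q : ℕ}
variable (T : ThreeSheet W F R Rb q)

/-- `x` is a unit in the local ring of the component `i`. -/
def UnitAt (i : Fin 3) (x : F) : Prop :=
  ∃ s t : T.B, T.r i s ≠ 0 ∧ T.r i t ≠ 0 ∧ (s : F) * x = t

variable {T} {i : Fin 3} {x y : F}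

/-- A unit along a component is non-zero. -/
theorem UnitAt.ne_zero (h : T.UnitAt i x) : x ≠ 0 := by
  obtain ⟨s, t, hs, ht, e⟩ := h
  rintro rfl
  rw [mul_zero] at e
  exact ht (by rw [← (show (0 : T.B) = t from Subtype.ext e), map_zero])

/-- Units along a component are stable under products. -/
theorem UnitAt.mul (hx : T.UnitAt i x) (hy : T.UnitAt i y) : T.UnitAt i (x * y) := by
  have := T.isDomain_Rb
  obtain ⟨s, t, hs, ht, e⟩ := hx
  obtain ⟨s', t', hs', ht', e'⟩ := hy
  refine ⟨s * s', t * t', by rw [map_mul]; exact mul_ne_zero hs hs',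
    by rw [map_mul]; exact mul_ne_zero ht ht', ?_⟩
  rw [MulMemClass.coe_mul, MulMemClass.coe_mul, ← e, ← e']
  ring

/-- Units along a component are stable under inverses. -/
theorem UnitAt.inv (hx : T.UnitAt i x) : T.UnitAt i x⁻¹ := by
  have h0 := hx.ne_zero
  obtain ⟨s, t, hs, ht, e⟩ := hx
  exact ⟨t, s, ht, hs, by rw [← e, mul_assoc, mul_inv_cancel₀ h0, mul_one]⟩

/-- An element of `B` with non-zero reduction is a unit along the component. -/
theorem unitAt_of_r (i : Fin 3) {b : T.B} (hb : T.r i b ≠ 0) : T.UnitAt i (b : F) :=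
  ⟨1, b, by
    rw [map_one]
    have := T.isDomain_Rb
    exact one_ne_zero, hb, by rw [OneMemClass.coe_one, one_mul]⟩

variable (T)

/-- One is a unit along every component. -/
theorem unitAt_one (i : Fin 3) : T.UnitAt i (1 : F) := by
  have := T.isDomain_Rb
  simpa using T.unitAt_of_r i (b := 1) (by rw [map_one]; exact one_ne_zero)

variable {T}

/-- Units along a component are stable under powers. -/
theorem UnitAt.pow (hx : T.UnitAt i x) (n : ℕ) : T.UnitAt i (x ^ n) := by
  induction n with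
  | zero => rw [pow_zero]; exact T.unitAt_one i
  | succ n ih => rw [pow_succ]; exact ih.mul hx

variable (T)

/-- `a` is the order of `x` on the component `i`: in units of `q` on the outer components, of
`q ^ (1 / (q - 1))` on the middle one. -/
def HasOrd (i : Fin 3) (x : F) (a : ℤ) : Prop :=
  if i = 1 then T.UnitAt i (x ^ (q - 1) * (q : F) ^ (-a)) else T.UnitAt i (x * (q : F) ^ (-a))

/-- The order along an outer component is counted in powers of `q`. -/
theorem hasOrd_outer {i : Fin 3} (hi : i ≠ 1) {x : F} {a : ℤ} :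
    T.HasOrd i x a ↔ T.UnitAt i (x * (q : F) ^ (-a)) := by rw [HasOrd, if_neg hi]

/-- The order along the middle component is normalised so that `q` has order `q - 1`. -/
theorem hasOrd_mid {x : F} {a : ℤ} :
    T.HasOrd 1 x a ↔ T.UnitAt 1 (x ^ (q - 1) * (q : F) ^ (-a)) := by rw [HasOrd, if_pos rfl]

/-- Orders add under products. -/
theorem hasOrd_mul {i : Fin 3} {x y : F} {a b : ℤ} (hx : T.HasOrd i x a) (hy : T.HasOrd i y b) :
    T.HasOrd i (x * y) (a + b) := by
  have hsplit : (q : F) ^ (-(a + b)) = (q : F) ^ (-a) * (q : F) ^ (-b) := by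
    rw [← zpow_add₀ T.q_ne]; congr 1; ring
  by_cases hi : i = 1
  · subst hi
    rw [hasOrd_mid] at hx hy ⊢
    convert hx.mul hy using 1
    rw [mul_pow, hsplit]; ring
  · rw [T.hasOrd_outer hi] at hx hy ⊢
    convert hx.mul hy using 1
    rw [hsplit]; ring

/-- Orders change sign under inversion. -/
theorem hasOrd_inv {i : Fin 3} {x : F} {a : ℤ} (hx : T.HasOrd i x a) :
    T.HasOrd i x⁻¹ (-a) := by
  by_cases hi : i = 1
  · subst hi
    rw [hasOrd_mid] at hx ⊢
    convert hx.inv using 1
    rw [mul_inv, inv_pow, ← zpow_neg]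
  · rw [T.hasOrd_outer hi] at hx ⊢
    convert hx.inv using 1
    rw [mul_inv, ← zpow_neg]

/-- Units have order zero. -/
theorem hasOrd_of_unitAt {i : Fin 3} {x : F} (hx : T.UnitAt i x) : T.HasOrd i x 0 := by
  by_cases hi : i = 1
  · subst hi
    rw [hasOrd_mid, neg_zero, zpow_zero, mul_one]
    exact hx.pow _
  · rw [T.hasOrd_outer hi, neg_zero, zpow_zero, mul_one]
    exact hx

theorem hasOrd_one (i : Fin 3) : T.HasOrd i 1 0 := T.hasOrd_of_unitAt (T.unitAt_one i)

/-- The orders of `q` are `1`, `q - 1`, `1`. -/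
theorem hasOrd_q (i : Fin 3) :
    T.HasOrd i (q : F) (if i = 1 then ((q - 1 : ℕ) : ℤ) else 1) := by
  by_cases hi : i = 1
  · subst hi
    rw [if_pos rfl, hasOrd_mid, zpow_neg, zpow_natCast, mul_inv_cancel₀ (pow_ne_zero _ T.q_ne)]
    exact T.unitAt_one 1
  · rw [if_neg hi, T.hasOrd_outer hi, zpow_neg_one, mul_inv_cancel₀ T.q_ne]
    exact T.unitAt_one i

/-- Orders are multiplied by `n` under `n`-th powers. -/
theorem hasOrd_pow {i : Fin 3} {x : F} {a : ℤ} (hx : T.HasOrd i x a) (n : ℕ) :
    T.HasOrd i (x ^ n) ((n : ℤ) * a) := by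
  induction n with
  | zero => rw [pow_zero, Nat.cast_zero, zero_mul]; exact T.hasOrd_one i
  | succ n ih =>
    rw [pow_succ, Nat.cast_succ, add_mul, one_mul]
    exact T.hasOrd_mul ih hx

/-- Orders are multiplied by `n` under integral powers. -/
theorem hasOrd_zpow {i : Fin 3} {x : F} {a : ℤ} (hx : T.HasOrd i x a) (n : ℤ) :
    T.HasOrd i (x ^ n) (n * a) := by
  cases n with
  | ofNat k => simpa using T.hasOrd_pow hx k
  | negSucc k =>
    rw [zpow_negSucc, Int.negSucc_eq, neg_mul, ← Nat.cast_succ]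
    exact T.hasOrd_inv (T.hasOrd_pow hx _)

/-- The order is unique. -/
theorem hasOrd_unique {i : Fin 3} {x : F} {a b : ℤ} (ha : T.HasOrd i x a) (hb : T.HasOrd i x b) :
    a = b := by
  have key : ∀ k : ℤ, T.UnitAt i ((q : F) ^ k) → k = 0 := by
    intro k hk
    wlog hk0 : 0 ≤ k generalizing k
    · have := this (-k) (by rw [zpow_neg]; exact hk.inv) (by omega)
      omega
    lift k to ℕ using hk0
    obtain ⟨s, t, hs, ht, e⟩ := hk
    rw [zpow_natCast] at e
    rcases Nat.eq_zero_or_pos k with rfl | hk1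
    · rfl
    · refine absurd ?_ ht
      rw [← (show s * (q : T.B) ^ k = t from Subtype.ext (by push_cast; exact e)), map_mul,
        map_pow, T.r_q, zero_pow hk1.ne', mul_zero]
  have hx0 : x ≠ 0 := by
    rintro rfl
    by_cases hi : i = 1
    · subst hi
      rw [hasOrd_mid, zero_pow (by have := T.prime_q.two_le; omega), zero_mul] at ha
      exact ha.ne_zero rfl
    · rw [T.hasOrd_outer hi, zero_mul] at ha
      exact ha.ne_zero rfl
  have h : T.UnitAt i ((q : F) ^ (b - a)) := by
    by_cases hi : i = 1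
    · subst hi
      rw [hasOrd_mid] at ha hb
      convert ha.mul hb.inv using 1
      rw [zpow_sub₀ T.q_ne, zpow_neg, zpow_neg]
      field_simp
    · rw [T.hasOrd_outer hi] at ha hb
      convert ha.mul hb.inv using 1
      rw [zpow_sub₀ T.q_ne, zpow_neg, zpow_neg]
      field_simp
  have := key _ h
  omega

theorem unitAt_of_hasOrd_zero {i : Fin 3} (hi : i ≠ 1) {x : F} (hx : T.HasOrd i x 0) :
    T.UnitAt i x := by
  rwa [T.hasOrd_outer hi, neg_zero, zpow_zero, mul_one] at hx

/-- Every nonzero element has an order; on the middle component elements of order `0` are units. -/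
theorem exists_hasOrd (i : Fin 3) {x : F} (hx : x ≠ 0) :
    ∃ a : ℤ, T.HasOrd i x a ∧ (a = 0 → T.UnitAt i x) := by
  have := T.noetherian
  have hB : ∀ b : T.B, b ≠ 0 → ∃ a : ℕ, T.HasOrd i (b : F) a ∧ (a = 0 → T.UnitAt i (b : F)) := by
    intro b hb
    have := T.isDomain_Rb
    have := T.ker_prime i
    by_cases hi : i = 1
    · subst hi
      obtain ⟨P, hP, hp⟩ := T.ordinary
      obtain ⟨s₁, b₁, hs₁, hb₁, hmid⟩ := T.mid P hP hp
      obtain ⟨k, s, t, hs, ht, e⟩ := exists_local_power (p := RingHom.ker (T.r 1))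
        (π := T.e 2 T.h - T.e 0 T.h)
        (show T.r 1 _ = 0 by rw [map_sub, (T.r11_e _).2.2, (T.r11_e _).1, sub_self])
        (fun y hy => by
          obtain ⟨σ, w, hσ, hσw⟩ := T.exists_mid_dvd hb₁ hmid y hy
          exact ⟨σ, hσ, w, hσw⟩) hb
      refine ⟨k, ?_, fun hk => ⟨s, t, hs, ht, ?_⟩⟩
      · rw [hasOrd_mid, zpow_neg, zpow_natCast]
        refine ⟨s ^ (q - 1) * s₁ ^ k, t ^ (q - 1) * b₁ ^ k, ?_, ?_, ?_⟩
        · rw [map_mul, map_pow, map_pow]
          exact mul_ne_zero (pow_ne_zero _ hs) (pow_ne_zero _ fun h => hs₁ (h ▸ zero_mem P))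
        · rw [map_mul, map_pow, map_pow]
          exact mul_ne_zero (pow_ne_zero _ ht) (pow_ne_zero _ fun h => hb₁ (h ▸ zero_mem P))
        · rw [← mul_assoc, eq_comm, eq_mul_inv_iff_mul_eq₀ (pow_ne_zero _ T.q_ne)]
          have h : s ^ (q - 1) * s₁ ^ k * b ^ (q - 1) =
              t ^ (q - 1) * b₁ ^ k * (q : T.B) ^ k := by
            rw [mul_right_comm, ← mul_pow, e, mul_pow, ← pow_mul, mul_comm k, pow_mul, mul_assoc,
              ← mul_pow, mul_comm _ s₁, hmid, mul_pow]
            ring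
          exact_mod_cast (congrArg Subtype.val h).symm
      · subst hk
        rw [pow_zero, mul_one] at e
        exact congrArg Subtype.val e
    · have hdvd : ∀ y ∈ RingHom.ker (T.r i), ∃ s, s ∉ RingHom.ker (T.r i) ∧ (q : T.B) ∣ s * y := by
        intro y hy
        fin_cases i
        · exact T.ram20 y hy
        · exact absurd rfl hi
        · exact T.ram02 hy
      obtain ⟨k, s, t, hs, ht, e⟩ :=
        exists_local_power (π := (q : T.B)) (T.q_mem_ker i) hdvd hb
      have hu : T.UnitAt i ((b : F) * (q : F) ^ (-(k : ℤ))) := by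
        refine ⟨s, t, hs, ht, ?_⟩
        rw [zpow_neg, zpow_natCast, ← mul_assoc, mul_inv_eq_iff_eq_mul₀ (pow_ne_zero _ T.q_ne)]
        exact_mod_cast congrArg Subtype.val e
      refine ⟨k, (T.hasOrd_outer hi).2 hu, fun hk => ?_⟩
      subst hk
      simpa using hu
  obtain ⟨d, hd, hdx⟩ := T.frac x
  have hn : (⟨_, hdx⟩ : T.B) ≠ 0 := fun h => by
    have h' : (d : F) * x = 0 := congrArg Subtype.val h
    exact hd (Subtype.ext ((mul_eq_zero.1 h').resolve_right hx))
  obtain ⟨a, ha, hau⟩ := hB _ hn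
  obtain ⟨c, hc, hcu⟩ := hB d hd
  have hxx : ((⟨_, hdx⟩ : T.B) : F) * (d : F)⁻¹ = x := by
    show (d : F) * x * (d : F)⁻¹ = x
    rw [mul_comm (d : F), mul_inv_cancel_right₀ fun h => hd (Subtype.ext h)]
  refine ⟨(a : ℤ) + -(c : ℤ), hxx ▸ T.hasOrd_mul ha (T.hasOrd_inv hc), fun h0 => ?_⟩
  -- two elements of the same order differ by a unit
  have hac : a = c := by omega
  subst hac
  by_cases hi : i = 1
  · subst hi
    obtain ⟨P, hP, hp⟩ := T.ordinary
    obtain ⟨s₁, b₁, hs₁, hb₁, hmid⟩ := T.mid P hP hp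
    obtain ⟨b, hb⟩ : ∃ b : T.B, (b : F) = (d : F) * x := ⟨⟨_, hdx⟩, rfl⟩
    have hz : T.UnitAt 1 (((d : F) * x) ^ (q - 1) * ((d : F) ^ (q - 1))⁻¹) := by
      rw [hasOrd_mid] at ha hc
      convert ha.mul hc.inv using 1
      have : (q : F) ^ (-(a : ℤ)) ≠ 0 := zpow_ne_zero _ T.q_ne
      field_simp
    have hx' : x ^ (q - 1) = ((d : F) * x) ^ (q - 1) * ((d : F) ^ (q - 1))⁻¹ := by
      rw [mul_pow, mul_comm ((d : F) ^ _), mul_inv_cancel_right₀]
      exact pow_ne_zero _ fun h => hd (Subtype.ext h)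
    rw [← hx'] at hz
    obtain ⟨s, t, hs, ht, e⟩ := hz
    have hint : ∀ (y : F) (s t : T.B), T.r 1 s ≠ 0 → (s : F) * y ^ (q - 1) = t →
        ∃ c : T.B, (c : F) = (s : F) * y := by
      intro y s t _ hy
      refine ⟨⟨_, T.closed _ (IsIntegral.of_pow (show 0 < q - 1 from T.one_le_pred) ?_)⟩, rfl⟩
      rw [mul_pow, ← pow_sub_one_mul (show q - 1 ≠ 0 by have := T.one_le_pred; omega) (s : F),
        mul_assoc, hy, ← SubmonoidClass.coe_pow, ← MulMemClass.coe_mul]
      exact isIntegral_algebraMap (R := T.B) (A := F) (x := s ^ (q - 1 - 1) * t)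
    obtain ⟨u, hu⟩ := hint x s t hs e
    have hur : T.r 1 u ≠ 0 := by
      intro hu0
      have h' : u ^ (q - 1) = s ^ (q - 1 - 1) * t := Subtype.ext (by
        push_cast
        rw [hu, mul_pow, ← pow_sub_one_mul (show q - 1 ≠ 0 by have := T.one_le_pred; omega) (s : F),
          mul_assoc, e])
      have := T.isDomain_Rb
      have h'' := congrArg (T.r 1) h'
      rw [map_pow, hu0, zero_pow (by have := T.one_le_pred; omega), map_mul, map_pow] at h''
      exact mul_ne_zero (pow_ne_zero _ hs) ht h''.symm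
    exact ⟨s, u, hs, hur, hu.symm⟩
  · have h := T.hasOrd_mul ha (T.hasOrd_inv hc)
    rw [hxx, add_neg_cancel] at h
    exact T.unitAt_of_hasOrd_zero hi h

/-- An element of order zero is a unit along the component. -/
theorem unitAt_of_hasOrd {i : Fin 3} {x : F} (hx : x ≠ 0) (h : T.HasOrd i x 0) :
    T.UnitAt i x := by
  obtain ⟨a, ha, hu⟩ := T.exists_hasOrd i hx
  exact hu (T.hasOrd_unique ha h)

end ThreeSheet

end Fermat.Agent.Conn
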