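import Fermat.Agent.Conn.SheetsResidue

/-!
# Local roots at the closed points and the relations at the crossings

Near a closed point `x = g ^ n` up to a unit; the residues of the roots on the components through
the point differ from `g` by elements with unit values.  At a crossing the norm relates the values.
-/

set_option autoImplicit false

noncomputable section

namespace Fermat.Agent.Conn

namespace ThreeSheet

variable {W F R Rb : Type*} [CommRing W] [IsLocalRing W] [Field F]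
    [Algebra W F] [CommRing R] [Algebra W R] [CommRing Rb] [IsDomain Rb] [Algebra W Rb] {q : ℕ}
variable (T : ThreeSheet W F R Rb q)

open IsLocalRing (residue)

omit [IsDomain Rb] in
theorem residue_eq_of_sub_mem_base {P : Ideal Rb} (hP : P ≠ ⊤) {a b : W}
    (h : algebraMap W Rb a - algebraMap W Rb b ∈ P) : residue W a = residue W b := by
  rw [← sub_eq_zero, ← map_sub, IsLocalRing.residue_eq_zero_iff]
  by_contra hn
  rw [IsLocalRing.notMem_maximalIdeal] at hn
  rw [← map_sub] at h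
  exact hP (Ideal.eq_top_of_isUnit_mem P h (hn.map _))

omit [IsDomain Rb] in
theorem residue_eq_zero_of_mem {m : Ideal T.B} (hm : m ≠ ⊤) {a : W}
    (h : algebraMap W T.B a ∈ m) : residue W a = 0 := by
  rw [IsLocalRing.residue_eq_zero_iff]
  by_contra hn
  rw [IsLocalRing.notMem_maximalIdeal] at hn
  exact hm (Ideal.eq_top_of_isUnit_mem m h (hn.map _))

omit [IsDomain Rb] in
/-- Constants with zero residue lie in every point over `q`. -/
theorem mem_of_residue_eq_zero {m : Ideal T.B} (hq : (q : T.B) ∈ m) {a : W}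
    (h : residue W a = 0) : algebraMap W T.B a ∈ m := by
  rw [IsLocalRing.residue_eq_zero_iff, T.maximal_W, Ideal.mem_span_singleton] at h
  obtain ⟨d, rfl⟩ := h
  rw [map_mul, map_natCast]
  exact m.mul_mem_right _ hq

omit [IsDomain Rb] in
/-- The value of an element at a closed point of the special fibre. -/
theorem exists_value {m : Ideal T.B} (hm : m.IsMaximal) (hq : (q : T.B) ∈ m) (b : T.B) :
    ∃ c : W, b - algebraMap W T.B c ∈ m ∧ (b ∉ m → IsUnit c) := by
  obtain ⟨i, hi⟩ := T.cover m hm.isPrime hq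
  obtain ⟨P, hP, hPm⟩ := T.exists_pt hm hi
  obtain ⟨c, hc⟩ := T.exists_const hP i b
  rw [hPm] at hc
  refine ⟨c, hc, fun hb => ?_⟩
  by_contra hcu
  refine hb ?_
  have h := m.add_mem hc (T.mem_of_residue_eq_zero hq (a := c) (by
    rw [IsLocalRing.residue_eq_zero_iff, IsLocalRing.mem_maximalIdeal]; exact hcu))
  rwa [sub_add_cancel] at h

/-- Local root data at a closed point of the special fibre. -/
theorem exists_point_data [IsNoetherianRing W] {n : ℕ} (hn : 0 < n) {x : F}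
    (hx : ∀ i, T.UnitAt i x) (G : Fin 3 → F)
    (hG : ∀ i, T.UnitAt i (G i) ∧ T.res i (G i) ^ n = T.res i x)
    (hdiv : ∀ p : Ideal T.B, p.IsPrime → (q : T.B) ∉ p → ∃ (g : F) (s t : T.B),
      s ∉ p ∧ t ∉ p ∧ (s : F) * x = (t : F) * g ^ n)
    {m : Ideal T.B} (hm : m.IsMaximal) (hq : (q : T.B) ∈ m) :
    ∃ (g : F) (s t : T.B) (u : Fin 3 → T.B) (cs : W) (c : Fin 3 → W) (c₀ : W),
      g ≠ 0 ∧ s ∉ m ∧ t ∉ m ∧ (s : F) * x = (t : F) * g ^ n ∧
      IsUnit cs ∧ s - algebraMap W T.B cs ∈ m ∧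
      ∀ i, RingHom.ker (T.r i) ≤ m → T.UnitAt i g ∧
        T.res i (G i) * T.phi i s = T.phi i (u i) * T.res i g ∧
        IsUnit (c i) ∧ u i - algebraMap W T.B (c i) ∈ m ∧ residue W (c i) ^ n = residue W c₀ := by
  have := T.dedekind
  obtain ⟨d, hd, hdx⟩ := T.frac x
  have hdF : (d : F) ≠ 0 := T.ne_zero_of_coe hd
  have hx0 : x ≠ 0 := (hx 0).ne_zero
  set b : T.B := d ^ (n - 1) * ⟨_, hdx⟩ with hb
  have hbF : (b : F) = (d : F) ^ n * x := by
    rw [hb, MulMemClass.coe_mul, SubmonoidClass.coe_pow]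
    show (d : F) ^ (n - 1) * ((d : F) * x) = _
    rw [← mul_assoc, pow_sub_one_mul hn.ne']
  have hb0 : b ≠ 0 := fun h => mul_ne_zero (pow_ne_zero n hdF) hx0 (hbF ▸ congrArg Subtype.val h)
  obtain ⟨g, s, t, hs, ht, e⟩ := T.exists_root_at hm hq hn hb0 (fun i => by
    obtain ⟨s, t, hs, ht, e⟩ := hx i
    exact ⟨(d : F), s, t, hs, ht, by rw [hbF, ← e]; ring⟩) (fun p hp hqp => by
    obtain ⟨g, s, t, hs, ht, e⟩ := hdiv p hp hqp
    exact ⟨(d : F) * g, s, t, hs, ht, by rw [hbF, mul_pow, mul_left_comm, e]; ring⟩)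
  rw [hbF] at e
  have e' : (s : F) * x = (t : F) * (g / (d : F)) ^ n := by
    rw [div_pow, ← mul_div_assoc, ← e, eq_div_iff (pow_ne_zero n hdF)]
    ring
  have hs0 : (s : F) ≠ 0 := T.ne_zero_of_coe fun h => hs (h ▸ zero_mem m)
  have hg : g / (d : F) ≠ 0 := fun h0 => by
    rw [h0, zero_pow hn.ne', mul_zero] at e'
    exact mul_ne_zero hs0 hx0 e'
  obtain ⟨cs, hcs, hcsu⟩ := T.exists_value hm hq s
  obtain ⟨ct, hct, hctu⟩ := T.exists_value hm hq t
  have key : ∀ i, ∃ (u : T.B) (c : W), RingHom.ker (T.r i) ≤ m → T.UnitAt i (g / (d : F)) ∧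
      T.res i (G i) * T.phi i s = T.phi i u * T.res i (g / (d : F)) ∧
      IsUnit c ∧ u - algebraMap W T.B c ∈ m ∧
      residue W c ^ n = residue W (ct * cs ^ (n - 1)) := by
    intro i
    by_cases hi : RingHom.ker (T.r i) ≤ m
    swap
    · exact ⟨0, 0, fun h => absurd h hi⟩
    have hsi : T.r i s ≠ 0 := fun h => hs (hi h)
    have hti : T.r i t ≠ 0 := fun h => ht (hi h)
    have hgi : T.UnitAt i (g / (d : F)) := T.unitAt_of_pow hn (by
      have htF : (t : F) ≠ 0 := T.ne_zero_of_coe fun h => ht (h ▸ zero_mem m)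
      rw [← mul_div_cancel_left₀ ((g / (d : F)) ^ n) htF, ← e', div_eq_mul_inv]
      exact ((T.unitAt_of_r i hsi).mul (hx i)).mul (T.unitAt_of_r i hti).inv)
    have hres : T.phi i s * T.res i x = T.phi i t * T.res i (g / (d : F)) ^ n := by
      rw [← T.res_coe, ← T.res_coe, ← res_pow hgi, ← res_mul (T.unitAt_of_r i hsi) (hx i),
        ← res_mul (T.unitAt_of_r i hti) (hgi.pow n), e']
    set z := T.res i (G i) * T.phi i s / T.res i (g / (d : F)) with hz
    have hzn : z ^ n = algebraMap Rb (FractionRing Rb) (T.r i (t * s ^ (n - 1))) := by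
      rw [← phi_apply, hz, div_pow, mul_pow, (hG i).2, div_eq_iff (pow_ne_zero n (res_ne_zero hgi)),
        map_mul, map_pow]
      have hpow : T.phi i s ^ n = T.phi i s ^ (n - 1) * T.phi i s := by
        rw [pow_sub_one_mul hn.ne']
      rw [hpow]
      linear_combination T.phi i s ^ (n - 1) * hres
    obtain ⟨u₀, hu₀⟩ := IsIntegrallyClosed.isIntegral_iff.1
      (IsIntegral.of_pow hn (hzn ▸ isIntegral_algebraMap : IsIntegral Rb (z ^ n)))
    obtain ⟨u, rfl⟩ := T.r_surj i u₀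
    obtain ⟨c, hc, hcu⟩ := T.exists_value hm hq u
    have hker : u ^ n - t * s ^ (n - 1) ∈ m := hi (by
      rw [RingHom.mem_ker, map_sub, map_pow, sub_eq_zero]
      apply IsFractionRing.injective Rb (FractionRing Rb)
      rw [map_pow, hu₀, hzn])
    have hum : u ∉ m := fun h => by
      have h' := m.sub_mem (m.pow_mem_of_mem h n hn) hker
      rw [sub_sub_cancel] at h'
      exact hm.isPrime.mul_notMem ht (fun h'' => hs (hm.isPrime.mem_of_pow_mem _ h'')) h'
    refine ⟨u, c, fun _ => ⟨hgi, ?_, hcu hum, hc, ?_⟩⟩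
    · rw [phi_apply _ _ u, hu₀, hz, div_mul_cancel₀ _ (res_ne_zero hgi)]
    · rw [← map_pow, ← sub_eq_zero, ← map_sub]
      refine T.residue_eq_zero_of_mem hm.ne_top ?_
      rw [← Ideal.Quotient.eq_zero_iff_mem]
      have h₁ := Ideal.Quotient.eq.2 hc
      have h₂ := Ideal.Quotient.eq.2 hct
      have h₃ := Ideal.Quotient.eq.2 hcs
      have h₄ := Ideal.Quotient.eq.2 hker
      rw [map_pow, map_mul, map_pow, h₁, h₂, h₃] at h₄
      simp only [map_sub, map_mul, map_pow, h₄, sub_self]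
  choose u c h using key
  exact ⟨g / (d : F), s, t, u, cs, c, ct * cs ^ (n - 1), hg, hs, ht, e', hcsu hs, hcs, h⟩

/-- The norm relates the values of the roots at a crossing. -/
theorem crossing_rel [IsNoetherianRing W] {n : ℕ} (hn : 0 < n) {x : F} {G : Fin 3 → F}
    {c₃ : W} {gN : F} (hc₃ : IsUnit c₃) (hgN : ∀ i, T.UnitAt i gN)
    (hN : T.NAF x = algebraMap W F c₃ * gN ^ n) {l₀ l₂ : W}
    (h0 : T.res 0 (G 0) * T.res 1 (G 1) ^ (q - 1) = T.cK l₀ * T.res 0 gN)
    (h2 : T.res 2 (G 2) ^ q = T.cK l₂ * T.res 2 gN)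
    {m : Ideal T.B} (hm : m.IsMaximal) (hle : ∀ i, RingHom.ker (T.r i) ≤ m)
    {g : F} {s t : T.B} (hs : s ∉ m) (e : (s : F) * x = (t : F) * g ^ n)
    {u : Fin 3 → T.B} {c : Fin 3 → W} (hg : ∀ i, T.UnitAt i g)
    (hu : ∀ i, T.res i (G i) * T.phi i s = T.phi i (u i) * T.res i g)
    (hc : ∀ i, u i - algebraMap W T.B (c i) ∈ m) :
    residue W l₂ * residue W (c 0) * residue W (c 1) ^ (q - 1) =
      residue W l₀ * residue W (c 2) ^ q := by
  obtain ⟨P, hP, hp, hPm⟩ := T.exists_crossing hm (show (0 : Fin 3) ≠ 1 by decide) (hle 0) (hle 1)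
  have hpt : ∀ (i : Fin 3) (b : T.B), b ∈ m ↔ T.r i b ∈ P := fun i b => by
    rw [← hPm, ← T.pt_eq hP hp i, mem_pt]
  obtain ⟨hs0, -, hs2⟩ := T.NA_res s fun i h => hs (hle i h)
  obtain ⟨hgu, hg0, -, hg2⟩ := T.res_NAF hg
  have hgN0 : T.NAF g ≠ 0 := (hgu 0).ne_zero
  have eN : (T.NA s : F) * T.NAF x = (T.NA t : F) * T.NAF g ^ n := by
    rw [← T.NAF_coe, ← T.NAF_coe, ← T.NAF_mul, e, T.NAF_mul, T.NAF_pow]
  obtain ⟨d, hd⟩ := hc₃.exists_left_inv
  have hint : IsIntegral T.B ((T.NA s : F) * gN / T.NAF g) := by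
    refine IsIntegral.of_pow hn ?_
    have h : ((T.NA s : F) * gN / T.NAF g) ^ n =
        ((algebraMap W T.B d * T.NA s ^ (n - 1) * T.NA t : T.B) : F) := by
      have hd' : algebraMap W F d * algebraMap W F c₃ = 1 := by rw [← map_mul, hd, map_one]
      rw [div_pow, mul_pow, div_eq_iff (pow_ne_zero n hgN0), MulMemClass.coe_mul,
        MulMemClass.coe_mul, SubmonoidClass.coe_pow,
        show ((algebraMap W T.B d : T.B) : F) = algebraMap W F d from rfl,
        ← pow_sub_one_mul hn.ne' (T.NA s : F)]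
      linear_combination (algebraMap W F d * (T.NA s : F) ^ (n - 1)) * eN -
        (algebraMap W F d * (T.NA s : F) ^ (n - 1) * (T.NA s : F)) * hN -
        ((T.NA s : F) ^ (n - 1) * (T.NA s : F) * gN ^ n) * hd'
    rw [h]
    exact isIntegral_algebraMap (R := T.B) (A := F) (x := algebraMap W T.B d * T.NA s ^ (n - 1) * T.NA t)
  obtain ⟨X, hX⟩ : ∃ X : T.B, (X : F) = (T.NA s : F) * gN / T.NAF g :=
    ⟨⟨_, T.closed _ hint⟩, rfl⟩
  have hres : ∀ i, T.phi i X * T.res i (T.NAF g) = T.phi i (T.NA s) * T.res i gN := fun i => by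
    have heq : (X : F) * T.NAF g = (T.NA s : F) * gN := by rw [hX, div_mul_cancel₀ _ hgN0]
    have hinj : Function.Injective (algebraMap T.B F) := T.coe_injective
    rw [← T.res_coe, ← T.res_coe]
    show resFrac _ _ * resFrac _ _ = resFrac _ _ * resFrac _ _
    have hloc : ∀ b : T.B, InLoc (RingHom.ker (T.phi i)) (b : F) := fun b =>
      have := RingHom.ker_isPrime (T.phi i)
      inLoc_algebraMap (L := F) b
    rw [← resFrac_mul hinj (hloc X) (hgu i).inLoc, heq,
      resFrac_mul hinj (hloc (T.NA s)) (hgN i).inLoc]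
  have e0 : algebraMap W Rb l₀ * T.r 0 X = T.r 0 (u 0) * T.r 1 (u 1) ^ (q - 1) := by
    refine IsFractionRing.injective Rb (FractionRing Rb) (mul_right_cancel₀
      (mul_ne_zero (res_ne_zero (hg 0)) (pow_ne_zero (q - 1) (res_ne_zero (hg 1)))) ?_)
    rw [map_mul, map_mul, map_pow, ← phi_apply, ← phi_apply, ← phi_apply,
      show algebraMap Rb (FractionRing Rb) (algebraMap W Rb l₀) = T.cK l₀ from rfl]
    have hphi : T.phi 0 (T.NA s) = T.phi 0 s * T.phi 1 s ^ (q - 1) := by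
      rw [phi_apply, hs0, map_mul, map_pow]; rfl
    calc T.cK l₀ * T.phi 0 X * (T.res 0 g * T.res 1 g ^ (q - 1))
        = T.cK l₀ * (T.phi 0 X * T.res 0 (T.NAF g)) := by rw [hg0]; ring
      _ = T.phi 0 s * T.phi 1 s ^ (q - 1) * (T.cK l₀ * T.res 0 gN) := by rw [hres 0, hphi]; ring
      _ = T.res 0 (G 0) * T.phi 0 s * (T.res 1 (G 1) * T.phi 1 s) ^ (q - 1) := by
        rw [← h0, mul_pow]; ring
      _ = _ := by rw [hu 0, hu 1, mul_pow]; ring
  have e2 : algebraMap W Rb l₂ * T.r 2 X = T.r 2 (u 2) ^ q := by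
    refine IsFractionRing.injective Rb (FractionRing Rb) (mul_right_cancel₀
      (pow_ne_zero q (res_ne_zero (hg 2))) ?_)
    rw [map_mul, map_pow, ← phi_apply, ← phi_apply,
      show algebraMap Rb (FractionRing Rb) (algebraMap W Rb l₂) = T.cK l₂ from rfl]
    have hphi : T.phi 2 (T.NA s) = T.phi 2 s ^ q := by rw [phi_apply, hs2, map_pow]; rfl
    calc T.cK l₂ * T.phi 2 X * T.res 2 g ^ q
        = T.cK l₂ * (T.phi 2 X * T.res 2 (T.NAF g)) := by rw [hg2]; ring
      _ = T.phi 2 s ^ q * (T.cK l₂ * T.res 2 gN) := by rw [hres 2, hphi]; ring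
      _ = (T.res 2 (G 2) * T.phi 2 s) ^ q := by rw [← h2, mul_pow]; ring
      _ = _ := by rw [hu 2, mul_pow]
  obtain ⟨cX, hcX, -⟩ := T.exists_value hm ((hle 0) (T.q_mem_ker 0)) X
  set π := Ideal.Quotient.mk P
  have hv : ∀ (i : Fin 3) (b : T.B) (a : W), b - algebraMap W T.B a ∈ m →
      π (T.r i b) = π (algebraMap W Rb a) := fun i b a h => by
    have h' := (hpt i _).1 h
    rw [map_sub, AlgHom.commutes] at h'
    exact Ideal.Quotient.eq.2 h'
  have hr : ∀ a b : W, π (algebraMap W Rb a) = π (algebraMap W Rb b) →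
      residue W a = residue W b := fun a b h =>
    residue_eq_of_sub_mem_base hP.ne_top (Ideal.Quotient.eq.1 h)
  have r0 := congrArg π e0
  have r2 := congrArg π e2
  rw [map_mul, map_mul, map_pow, hv 0 X cX hcX, hv 0 _ _ (hc 0), hv 1 _ _ (hc 1), ← map_mul,
    ← map_mul, ← map_pow, ← map_pow, ← map_mul, ← map_mul] at r0
  rw [map_mul, map_pow, hv 2 X cX hcX, hv 2 _ _ (hc 2), ← map_mul,
    ← map_mul, ← map_pow, ← map_pow] at r2
  have k0 := hr _ _ r0
  have k2 := hr _ _ r2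
  rw [map_mul, map_mul, map_pow] at k0
  rw [map_mul, map_pow] at k2
  linear_combination residue W l₀ * k2 - residue W l₂ * k0

end ThreeSheet

end Fermat.Agent.Conn
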