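import Fermat.Agent.Conn.SheetsMid

/-!
# The three-component model is locally factorial along the special fibre
-/

set_option autoImplicit false

namespace Fermat.Agent.Conn

namespace ThreeSheet

variable {W F R Rb : Type*} [CommRing W] [IsLocalRing W] [Field F]
    [Algebra W F] [CommRing R] [Algebra W R] [CommRing Rb] [Algebra W Rb] {q : ℕ}
variable (T : ThreeSheet W F R Rb q)

theorem p12_mem_of_two {P : Ideal Rb} (hP : P.IsMaximal)
    (h : RingHom.ker (T.r 1) ≤ T.pt 0 P ∨ RingHom.ker (T.r 2) ≤ T.pt 0 P) : T.p12 ∈ P := by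
  have hu : T.u ∈ T.pt 0 P := h.elim (fun h => h T.r11_u) fun h => h T.r02_u
  rw [mem_pt, T.r20_u] at hu
  exact hP.isPrime.mem_of_pow_mem q hu

theorem ker_one_comap_w : (RingHom.ker (T.r 1)).comap T.w = RingHom.ker (T.r 1) := by
  ext x
  rw [Ideal.mem_comap, RingHom.mem_ker, RingHom.mem_ker, T.r11_w]

/-- Two components at a point: all three meet there, at a supersingular point. -/
theorem exists_crossing [IsNoetherianRing W] {m : Ideal T.B} (hm : m.IsMaximal) {i j : Fin 3}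
    (hij : i ≠ j)
    (hi : RingHom.ker (T.r i) ≤ m) (hj : RingHom.ker (T.r j) ≤ m) :
    ∃ P : Ideal Rb, P.IsMaximal ∧ T.p12 ∈ P ∧ T.pt 0 P = m := by
  by_cases h0 : RingHom.ker (T.r 0) ≤ m
  · obtain ⟨P, hP, hPm⟩ := T.exists_pt hm h0
    refine ⟨P, hP, T.p12_mem_of_two hP ?_, hPm⟩
    rw [hPm]
    have hk : ∀ k : Fin 3, k ≠ 0 → k = 1 ∨ k = 2 := by decide
    rcases eq_or_ne i 0 with rfl | hi0
    · rcases hk j hij.symm with rfl | rfl
      exacts [Or.inl hj, Or.inr hj]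
    · rcases hk i hi0 with rfl | rfl
      exacts [Or.inl hi, Or.inr hi]
  · have hk : ∀ a b : Fin 3, a ≠ b → a ≠ 0 → b ≠ 0 → a = 1 ∧ b = 2 ∨ a = 2 ∧ b = 1 := by decide
    have h12 : RingHom.ker (T.r 1) ≤ m ∧ RingHom.ker (T.r 2) ≤ m := by
      rcases hk i j hij (fun e => h0 (e ▸ hi)) (fun e => h0 (e ▸ hj)) with ⟨rfl, rfl⟩ | ⟨rfl, rfl⟩
      exacts [⟨hi, hj⟩, ⟨hj, hi⟩]
    let m' : Ideal T.B := m.comap T.w
    have hm' : m'.IsMaximal := Ideal.comap_isMaximal_of_surjective _ T.w.surjective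
    have h0' : RingHom.ker (T.r 0) ≤ m' := fun x hx => h12.2 (show T.w x ∈ RingHom.ker (T.r 2) by
      rw [RingHom.mem_ker, T.r02_eq, T.w_w]; exact hx)
    obtain ⟨P, hP, hPm⟩ := T.exists_pt hm' h0'
    have hp : T.p12 ∈ P := T.p12_mem_of_two hP (Or.inl (by
      rw [hPm]
      exact fun x hx => h12.1 (show T.w x ∈ RingHom.ker (T.r 1) by
        rw [RingHom.mem_ker, T.r11_w]; exact hx)))
    refine ⟨P, hP, hp, ?_⟩
    rw [← T.pt_eq hP hp 2, T.pt_two, hPm]
    ext x
    simp [m', T.w_w]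

theorem twoGenAt_comap_w {m : Ideal T.B} (h : TwoGenAt (m.comap T.w)) : TwoGenAt m := by
  obtain ⟨x, hx, y, hy, hgen⟩ := h
  refine ⟨T.w x, hx, T.w y, hy, fun z hz => ?_⟩
  obtain ⟨s, a, b, hs, e⟩ := hgen (T.w z) (by rwa [Ideal.mem_comap, T.w_w])
  refine ⟨T.w s, T.w a, T.w b, hs, ?_⟩
  have h' := congrArg T.w e
  rwa [map_mul, map_add, map_mul, map_mul, T.w_w] at h'

/-- Every closed point of the special fibre is two-generated. -/
theorem twoGenAt [IsNoetherianRing W] {m : Ideal T.B} (hm : m.IsMaximal) (hq : (q : T.B) ∈ m) :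
    TwoGenAt m := by
  by_cases hc : ∃ i j : Fin 3, i ≠ j ∧ RingHom.ker (T.r i) ≤ m ∧ RingHom.ker (T.r j) ≤ m
  · obtain ⟨i, j, hij, hi, hj⟩ := hc
    obtain ⟨P, hP, hp, hPm⟩ := T.exists_crossing hm hij hi hj
    exact hPm ▸ T.twoGenAt_crossing hP hp
  · push Not at hc
    obtain ⟨i, hi⟩ := T.cover m hm.isPrime hq
    fin_cases i
    · exact T.twoGenAt_only20 hm hi (hc 0 1 (by decide) hi) (hc 0 2 (by decide) hi)
    · exact T.twoGenAt_only11 hm hi (hc 1 0 (by decide) hi) (hc 1 2 (by decide) hi)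
    · have hm' : (m.comap T.w).IsMaximal :=
        Ideal.comap_isMaximal_of_surjective _ T.w.surjective
      have hback : ∀ k, RingHom.ker (T.r k) ≤ m.comap T.w →
          (RingHom.ker (T.r k)).comap T.w ≤ m := fun k h x hx => by
        have := h hx
        rwa [Ideal.mem_comap, T.w_w] at this
      refine T.twoGenAt_comap_w (T.twoGenAt_only20 hm' ?_ ?_ ?_)
      · exact fun x hx => hi (show T.w x ∈ RingHom.ker (T.r 2) by
          rw [RingHom.mem_ker, T.r02_eq, T.w_w]; exact hx)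
      · exact fun h => hc 2 1 (by decide) hi (T.ker_one_comap_w ▸ hback 1 h)
      · intro h
        refine hc 2 0 (by decide) hi fun x hx => ?_
        refine hback 2 h ?_
        rw [Ideal.mem_comap, RingHom.mem_ker, T.r02_eq, T.w_w]
        exact hx

/-- A prime between a component and a closed point is one of the two. -/
theorem eq_ker_of_lt {m p : Ideal T.B} [p.IsPrime] {i : Fin 3} (hip : RingHom.ker (T.r i) ≤ p)
    (hpm : p < m) (hm : m ≠ ⊤) : p = RingHom.ker (T.r i) := by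
  have := T.isDomain_Rb
  have := T.dedekind
  refine le_antisymm ?_ hip
  have hcomap : (p.map (T.r i)).comap (T.r i) = p := by
    rw [Ideal.comap_map_of_surjective (T.r i) (T.r_surj i), ← RingHom.ker_eq_comap_bot,
      sup_of_le_left hip]
  by_contra hle
  have hne : p.map (T.r i) ≠ ⊥ := fun h => hle (by
    rw [h, ← RingHom.ker_eq_comap_bot] at hcomap; exact hcomap.ge)
  have hpr : (p.map (T.r i)).IsPrime := Ideal.map_isPrime_of_surjective (T.r_surj i) hip
  have hmax : p.IsMaximal := hcomap ▸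
    (have := hpr.isMaximal hne; Ideal.comap_isMaximal_of_surjective (T.r i) (T.r_surj i))
  exact hpm.ne (hmax.eq_of_le hm hpm.le)

/-- Locally `n`-th powers at the primes of height one are `n`-th powers near closed points. -/
theorem exists_root_at [IsNoetherianRing W] {m : Ideal T.B} (hm : m.IsMaximal) (hq : (q : T.B) ∈ m)
    {n : ℕ}
    (hn : 0 < n) {f : T.B} (hf : f ≠ 0)
    (hker : ∀ i, ∃ (g : F) (s t : T.B), T.r i s ≠ 0 ∧ T.r i t ≠ 0 ∧
      (s : F) * (f : F) = (t : F) * g ^ n)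
    (hdiv : ∀ p : Ideal T.B, p.IsPrime → (q : T.B) ∉ p → ∃ (g : F) (s t : T.B),
      s ∉ p ∧ t ∉ p ∧ (s : F) * (f : F) = (t : F) * g ^ n) :
    ∃ (g : F) (s t : T.B), s ∉ m ∧ t ∉ m ∧ (s : F) * (f : F) = (t : F) * g ^ n := by
  have := T.noetherian
  have := T.isDomain_Rb
  have hfrac : IsFractionRing T.B F := by
    refine IsFractionRing.of_field T.B F fun z => ?_
    obtain ⟨b, hb, hbz⟩ := T.frac z
    refine ⟨⟨_, hbz⟩, b, ?_⟩
    show z = ((b : F) * z) / (b : F)
    rw [eq_div_iff (fun h => hb (Subtype.ext h)), mul_comm]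
  obtain ⟨i, hi⟩ := T.cover m hm.isPrime hq
  have hne : RingHom.ker (T.r i) ≠ m := fun h => by
    obtain ⟨P, hP, hPm⟩ := T.exists_pt hm hi
    obtain ⟨y, hyP, hy0⟩ := Submodule.exists_mem_ne_zero_of_ne_bot
      (Ring.ne_bot_of_isMaximal_of_not_isField hP T.notField)
    obtain ⟨x, rfl⟩ := T.r_surj i y
    have hxm : x ∈ m := hPm ▸ hyP
    rw [← h] at hxm
    exact hy0 hxm
  exact (localFactor (T.twoGenAt hm hq)
    ⟨_, T.ker_prime i, T.ker_ne_bot i, lt_of_le_of_ne hi hne⟩).2 hn f hf fun p hp _ hpm => by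
      by_cases hqp : (q : T.B) ∈ p
      · obtain ⟨j, hj⟩ := T.cover p hp hqp
        rw [T.eq_ker_of_lt hj hpm hm.ne_top]
        exact hker j
      · exact hdiv p hp hqp

end ThreeSheet

end Fermat.Agent.Conn
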