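import Fermat.Agent.Conn.SheetsNormalise
import Fermat.Agent.Conn.ResHom
import Mathlib.RingTheory.Localization.FractionRing
import Mathlib.RingTheory.RootsOfUnity.PrimitiveRoots

/-!
# Residues on the three components

The residues of units along a component live in the fraction field of the base level.  When both
norms are constants times `n`-th powers, a fixed power of a normalised function has `n`-th powers
as residues on all three components.
-/

set_option autoImplicit false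

noncomputable section

namespace Fermat.Agent.Conn

namespace ThreeSheet

variable {W F R Rb : Type*} [CommRing W] [IsLocalRing W] [Field F]
    [Algebra W F] [CommRing R] [Algebra W R] [CommRing Rb] [Algebra W Rb] {q : ℕ}
variable (T : ThreeSheet W F R Rb q)

/-- The reduction on component `i`, into the fraction field of the base level. -/
def phi (i : Fin 3) : T.B →+* FractionRing Rb :=
  (algebraMap Rb (FractionRing Rb)).comp (T.r i).toRingHom

/-- Constants in the fraction field of the base level. -/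
def cK (_T : ThreeSheet W F R Rb q) : W →+* FractionRing Rb :=
  (algebraMap Rb (FractionRing Rb)).comp (algebraMap W Rb)

/-- The reduction followed by the inclusion into the fraction field. -/
theorem phi_apply (i : Fin 3) (b : T.B) :
    T.phi i b = algebraMap Rb (FractionRing Rb) (T.r i b) := rfl

/-- `phi` vanishes where the reduction does. -/
theorem phi_eq_zero {i : Fin 3} {b : T.B} : T.phi i b = 0 ↔ T.r i b = 0 := by
  rw [phi_apply, map_eq_zero_iff _ (IsFractionRing.injective Rb (FractionRing Rb))]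

theorem ker_phi (i : Fin 3) : RingHom.ker (T.phi i) = RingHom.ker (T.r i) := by
  ext b
  rw [RingHom.mem_ker, RingHom.mem_ker, phi_eq_zero]

/-- `B` injects into `F`. -/
theorem coe_injective : Function.Injective (algebraMap T.B F) := Subtype.val_injective

/-- `phi` on constants. -/
theorem phi_const (i : Fin 3) (c : W) : T.phi i (algebraMap W T.B c) = T.cK c := by
  rw [phi_apply, AlgHom.commutes]
  rfl

include T in
theorem algebraMap_eq_zero_of_residue {a : W} (h : IsLocalRing.residue W a = 0) :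
    algebraMap W Rb a = 0 := by
  rw [IsLocalRing.residue_eq_zero_iff, T.maximal_W, Ideal.mem_span_singleton] at h
  obtain ⟨d, rfl⟩ := h
  rw [map_mul, map_natCast, T.q_zero, zero_mul]

theorem cK_eq_of_residue {a b : W}
    (h : IsLocalRing.residue W a = IsLocalRing.residue W b) : T.cK a = T.cK b := by
  rw [← sub_eq_zero, ← map_sub] at h ⊢
  rw [cK, RingHom.comp_apply, T.algebraMap_eq_zero_of_residue h, map_zero]

/-- A unit along a component lies in its local ring. -/
theorem UnitAt.inLoc {T : ThreeSheet W F R Rb q} {i : Fin 3} {x : F} (h : T.UnitAt i x) :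
    InLoc (RingHom.ker (T.phi i)) x := by
  obtain ⟨s, t, hs, -, e⟩ := h
  exact ⟨s, fun h => hs ((T.phi_eq_zero).1 h), t, e⟩

/-- A constant times an `n`-th power which is a unit everywhere. -/
theorem exists_unit_root {n : ℕ} (hn : 0 < n) {x : F} (hx : ∀ i, T.UnitAt i x)
    (h : IsConstPow (W := W) (q := q) n x) :
    ∃ (c : W) (g : F), IsUnit c ∧ (∀ i, T.UnitAt i g) ∧ x = algebraMap W F c * g ^ n := by
  obtain ⟨c, j, g, hc, hg, rfl⟩ := h
  obtain ⟨a, ha, -⟩ := T.exists_hasOrd 0 hg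
  have hn' : (n : ℤ) ≠ 0 := by exact_mod_cast hn.ne'
  have hq0 : T.HasOrd 0 (q : F) 1 := by simpa using T.hasOrd_q 0
  have h0 := T.hasOrd_unique (T.hasOrd_mul (T.hasOrd_mul
    (T.hasOrd_of_unitAt (T.unitAt_const hc 0)) (T.hasOrd_zpow hq0 j)) (T.hasOrd_pow ha n))
    (T.hasOrd_of_unitAt (hx 0))
  have hj : j = (-a) * (n : ℤ) := by linear_combination h0
  have e : algebraMap W F c * (q : F) ^ j * g ^ n =
      algebraMap W F c * ((q : F) ^ (-a) * g) ^ n := by
    rw [mul_pow, ← zpow_natCast ((q : F) ^ (-a)) n, ← zpow_mul, ← hj]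
    ring
  refine ⟨c, (q : F) ^ (-a) * g, hc, fun i => ?_, e⟩
  have hne : (q : F) ^ (-a) * g ≠ 0 := mul_ne_zero (zpow_ne_zero _ T.q_ne) hg
  obtain ⟨b, hb, hu⟩ := T.exists_hasOrd i hne
  have h' := T.hasOrd_unique (T.hasOrd_mul (T.hasOrd_of_unitAt (T.unitAt_const hc i))
    (T.hasOrd_pow hb n)) (T.hasOrd_of_unitAt (e ▸ hx i))
  rw [zero_add, mul_eq_zero] at h'
  exact hu (h'.resolve_left hn')

/-- An element with a power which is a unit along a component is one itself. -/
theorem unitAt_of_pow {i : Fin 3} {x : F} {n : ℕ} (hn : 0 < n) (h : T.UnitAt i (x ^ n)) :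
    T.UnitAt i x := by
  have hx : x ≠ 0 := fun h0 => h.ne_zero (by rw [h0, zero_pow hn.ne'])
  obtain ⟨a, ha, hu⟩ := T.exists_hasOrd i hx
  have h' := T.hasOrd_unique (T.hasOrd_pow ha n) (T.hasOrd_of_unitAt h)
  rw [mul_eq_zero] at h'
  exact hu (h'.resolve_left (by exact_mod_cast hn.ne'))

variable [IsDomain Rb]

/-- The residue on component `i`. -/
def res (i : Fin 3) (x : F) : FractionRing Rb := resFrac (T.phi i) x

variable {T} {i : Fin 3} {x y : F}

/-- The residue of `t / s` along a component. -/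
theorem res_eq {s t : T.B} (hs : T.r i s ≠ 0) (e : (s : F) * x = t) :
    T.res i x = T.phi i t / T.phi i s :=
  resFrac_eq T.coe_injective (mt T.phi_eq_zero.1 hs) e

/-- Units along a component have non-zero residue. -/
theorem res_ne_zero (h : T.UnitAt i x) : T.res i x ≠ 0 := by
  obtain ⟨s, t, hs, ht, e⟩ := h
  rw [res_eq hs e]
  exact div_ne_zero (mt T.phi_eq_zero.1 ht) (mt T.phi_eq_zero.1 hs)

/-- Residues of units are multiplicative. -/
theorem res_mul (hx : T.UnitAt i x) (hy : T.UnitAt i y) :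
    T.res i (x * y) = T.res i x * T.res i y :=
  resFrac_mul T.coe_injective hx.inLoc hy.inLoc

/-- Residues of units commute with powers. -/
theorem res_pow (hx : T.UnitAt i x) (k : ℕ) : T.res i (x ^ k) = T.res i x ^ k :=
  (resFrac_pow T.coe_injective hx.inLoc k).2

/-- Residues of units commute with inversion. -/
theorem res_inv (hx : T.UnitAt i x) : T.res i x⁻¹ = (T.res i x)⁻¹ :=
  (inLoc_inv T.coe_injective hx.inLoc (res_ne_zero hx)).2

/-- Residues of units commute with quotients. -/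
theorem res_div (hx : T.UnitAt i x) (hy : T.UnitAt i y) :
    T.res i (x / y) = T.res i x / T.res i y := by
  rw [div_eq_mul_inv, res_mul hx hy.inv, res_inv hy, div_eq_mul_inv]

/-- Units with the same residue have ratio near `1`. -/
theorem near_of_res_eq (hx : InLoc (RingHom.ker (T.phi i)) x)
    (hy : InLoc (RingHom.ker (T.phi i)) y) (h : T.res i x = T.res i y) :
    Near (RingHom.ker (T.r i)) (x - y) := by
  have := RingHom.ker_isPrime (T.phi i)
  rw [← T.ker_phi, ← resFrac_eq_zero_iff T.coe_injective (hx.sub hy),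
    resFrac_sub T.coe_injective hx hy]
  exact sub_eq_zero.2 h

variable (T)

/-- The residue of an element of `B` is its reduction. -/
theorem res_coe (i : Fin 3) (b : T.B) : T.res i (b : F) = T.phi i b :=
  resFrac_algebraMap T.coe_injective b

/-- The residue of a constant. -/
theorem res_const (i : Fin 3) (c : W) : T.res i (algebraMap W F c) = T.cK c := by
  rw [show algebraMap W F c = ((algebraMap W T.B c : T.B) : F) from rfl, res_coe, phi_const]

/-- A common denominator for units on the three components. -/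
theorem exists_common_den {x : F} (hx : ∀ i, T.UnitAt i x) :
    ∃ b c : T.B, (∀ i, T.r i b ≠ 0 ∧ T.r i c ≠ 0) ∧ (b : F) * x = c := by
  let I : Ideal T.B :=
    { carrier := {b | (b : F) * x ∈ T.B}
      add_mem' := fun {a b} ha hb => by
        show ((a + b : T.B) : F) * x ∈ T.B
        rw [Subalgebra.coe_add, add_mul]
        exact add_mem ha hb
      zero_mem' := by
        show ((0 : T.B) : F) * x ∈ T.B
        rw [ZeroMemClass.coe_zero, zero_mul]
        exact zero_mem _
      smul_mem' := fun a b hb => by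
        show ((a * b : T.B) : F) * x ∈ T.B
        rw [MulMemClass.coe_mul, mul_assoc]
        exact mul_mem a.2 hb }
  have hI : ¬ (I : Set T.B) ⊆ ⋃ i ∈ (↑(Finset.univ : Finset (Fin 3)) : Set (Fin 3)),
      (RingHom.ker (T.r i) : Set T.B) := by
    rw [Ideal.subset_union_prime 0 0 fun i _ _ _ => T.ker_prime i]
    rintro ⟨i, -, hle⟩
    obtain ⟨s, t, hs, -, e⟩ := hx i
    exact hs (hle (show (s : F) * x ∈ T.B from e ▸ t.2))
  obtain ⟨b, hbI, hb⟩ := Set.not_subset.1 hI
  simp only [Finset.coe_univ, Set.mem_univ, Set.iUnion_true, Set.mem_iUnion, SetLike.mem_coe,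
    RingHom.mem_ker, not_exists] at hb
  refine ⟨b, ⟨_, hbI⟩, fun i => ⟨hb i, fun hc => ?_⟩, rfl⟩
  obtain ⟨s, t, hs, ht, e⟩ := hx i
  have h : s * (⟨_, hbI⟩ : T.B) = b * t := Subtype.ext (by
    show (s : F) * ((b : F) * x) = (b : F) * (t : F)
    rw [← e]; ring)
  have h' := congrArg (T.r i) h
  rw [map_mul, map_mul, hc, mul_zero] at h'
  exact mul_ne_zero (hb i) ht h'.symm

/-- The residues of the norm of a unit. -/
theorem res_NAF {x : F} (hx : ∀ i, T.UnitAt i x) :
    (∀ i, T.UnitAt i (T.NAF x)) ∧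
      T.res 0 (T.NAF x) = T.res 0 x * T.res 1 x ^ (q - 1) ∧
      T.res 1 (T.NAF x) = T.res 0 x * T.res 1 x ^ (q - 1) ∧
      T.res 2 (T.NAF x) = T.res 2 x ^ q := by
  obtain ⟨b, c, hbc, e⟩ := T.exists_common_den hx
  have hb0 : b ≠ 0 := fun h => (hbc 0).1 (by rw [h, map_zero])
  obtain ⟨hb20, hb11, hb02⟩ := T.NA_res b fun i => (hbc i).1
  obtain ⟨hc20, hc11, hc02⟩ := T.NA_res c fun i => (hbc i).2
  have hNb : ∀ i, T.r i (T.NA b) ≠ 0 := by
    intro i
    fin_cases i
    exacts [hb20 ▸ mul_ne_zero (hbc 0).1 (pow_ne_zero _ (hbc 1).1),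
      hb11 ▸ mul_ne_zero (hbc 0).1 (pow_ne_zero _ (hbc 1).1), hb02 ▸ pow_ne_zero _ (hbc 2).1]
  have hNc : ∀ i, T.r i (T.NA c) ≠ 0 := by
    intro i
    fin_cases i
    exacts [hc20 ▸ mul_ne_zero (hbc 0).2 (pow_ne_zero _ (hbc 1).2),
      hc11 ▸ mul_ne_zero (hbc 0).2 (pow_ne_zero _ (hbc 1).2), hc02 ▸ pow_ne_zero _ (hbc 2).2]
  have eN : (T.NA b : F) * T.NAF x = (T.NA c : F) := by
    rw [T.NAF_eq hb0 e, mul_div_cancel₀ _ (T.NA_ne_zero hb0)]
  refine ⟨fun i => ⟨_, _, hNb i, hNc i, eN⟩, ?_, ?_, ?_⟩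
  · rw [res_eq (hNb 0) eN, res_eq (hbc 0).1 e, res_eq (hbc 1).1 e, phi_apply, phi_apply, hb20,
      hc20, map_mul, map_mul, map_pow, map_pow, mul_div_mul_comm, div_pow]
    rfl
  · rw [res_eq (hNb 1) eN, res_eq (hbc 0).1 e, res_eq (hbc 1).1 e, phi_apply, phi_apply, hb11,
      hc11, map_mul, map_mul, map_pow, map_pow, mul_div_mul_comm, div_pow]
    rfl
  · rw [res_eq (hNb 2) eN, res_eq (hbc 2).1 e, phi_apply, phi_apply, hb02, hc02, map_pow, map_pow,
      div_pow]
    rfl

/-- The involution permutes the residues. -/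
theorem res_wF {i : Fin 3} {x : F} (hx : T.UnitAt (flip i) x) :
    T.res i (T.wF x) = T.res (flip i) x := by
  obtain ⟨s, t, hs, -, e⟩ := hx
  have hs' : s ≠ 0 := fun h => hs (by rw [h, map_zero])
  rw [res_eq (s := T.w s) (t := T.w t) (by rwa [T.r_w])
      (by rw [T.wF_eq hs' e, mul_div_cancel₀ _ (T.w_ne hs')]), res_eq hs e, phi_apply, phi_apply,
    T.r_w, T.r_w]
  rfl

/-- Every nonzero residue is the residue of a unit. -/
theorem exists_res_eq (i : Fin 3) {h : FractionRing Rb} (hh : h ≠ 0) :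
    ∃ x, T.UnitAt i x ∧ T.res i x = h := by
  obtain ⟨a, b, hb, rfl⟩ := IsFractionRing.div_surjective Rb h
  obtain ⟨a', rfl⟩ := T.r_surj i a
  obtain ⟨b', rfl⟩ := T.r_surj i b
  have hb' : T.r i b' ≠ 0 := nonZeroDivisors.ne_zero hb
  have ha' : T.r i a' ≠ 0 := fun h => hh (by rw [h, map_zero, zero_div])
  have hbF : (b' : F) ≠ 0 := T.ne_zero_of_coe fun h => hb' (by rw [h, map_zero])
  refine ⟨(a' : F) / b', ⟨b', a', hb', ha', mul_div_cancel₀ _ hbF⟩, ?_⟩
  rw [res_eq hb' (mul_div_cancel₀ _ hbF), phi_apply, phi_apply]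

theorem cK_ne_zero {a : W} (ha : IsUnit a) : T.cK a ≠ 0 := (ha.map T.cK).ne_zero

variable {n : ℕ} {ζ : W}

/-- `z ^ n = c w ^ n` gives `z = λ w` for a constant unit `λ`. -/
theorem exists_unit_factor (hn : 0 < n) (hζ1 : ζ ^ n = 1)
    (hζu : ∀ k : ℕ, 0 < k → k < n → IsUnit (ζ ^ k - 1))
    (hroot : ∀ a : IsLocalRing.ResidueField W, ∃ b, b ^ n = a)
    {c : W} (hc : IsUnit c) {z w : FractionRing Rb} (hw : w ≠ 0)
    (e : z ^ n = T.cK c * w ^ n) : ∃ l : W, IsUnit l ∧ z = T.cK l * w := by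
  obtain ⟨b, hb⟩ := hroot (IsLocalRing.residue W c)
  obtain ⟨d, rfl⟩ := IsLocalRing.residue_surjective b
  have hd : IsUnit d := by
    by_contra hd
    rw [← mem_nonunits_iff, ← IsLocalRing.mem_maximalIdeal, ← IsLocalRing.residue_eq_zero_iff] at hd
    rw [hd, zero_pow hn.ne', eq_comm, IsLocalRing.residue_eq_zero_iff,
      IsLocalRing.mem_maximalIdeal] at hb
    exact hb hc
  rw [← map_pow] at hb
  rw [← T.cK_eq_of_residue hb, map_pow, ← mul_pow] at e
  have hne : T.cK d * w ≠ 0 := mul_ne_zero (T.cK_ne_zero hd) hw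
  have hprim : IsPrimitiveRoot (T.cK ζ) n :=
    IsPrimitiveRoot.mk_of_lt _ hn (by rw [← map_pow, hζ1, map_one]) fun l hl hln h => by
      have h' := T.cK_ne_zero (hζu l hl hln)
      rw [map_sub, map_pow, h, map_one, sub_self] at h'
      exact h' rfl
  have : NeZero n := ⟨hn.ne'⟩
  obtain ⟨k, -, hk⟩ := hprim.eq_pow_of_pow_eq_one
    (show (z / (T.cK d * w)) ^ n = 1 by rw [div_pow, e, div_self (pow_ne_zero n hne)])
  refine ⟨ζ ^ k * d, ((IsUnit.of_pow_eq_one hζ1 hn.ne').pow k).mul hd, ?_⟩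
  rw [map_mul, map_pow, mul_assoc, hk, div_mul_cancel₀ _ hne]

/-- Roots of the residues exist after raising to the power `q - 1`. -/
theorem exists_res_root (hn : 0 < n) (hcop : Nat.Coprime q n)
    (hroot : ∀ a : IsLocalRing.ResidueField W, ∃ b, b ^ n = a)
    {x : F} (hx : ∀ i, T.UnitAt i x) (hA : IsConstPow (W := W) (q := q) n (T.NAF x))
    (hA' : IsConstPow (W := W) (q := q) n (T.NAF (T.wF x))) :
    ∃ G : Fin 3 → F, ∀ i, T.UnitAt i (G i) ∧ T.res i (G i) ^ n = T.res i (x ^ (q - 1)) := by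
  have hwx : ∀ i, T.UnitAt i (T.wF x) := fun i => T.unitAt_wF (hx (flip i))
  obtain ⟨hN, e0, -, e2⟩ := T.res_NAF hx
  obtain ⟨hN', -, -, e2'⟩ := T.res_NAF hwx
  rw [T.res_wF (i := 2) (hx (flip 2)), show flip (2 : Fin 3) = 0 from rfl] at e2'
  obtain ⟨c, g, hc, hg, eg⟩ := T.exists_unit_root hn hN hA
  obtain ⟨c', g', hc', hg', eg'⟩ := T.exists_unit_root hn hN' hA'
  -- constants have roots
  have hcroot : ∀ c : W, ∃ d : FractionRing Rb, d ^ n = T.cK c := fun c => by
    obtain ⟨b, hb⟩ := hroot (IsLocalRing.residue W c)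
    obtain ⟨d, rfl⟩ := IsLocalRing.residue_surjective b
    exact ⟨T.cK d, by rw [← map_pow] at hb ⊢; exact T.cK_eq_of_residue hb⟩
  have hval : ∀ (i : Fin 3) (c : W) (g : F), IsUnit c → T.UnitAt i g →
      ∃ h, T.res i (algebraMap W F c * g ^ n) = h ^ n := fun i c g hc hg => by
    obtain ⟨d, hd⟩ := hcroot c
    exact ⟨d * T.res i g,
      by rw [res_mul (T.unitAt_const hc i) (hg.pow n), res_pow hg, res_const, mul_pow, hd]⟩
  -- `q` is prime to `n`
  have hbez : ∀ z : FractionRing Rb, z ≠ 0 → (∃ h, z ^ q = h ^ n) → ∃ h, z = h ^ n := by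
    rintro z hz ⟨h, e⟩
    have hab := Nat.gcd_eq_gcd_ab q n
    rw [hcop.gcd_eq_one, Nat.cast_one] at hab
    refine ⟨h ^ Nat.gcdA q n * z ^ Nat.gcdB q n, ?_⟩
    have hh : h ≠ 0 := fun h0 => pow_ne_zero q hz (by rw [e, h0, zero_pow hn.ne'])
    calc z = z ^ ((q : ℤ) * Nat.gcdA q n + n * Nat.gcdB q n) := by rw [← hab, zpow_one]
      _ = (z ^ q) ^ Nat.gcdA q n * (z ^ Nat.gcdB q n) ^ n := by
        rw [zpow_add₀ hz, zpow_mul, zpow_natCast, mul_comm (n : ℤ), zpow_mul _ _ (n : ℤ),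
          zpow_natCast]
      _ = _ := by
        rw [e, mul_pow, ← zpow_natCast h n, ← zpow_mul, mul_comm (n : ℤ), zpow_mul, zpow_natCast]
  obtain ⟨a0, ha0⟩ := hbez _ (res_ne_zero (hx 0)) (by rw [← e2', eg']; exact hval 2 c' g' hc' (hg' 2))
  obtain ⟨a2, ha2⟩ := hbez _ (res_ne_zero (hx 2)) (by rw [← e2, eg]; exact hval 2 c g hc (hg 2))
  obtain ⟨b, hb⟩ := hval 0 c g hc (hg 0)
  have ha1 : T.res 1 x ^ (q - 1) = (b / a0) ^ n := by
    rw [div_pow, ← ha0, ← hb, ← eg, e0, mul_div_cancel_left₀ _ (res_ne_zero (hx 0))]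
  have key : ∀ i, ∃ h, T.res i (x ^ (q - 1)) = h ^ n := by
    intro i
    rw [res_pow (hx i)]
    fin_cases i
    · exact ⟨a0 ^ (q - 1), by rw [← pow_mul, mul_comm, pow_mul, ← ha0]; rfl⟩
    · exact ⟨b / a0, ha1⟩
    · exact ⟨a2 ^ (q - 1), by rw [← pow_mul, mul_comm, pow_mul, ← ha2]; rfl⟩
  choose h hh using key
  have hne : ∀ i, h i ≠ 0 := fun i h0 => res_ne_zero ((hx i).pow (q - 1))
    (by rw [hh i, h0, zero_pow hn.ne'])
  choose G hG hGr using fun i => T.exists_res_eq i (hne i)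
  exact ⟨G, fun i => ⟨hG i, by rw [hGr i, hh i]⟩⟩

end ThreeSheet

end Fermat.Agent.Conn
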