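import Mathlib.RingTheory.DedekindDomain.Basic
import Mathlib.RingTheory.FiniteType
import Mathlib.RingTheory.IntegralClosure.IsIntegralClosure.Basic
import Mathlib.RingTheory.LocalRing.MaximalIdeal.Basic
import Mathlib.Algebra.Polynomial.AlgebraMap

/-!
# A normal model with three components, two of them exchanged by an involution

The axioms satisfied by the affine model of `Y₀(q²N)` over the unramified integers `W` at `q`, in
terms of the residue maps to the reduction `Rb` of the model of level `N`.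
-/

set_option autoImplicit false

namespace Fermat.Agent.Conn

/-- The axioms of the three-component model.  `r 0`, `r 1`, `r 2` are the reductions on the
components `P20`, `P11`, `P02`; `e i` is the pullback along `τ ↦ q^i τ` from level `N`. -/
structure ThreeSheet (W F R Rb : Type*) [CommRing W] [IsLocalRing W] [Field F] [Algebra W F]
    [CommRing R] [Algebra W R] [CommRing Rb] [Algebra W Rb] (q : ℕ) where
  prime_q : q.Prime
  maximal_W : IsLocalRing.maximalIdeal W = Ideal.span {(q : W)}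
  q_ne : (q : F) ≠ 0
  /-- Teichmüller representatives of `𝔽_{q²}`. -/
  teich : ∀ a : W, (q : W) ∣ a ^ (q ^ 2) - a → ∃ a', a' ^ (q ^ 2) = a' ∧ (q : W) ∣ a' - a
  -- the base level
  finiteType : Algebra.FiniteType W R
  isDomain_Rb : IsDomain Rb
  dedekind : IsDedekindDomain Rb
  notField : ¬ IsField Rb
  point_const : ∀ P : Ideal Rb, P.IsMaximal → ∀ x, ∃ c : W, x - algebraMap W Rb c ∈ P
  q_zero : (q : Rb) = 0
  r0 : R →ₐ[W] Rb
  r0_surj : Function.Surjective r0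
  Fr : Rb →ₐ[W] Rb
  Fr_inj : Function.Injective Fr
  Fr_pow : ∀ y, ∃ x, Fr x = y ^ q
  h : R
  Fr_h : Fr (r0 h) = r0 h ^ q
  /-- The base level is unramified over the line with coordinate `h`. -/
  unramified : ∀ P : Ideal Rb, P.IsMaximal → ∀ a : W, r0 (h - algebraMap W R a) ∈ P →
    ∀ x, r0 x ∈ P → ∃ s, r0 s ∉ P ∧ s * x ∈ Ideal.span {(q : R), h - algebraMap W R a}
  -- the model
  B : Subalgebra W F
  noetherian : IsNoetherianRing B
  closed : ∀ x : F, IsIntegral B x → x ∈ B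
  frac : ∀ x : F, ∃ b : B, b ≠ 0 ∧ (b : F) * x ∈ B
  w : B ≃ₐ[W] B
  w_w : ∀ x, w (w x) = x
  e : Fin 3 → R →ₐ[W] B
  w_e : ∀ x, w (e 0 x) = e 2 x ∧ w (e 1 x) = e 1 x
  gen_frac : ∀ x : B, ∃ c ∈ Algebra.adjoin W (⋃ i, Set.range (e i)), c ≠ 0 ∧
    c * x ∈ Algebra.adjoin W (⋃ i, Set.range (e i))
  gen_int : ∀ x : B, IsIntegral (Algebra.adjoin W (⋃ i, Set.range (e i))) x
  r : Fin 3 → B →ₐ[W] Rb
  r20_e : ∀ x, r 0 (e 0 x) = r0 x ∧ r 0 (e 1 x) = Fr (r0 x) ∧ r 0 (e 2 x) = Fr (Fr (r0 x))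
  r11_e : ∀ x, r 1 (e 0 x) = r0 x ∧ r 1 (e 1 x) = Fr (r0 x) ∧ r 1 (e 2 x) = r0 x
  r02_eq : ∀ x, r 2 x = r 0 (w x)
  r11_w : ∀ x, r 1 (w x) = r 1 x
  cover : ∀ p : Ideal B, p.IsPrime → (q : B) ∈ p → ∃ i, RingHom.ker (r i) ≤ p
  antichain : ∀ i j, RingHom.ker (r i) ≤ RingHom.ker (r j) → i = j
  /-- `P20` is unramified over `q`. -/
  ram20 : ∀ x, r 0 x = 0 → ∃ s, r 0 s ≠ 0 ∧ (q : B) ∣ s * x
  /-- `P11` has ramification index at most `q - 1`. -/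
  ram11 : ∀ x, r 1 x = 0 → ∃ s, r 1 s ≠ 0 ∧ (q : B) ∣ s * x ^ (q - 1)
  /-- Divisibility by `q` is detected on the components. -/
  q_dvd : ∀ b, (∀ i, ∃ s, r i s ≠ 0 ∧ (q : B) ∣ s * b) → (q : B) ∣ b
  -- supersingular points
  u : B
  u_unit : ∃ (v : B) (k : ℕ), u * v = (q : B) ^ k
  p12 : Rb
  p12_ne : p12 ≠ 0
  r20_u : r 0 u = p12 ^ q
  r11_u : r 1 u = 0
  r02_u : r 2 u = 0
  e0h_ne : e 0 h ≠ e 2 h
  /-- The Kronecker congruence `(z - X^q) (z^q - X) + q ρ(z, X)`; the inner variable is `z`. -/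
  ρ : Polynomial (Polynomial W)
  kronecker : (e 1 h - e 0 h ^ q) * (e 1 h ^ q - e 0 h) +
    (q : B) * (ρ.map (Polynomial.aeval (e 1 h)).toRingHom).eval (e 0 h) = 0
  kronecker' : (e 1 h - e 2 h ^ q) * (e 1 h ^ q - e 2 h) +
    (q : B) * (ρ.map (Polynomial.aeval (e 1 h)).toRingHom).eval (e 2 h) = 0
  ρ_ne : ∀ P : Ideal Rb, P.IsMaximal → p12 ∈ P →
    r 0 ((ρ.map (Polynomial.aeval (e 1 h)).toRingHom).eval (e 0 h)) ∉ P
  ordinary : ∃ P : Ideal Rb, P.IsMaximal ∧ p12 ∉ P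
  /-- Away from the supersingular points the middle component has ramification `q - 1`. -/
  mid : ∀ P : Ideal Rb, P.IsMaximal → p12 ∉ P → ∃ s b, r 1 s ∉ P ∧ r 1 b ∉ P ∧
    s * (e 2 h - e 0 h) ^ (q - 1) = (q : B) * b
  -- the norm to level `qN`
  NA : B →* B
  NA_dvd : ∀ x, x ∣ NA x
  NA_const : ∀ c : W, NA (algebraMap W B c) = algebraMap W B c ^ q
  NA_res : ∀ x, (∀ i, r i x ≠ 0) → r 0 (NA x) = r 0 x * r 1 x ^ (q - 1) ∧
    r 1 (NA x) = r 0 x * r 1 x ^ (q - 1) ∧ r 2 (NA x) = r 2 x ^ q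
  /-- Orders of the norm on the outer components (`b` is `(q - 1)` times the middle order). -/
  NA_ord : ∀ (x : B) (a b c : ℕ),
    (∃ s t, r 0 s ≠ 0 ∧ r 0 t ≠ 0 ∧ s * x = t * (q : B) ^ a) →
    (∃ s t, r 1 s ≠ 0 ∧ r 1 t ≠ 0 ∧ s * x ^ (q - 1) = t * (q : B) ^ b) →
    (∃ s t, r 2 s ≠ 0 ∧ r 2 t ≠ 0 ∧ s * x = t * (q : B) ^ c) →
    (∃ s t, r 0 s ≠ 0 ∧ r 0 t ≠ 0 ∧ s * NA x = t * (q : B) ^ (a + b)) ∧
      ∃ s t, r 2 s ≠ 0 ∧ r 2 t ≠ 0 ∧ s * NA x = t * (q : B) ^ (q * c)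
  NA_mid : ∀ x s b, r 0 x ≠ 0 → r 1 s ≠ 0 → r 1 b ≠ 0 → s * x ^ (q - 1) = (q : B) * b →
    ∃ c : W, IsUnit c ∧ ∀ i, i ≠ 2 → ∃ s' b', r i s' ≠ 0 ∧ s' * NA x = (q : B) * b' ∧
      r i b' * r 1 s = algebraMap W Rb c * r i s' * r 0 x * r 1 b

end Fermat.Agent.Conn
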