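import Mathlib.RingTheory.Ideal.KrullsHeightTheorem
import Mathlib.RingTheory.UniqueFactorizationDomain.Kaplansky
import Mathlib.RingTheory.Filtration
import Mathlib.RingTheory.Nakayama

/-!
# Two-dimensional Noetherian local domains with a two-generated maximal ideal

Such a ring `A` with maximal ideal `(x, y)` is factorial and `x` is prime.  This is a short
self-contained substitute for "regular local rings are UFDs" in dimension two.
-/

set_option autoImplicit false

namespace Fermat.Agent.Conn

open IsLocalRing Ideal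

variable {A : Type*} [CommRing A] [IsDomain A] [IsLocalRing A] [IsNoetherianRing A]
variable {x y : A}

/-- If the maximal ideal is `(x, y)` and there is a prime strictly between `⊥` and it, then no
power of `y` lies in `(x)`. -/
theorem pow_notMem_span_of_chain (hm : maximalIdeal A = span {x, y})
    (hdim : ∃ P : Ideal A, P.IsPrime ∧ P ≠ ⊥ ∧ P ≠ maximalIdeal A) (k : ℕ) :
    y ^ k ∉ span {x} := by
  intro hk
  obtain ⟨P, hP, hP0, hPm⟩ := hdim
  have hxm : x ∈ maximalIdeal A := hm ▸ Ideal.subset_span (by simp)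
  have hmin : maximalIdeal A ∈ (span {x}).minimalPrimes := by
    refine ⟨⟨(maximalIdeal.isMaximal A).isPrime, (span_singleton_le_iff_mem _).2 hxm⟩, ?_⟩
    rintro Q ⟨hQ, hxQ⟩ -
    rw [hm, span_le, Set.insert_subset_iff, Set.singleton_subset_iff]
    refine ⟨hxQ (mem_span_singleton_self x), ?_⟩
    exact hQ.mem_of_pow_mem k (hxQ hk)
  have h1 : (maximalIdeal A).height ≤ 1 := height_le_one_of_isPrincipal_of_mem_minimalPrimes _ _ hmin
  have := hP
  have : (⊥ : Ideal A).IsPrime := isPrime_bot
  have hlt1 : (⊥ : Ideal A) < P := bot_lt_iff_ne_bot.2 hP0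
  have hlt2 : P < maximalIdeal A := lt_of_le_of_ne (le_maximalIdeal hP.ne_top) hPm
  have h2 := height_add_one_le_of_lt_of_isPrime hlt1
  have h3 := height_add_one_le_of_lt_of_isPrime hlt2
  rw [Ideal.height_bot, zero_add] at h2
  have h4 : (1 : ℕ∞) + 1 ≤ 1 := (add_le_add_left h2 1).trans (h3.trans h1) |> fun h => by
    simpa using h
  exact absurd h4 (by decide)

omit [IsDomain A] in
/-- Modulo `x`, every element is zero or a unit times a power of `y`. -/
theorem exists_unit_mul_pow_sub_mem (hm : maximalIdeal A = span {x, y}) {a : A}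
    (ha : a ∉ span {x}) : ∃ (k : ℕ) (u : Aˣ), a - u * y ^ k ∈ span {x} := by
  classical
  by_contra hne
  push Not at hne
  have hxm : x ∈ maximalIdeal A := hm ▸ Ideal.subset_span (by simp)
  have : Nontrivial (A ⧸ span {x}) :=
    Ideal.Quotient.nontrivial_iff.2 fun h => by
      have h1 : (1 : A) ∈ span {x} := h ▸ Submodule.mem_top
      exact (maximalIdeal.isMaximal A).ne_top
        ((Ideal.eq_top_iff_one _).2 ((span_singleton_le_iff_mem _).2 hxm h1))
  have : IsLocalRing (A ⧸ span {x}) :=
    IsLocalRing.of_surjective' (Ideal.Quotient.mk _) Ideal.Quotient.mk_surjective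
  have hy : Ideal.Quotient.mk (span {x}) y ∈ maximalIdeal (A ⧸ span {x}) := by
    rw [mem_maximalIdeal, mem_nonunits_iff]
    intro hu
    obtain ⟨b, hb⟩ := hu.exists_right_inv
    obtain ⟨b, rfl⟩ := Ideal.Quotient.mk_surjective b
    rw [← map_mul, ← map_one (Ideal.Quotient.mk (span {x})), Ideal.Quotient.eq] at hb
    have hym : y ∈ maximalIdeal A := hm ▸ Ideal.subset_span (by simp)
    have h1 : (1 : A) ∈ maximalIdeal A := by
      have h' := sub_mem ((maximalIdeal A).mul_mem_right b hym)
        ((span_singleton_le_iff_mem _).2 hxm hb)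
      simp at h'
    exact (maximalIdeal.isMaximal A).ne_top ((Ideal.eq_top_iff_one _).2 h1)
  have hall : ∀ k : ℕ, Ideal.Quotient.mk (span {x}) a ∈ span {Ideal.Quotient.mk (span {x}) y ^ k} := by
    intro k
    induction k with
    | zero => simp
    | succ k ih =>
      obtain ⟨c, hc⟩ := mem_span_singleton'.1 ih
      obtain ⟨c, rfl⟩ := Ideal.Quotient.mk_surjective c
      by_cases hcu : IsUnit c
      · exact absurd (Ideal.Quotient.eq.1 (by rw [map_mul, map_pow, IsUnit.unit_spec, hc]))
          (hne k hcu.unit)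
      · have hcm : c ∈ span {x, y} := hm ▸ (by rwa [mem_maximalIdeal, mem_nonunits_iff])
        obtain ⟨s, t, hst⟩ := mem_span_pair.1 hcm
        refine mem_span_singleton'.2 ⟨Ideal.Quotient.mk _ t, ?_⟩
        rw [← hc, ← hst, map_add, map_mul, map_mul,
          (Ideal.Quotient.eq_zero_iff_mem.2 (mem_span_singleton_self x) :
            Ideal.Quotient.mk (span {x}) x = 0)]
        ring
  have h0 : Ideal.Quotient.mk (span {x}) a ∈
      ⨅ i : ℕ, span {Ideal.Quotient.mk (span {x}) y} ^ i := by
    simpa only [Submodule.mem_iInf, span_singleton_pow] using hall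
  rw [iInf_pow_eq_bot_of_isLocalRing] at h0
  · exact ha (Ideal.Quotient.eq_zero_iff_mem.1 h0)
  · intro h
    exact (maximalIdeal.isMaximal _).ne_top
      (top_le_iff.1 (h ▸ (span_singleton_le_iff_mem _).2 hy))

variable (hm : maximalIdeal A = span {x, y})
  (hdim : ∃ P : Ideal A, P.IsPrime ∧ P ≠ ⊥ ∧ P ≠ maximalIdeal A)
include hm hdim

omit [IsDomain A] in
theorem ne_zero_of_two_generated : x ≠ 0 := by
  rintro rfl
  obtain ⟨P, hP, hP0, hPm⟩ := hdim
  by_cases hyP : y ∈ P
  · exact hPm (le_antisymm (le_maximalIdeal hP.ne_top)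
      (hm ▸ span_le.2 (by simp [Set.insert_subset_iff, hyP])))
  · obtain ⟨a, haP, ha0⟩ := Submodule.exists_mem_ne_zero_of_ne_bot hP0
    obtain ⟨k, u, hku⟩ := exists_unit_mul_pow_sub_mem hm (a := a)
      (by simpa [mem_span_singleton] using ha0)
    rw [mem_span_singleton, zero_dvd_iff, sub_eq_zero] at hku
    rw [hku] at haP
    exact hyP (hP.mem_of_pow_mem k
      ((hP.mem_or_mem haP).resolve_left fun hu => hP.ne_top (eq_top_of_isUnit_mem _ hu u.isUnit)))

/-- The first generator is a prime element. -/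
theorem prime_of_two_generated : Prime x := by
  have hx0 := ne_zero_of_two_generated hm hdim
  rw [← span_singleton_prime hx0, isPrime_iff]
  refine ⟨fun h => pow_notMem_span_of_chain hm hdim 0 (by rw [h]; trivial), fun {a b} hab => ?_⟩
  by_contra hne
  push Not at hne
  obtain ⟨k, u, hku⟩ := exists_unit_mul_pow_sub_mem hm hne.1
  obtain ⟨l, v, hlv⟩ := exists_unit_mul_pow_sub_mem hm hne.2
  refine pow_notMem_span_of_chain hm hdim (k + l) ?_
  have h1 : ((u : A) * v) * y ^ (k + l) ∈ span {x} := by
    have h := sub_mem (sub_mem hab (Ideal.mul_mem_right b _ hku))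
      (Ideal.mul_mem_left _ ((u : A) * y ^ k) hlv)
    convert h using 1
    ring
  exact (Ideal.unit_mul_mem_iff_mem _ (u.isUnit.mul v.isUnit)).1 h1

omit [IsDomain A] hdim in
/-- A prime ideal avoiding the prime element `x` is principal. -/
theorem exists_eq_span_of_notMem (hm' : x ∈ maximalIdeal A) {Q : Ideal A}
    (hQ : Q.IsPrime) (hxQ : x ∉ Q) : ∃ a, Q = span {a} := by
  classical
  have key : ∀ z ∈ Q, z ∈ span {x} → z ∈ span {x} • Q := by
    intro z hzQ hz
    obtain ⟨c, rfl⟩ := mem_span_singleton'.1 hz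
    rw [mul_comm] at hzQ ⊢
    exact Submodule.smul_mem_smul (mem_span_singleton_self x) ((hQ.mem_or_mem hzQ).resolve_left hxQ)
  have hjac : span {x} ≤ Ideal.jacobson (⊥ : Ideal A) := by
    rw [IsLocalRing.jacobson_eq_maximalIdeal ⊥ bot_ne_top]
    exact (span_singleton_le_iff_mem _).2 hm'
  by_cases hsub : Q ≤ span {x}
  · refine ⟨0, ?_⟩
    have h : Q ≤ span {x} • Q := fun z hz => key z hz (hsub hz)
    rw [Submodule.eq_bot_of_le_smul_of_le_jacobson_bot _ _ (IsNoetherian.noetherian Q) h hjac,
      span_singleton_zero]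
  · have hex : ∃ k : ℕ, ∃ a ∈ Q, ∃ u : Aˣ, a - u * y ^ k ∈ span {x} := by
      obtain ⟨a, haQ, hax⟩ := SetLike.not_le_iff_exists.1 hsub
      obtain ⟨k, u, h⟩ := exists_unit_mul_pow_sub_mem hm hax
      exact ⟨k, a, haQ, u, h⟩
    obtain ⟨a, haQ, u, hau⟩ := Nat.find_spec hex
    set k := Nat.find hex with hk
    refine ⟨a, le_antisymm ?_ ((span_singleton_le_iff_mem _).2 haQ)⟩
    refine Submodule.le_of_le_smul_of_le_jacobson_bot (IsNoetherian.noetherian Q) hjac fun z hz => ?_
    by_cases hzx : z ∈ span {x}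
    · exact Submodule.mem_sup_right (key z hz hzx)
    · obtain ⟨l, v, hzv⟩ := exists_unit_mul_pow_sub_mem hm hzx
      have hkl : k ≤ l := Nat.find_min' hex ⟨z, hz, v, hzv⟩
      obtain ⟨j, rfl⟩ := Nat.exists_eq_add_of_le hkl
      set c : A := (v : A) * (u⁻¹ : Aˣ) * y ^ j with hc
      have h2 : z - c * a ∈ span {x} := by
        have h := sub_mem hzv ((span {x}).mul_mem_left c hau)
        convert h using 1
        rw [hc, pow_add]
        linear_combination (-((v : A) * y ^ j * y ^ k)) * (Units.inv_mul u)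
      have h3 := key _ (sub_mem hz (Q.mul_mem_left c haQ)) h2
      exact Submodule.mem_sup.2 ⟨c * a, Ideal.mul_mem_left _ c (mem_span_singleton_self a),
        z - c * a, h3, by ring⟩

/-- A two-dimensional Noetherian local domain with two-generated maximal ideal is factorial. -/
theorem uniqueFactorizationMonoid_of_two_generated : UniqueFactorizationMonoid A := by
  have hx := prime_of_two_generated hm hdim
  have hxm : x ∈ maximalIdeal A := hm ▸ Ideal.subset_span (by simp)
  refine UniqueFactorizationMonoid.iff_exists_prime_mem_of_isPrime.2 fun Q hQ0 hQ => ?_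
  by_cases hxQ : x ∈ Q
  · exact ⟨x, hxQ, hx⟩
  · obtain ⟨a, rfl⟩ := exists_eq_span_of_notMem hm hxm hQ hxQ
    have ha : a ≠ 0 := fun h => hQ0 (by rw [h, span_singleton_zero])
    exact ⟨a, mem_span_singleton_self a, (span_singleton_prime ha).1 hQ⟩

end Fermat.Agent.Conn
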